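import Mathlib.Algebra.Polynomial.AlgebraMap
import Mathlib.LinearAlgebra.Finsupp.LinearCombination

/-!
# Lattices without first cohomology are generated in degree one

`a` is a coordinate with inverse `b`; `p` is stable under `a` and `m` under `b`.  If `p + m` is
everything and `s` spans `{v ∈ p | b v ∈ m}`, then the combinations of the `s j` with coefficients
polynomial in `a` exhaust `p`.
-/

set_option autoImplicit false

noncomputable section

open Polynomial

namespace Fermat.Agent.RelPic

variable {R A M : Type*} [CommRing R] [CommRing A] [Algebra R A] [AddCommGroup M] [Module R M]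
  [Module A M] [IsScalarTower R A M] {ι : Type*} [Fintype ι]

/-- Combinations with polynomial coefficients. -/
def polyComb (a : A) (s : ι → M) : (ι → R[X]) →ₗ[R] M where
  toFun f := ∑ j, aeval a (f j) • s j
  map_add' f g := by simp [add_smul, Finset.sum_add_distrib]
  map_smul' r f := by simp [Finset.smul_sum, smul_assoc]

theorem polyComb_apply (a : A) (s : ι → M) (f : ι → R[X]) :
    polyComb a s f = ∑ j, aeval a (f j) • s j := rfl

theorem polyComb_X_mul (a : A) (s : ι → M) (f : ι → R[X]) :
    polyComb a s (fun j => X * f j) = a • polyComb a s f := by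
  simp [polyComb_apply, Finset.smul_sum, mul_smul]

theorem polyComb_C (a : A) (s : ι → M) (r : ι → R) :
    polyComb a s (fun j => C (r j)) = ∑ j, r j • s j := by
  simp [polyComb_apply, algebraMap_smul]

theorem mem_range_polyComb {a b : A} (hab : a * b = 1) {p m : Submodule R M} {s : ι → M}
    (hap : ∀ v ∈ p, a • v ∈ p) (hbm : ∀ v ∈ m, b • v ∈ m)
    (hcov : ∀ n ∈ p, b • n ∈ p ⊔ m)
    (hs : ∀ v ∈ p, b • v ∈ m → ∃ r : ι → R, ∑ j, r j • s j = v) :
    ∀ (i : ℕ), ∀ n ∈ p, b ^ i • n ∈ m → n ∈ LinearMap.range (polyComb (R := R) a s) := by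
  intro i
  induction i with
  | zero =>
    intro n hn hnm
    rw [pow_zero, one_smul] at hnm
    obtain ⟨r, rfl⟩ := hs n hn (hbm n hnm)
    exact ⟨fun j => C (r j), polyComb_C a s r⟩
  | succ i ih =>
    intro n hn hnm
    obtain ⟨x, hx, y, hy, hxy⟩ := Submodule.mem_sup.mp (hcov n hn)
    have hn' : n = a • x + a • y := by
      rw [← smul_add, hxy, smul_smul, hab, one_smul]
    have hay : a • y ∈ p := by
      have : a • y = n - a • x := by rw [hn']; abel
      rw [this]
      exact p.sub_mem hn (hap x hx)
    obtain ⟨r, hr⟩ := hs (a • y) hay (by rw [smul_smul, mul_comm b a, hab, one_smul]; exact hy)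
    have hpow : ∀ l : ℕ, b ^ l • y ∈ m := fun l => by
      induction l with
      | zero => simpa using hy
      | succ l hl => rw [pow_succ', mul_smul]; exact hbm _ hl
    have hxm : b ^ i • x ∈ m := by
      have : b ^ i • x = b ^ (i + 1) • n - b ^ i • y := by
        rw [pow_succ, mul_smul, ← hxy, smul_add]; abel
      rw [this]
      exact m.sub_mem hnm (hpow i)
    obtain ⟨f, hf⟩ := ih x hx hxm
    refine ⟨(fun j => X * f j) + fun j => C (r j), ?_⟩
    rw [map_add, polyComb_X_mul, polyComb_C, hf, hr, hn']

theorem range_polyComb {a b : A} (hab : a * b = 1) {p m : Submodule R M} {s : ι → M}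
    (hap : ∀ v ∈ p, a • v ∈ p) (hbm : ∀ v ∈ m, b • v ∈ m)
    (hcov : ∀ n ∈ p, b • n ∈ p ⊔ m)
    (hs : ∀ v ∈ p, b • v ∈ m → ∃ r : ι → R, ∑ j, r j • s j = v)
    (hex : ∀ n ∈ p, ∃ i : ℕ, b ^ i • n ∈ m) (hsp : ∀ j, s j ∈ p) :
    LinearMap.range (polyComb (R := R) a s) = p := by
  refine le_antisymm ?_ fun n hn => ?_
  · rintro _ ⟨f, rfl⟩
    refine Submodule.sum_mem _ fun j _ => ?_
    induction f j using Polynomial.induction_on' with
    | add u v hu hv => rw [map_add, add_smul]; exact p.add_mem hu hv
    | monomial l r =>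
      rw [aeval_monomial, mul_smul, algebraMap_smul]
      refine p.smul_mem r ?_
      induction l with
      | zero => simpa using hsp j
      | succ l hl => rw [pow_succ', mul_smul]; exact hap _ hl
  · obtain ⟨i, hi⟩ := hex n hn
    exact mem_range_polyComb hab hap hbm hcov hs i n hn hi

end Fermat.Agent.RelPic
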