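import Fermat.Agent.RelPic.Basic
import Fermat.Agent.RelPic.Chart.Generate
import Mathlib.RingTheory.Flat.Basic
import Mathlib.LinearAlgebra.StdBasis
import Mathlib.Algebra.Polynomial.Basis

/-!
# Polynomial bases of the chart rings over `Spec R`
-/

set_option autoImplicit false

noncomputable section

universe u

open scoped TensorProduct
open Polynomial

namespace Fermat.Agent.RelPic

variable {k : Type u} [Field k] {E : Type u} [CommRing E] [Algebra k E]
variable (R : Type u) [CommRing R] [Algebra k R] {d : ℕ}

/-- The functions of a chart with coordinate `y` and basis `b`, inside the overlap over `Spec R`. -/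
def chartComb (y : E) (b : Fin d → E) : (Fin d → R[X]) →ₗ[R] R ⊗[k] E :=
  polyComb (A := R ⊗[k] E) (M := R ⊗[k] E) ((1 : R) ⊗ₜ[k] y) fun i => (1 : R) ⊗ₜ[k] b i

theorem chartComb_apply (y : E) (b : Fin d → E) (f : Fin d → R[X]) :
    chartComb (k := k) R y b f = ∑ i, aeval ((1 : R) ⊗ₜ[k] y) (f i) * ((1 : R) ⊗ₜ b i) := rfl

theorem chartComb_single (y : E) (b : Fin d → E) (i : Fin d) (n : ℕ) :
    chartComb (k := k) R y b (Pi.single i (monomial n 1)) = (1 : R) ⊗ₜ (y ^ n * b i) := by
  classical
  rw [chartComb_apply, Finset.sum_eq_single i]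
  · simp [aeval_monomial, Algebra.TensorProduct.tmul_pow]
  · intro j _ hj; simp [Pi.single_eq_of_ne hj]
  · simp

theorem chartComb_injective {Q : Subalgebra k E} {y : Q} {b : Fin d → Q}
    (hb : Function.Injective fun f : Fin d → k[X] => ∑ i, aeval y (f i) * b i) :
    Function.Injective (chartComb (k := k) R (y : E) fun i => (b i : E)) := by
  classical
  let v : (Σ _ : Fin d, ℕ) → E := fun l => (y : E) ^ l.2 * b l.1
  have hli : LinearIndependent k v := by
    let Φ : (Fin d → k[X]) →ₗ[k] E := Q.val.toLinearMap ∘ₗ polyComb (R := k) y b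
    have hΦ : LinearMap.ker Φ = ⊥ :=
      LinearMap.ker_eq_bot.mpr (Subtype.val_injective.comp hb)
    have h0 := (Pi.basis fun _ : Fin d => Polynomial.basisMonomials k).linearIndependent.map' Φ hΦ
    refine (show v = Φ ∘ Pi.basis (fun _ : Fin d => basisMonomials k) from ?_) ▸ h0
    funext ⟨i, n⟩
    show (y : E) ^ n * b i = Φ (Pi.basis (fun _ : Fin d => Polynomial.basisMonomials k) ⟨i, n⟩)
    rw [Pi.basis_apply, coe_basisMonomials]
    show _ = ((∑ j, aeval y ((Pi.single i (monomial n (1 : k)) : Fin d → k[X]) j) • b j : Q) : E)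
    rw [Finset.sum_eq_single i (fun j _ hj => by simp [Pi.single_eq_of_ne hj]) (by simp)]
    simp [aeval_monomial]
  have hR := Module.Flat.linearIndependent_one_tmul (S := R) hli
  let B := Pi.basis fun _ : Fin d => Polynomial.basisMonomials R
  have key : chartComb (k := k) R (y : E) (fun i => (b i : E)) ∘ₗ B.repr.symm.toLinearMap =
      Finsupp.linearCombination R fun l => (1 : R) ⊗ₜ[k] v l := by
    refine Finsupp.lhom_ext fun ⟨i, n⟩ r => ?_
    rw [LinearMap.comp_apply, LinearEquiv.coe_coe, Finsupp.linearCombination_single,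
      ← mul_one r, ← smul_eq_mul, ← Finsupp.smul_single, map_smul, map_smul,
      Module.Basis.repr_symm_single_one, Pi.basis_apply, coe_basisMonomials]
    simp only [chartComb_single, smul_eq_mul, mul_one, v]
  intro f g hfg
  have := congrArg B.repr.symm (a₁ := B.repr f) (a₂ := B.repr g) ?_
  · simpa using this
  refine hR ?_
  rw [← key]
  simpa using hfg

theorem range_chartComb {Q : Subalgebra k E} {y : Q} {b : Fin d → Q}
    (hb : Function.Surjective fun f : Fin d → k[X] => ∑ i, aeval y (f i) * b i) :
    LinearMap.range (chartComb (k := k) R (y : E) fun i => (b i : E)) =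
      Subalgebra.toSubmodule
        (Algebra.TensorProduct.map (AlgHom.id R R) Q.val).range := by
  refine le_antisymm ?_ ?_
  · rintro _ ⟨f, rfl⟩
    rw [chartComb_apply]
    refine sum_mem fun i _ => ?_
    refine Subalgebra.mul_mem _ ?_ ⟨(1 : R) ⊗ₜ b i, by simp⟩
    refine ⟨aeval ((1 : R) ⊗ₜ[k] y) (f i), ?_⟩
    rw [AlgHom.toRingHom_eq_coe, RingHom.coe_coe, ← aeval_algHom_apply]
    simp
  · rintro _ ⟨z, rfl⟩
    induction z with
    | zero => simp
    | add a b ha hb => rw [map_add]; exact add_mem ha hb
    | tmul r q =>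
      obtain ⟨f, hf⟩ := hb q
      refine ⟨r • fun i => (f i).map (algebraMap k R), ?_⟩
      rw [map_smul, chartComb_apply, ← hf]
      have hterm : ∀ i, aeval ((1 : R) ⊗ₜ[k] (y : E)) ((f i).map (algebraMap k R)) =
          Algebra.TensorProduct.includeRight (R := k) (A := R) ((aeval y (f i) : Q) : E) := by
        intro i
        rw [aeval_map_algebraMap, ← Subalgebra.coe_val, ← aeval_algHom_apply, ← aeval_algHom_apply]
        rfl
      simp only [hterm, AlgHom.toRingHom_eq_coe, RingHom.coe_coe, Algebra.TensorProduct.map_tmul,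
        AlgHom.coe_id, id_eq]
      rw [map_sum, TensorProduct.tmul_sum, Finset.smul_sum]
      refine Finset.sum_congr rfl fun i _ => ?_
      simp [TensorProduct.smul_tmul']

theorem mapA_chartComb {R' : Type u} [CommRing R'] [Algebra k R'] (φ : R →ₐ[k] R') (y : E)
    (b : Fin d → E) (f : Fin d → R[X]) :
    Algebra.TensorProduct.map φ (AlgHom.id k E) (chartComb (k := k) R y b f) =
      chartComb (k := k) R' y b (fun i => (f i).map φ.toRingHom) := by
  rw [chartComb_apply, chartComb_apply, map_sum]
  refine Finset.sum_congr rfl fun i _ => ?_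
  rw [map_mul, Algebra.TensorProduct.map_tmul, map_one, AlgHom.id_apply]
  congr 1
  induction f i using Polynomial.induction_on' with
  | add p q hp hq => simp [hp, hq]
  | monomial n r =>
    simp [aeval_monomial, Algebra.TensorProduct.tmul_pow, Algebra.TensorProduct.algebraMap_apply]

namespace Model

variable (C : Model k)

/-- A basis of the first chart ring over the polynomials. -/
def bp : Fin C.d → C.A₀ := fun i => Subalgebra.inclusion C.Ap_le (C.free_p.choose i)

/-- Elements of the first chart ring over `Spec R` in coordinates. -/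
def combP : (Fin C.d → R[X]) →ₗ[R] C.A R :=
  chartComb R ⟨C.x, C.Ap_le C.x_mem⟩ C.bp

end Model

section inclusion

variable {Q A₀ : Subalgebra k E}

theorem chartComb_inclusion_injective (h : Q ≤ A₀) {y : Q} {b : Fin d → Q}
    (hb : Function.Injective fun f : Fin d → k[X] => ∑ i, aeval y (f i) * b i) :
    Function.Injective (chartComb (k := k) R (Subalgebra.inclusion h y)
      fun i => Subalgebra.inclusion h (b i)) := by
  let e : Q →ₐ[k] (Subalgebra.inclusion h).range := (Subalgebra.inclusion h).rangeRestrict
  refine chartComb_injective R (y := e y) (b := fun i => e (b i)) fun f g hfg => hb ?_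
  have he : Function.Injective e := fun a a' ha =>
    Subalgebra.inclusion_injective h (congrArg Subtype.val ha)
  refine he ?_
  simpa [map_sum, aeval_algHom_apply] using hfg

theorem range_chartComb_inclusion (h : Q ≤ A₀) {y : Q} {b : Fin d → Q}
    (hb : Function.Surjective fun f : Fin d → k[X] => ∑ i, aeval y (f i) * b i) :
    LinearMap.range (chartComb (k := k) R (Subalgebra.inclusion h y)
      fun i => Subalgebra.inclusion h (b i)) =
      Subalgebra.toSubmodule
        (Algebra.TensorProduct.map (AlgHom.id R R) (Subalgebra.inclusion h)).range := by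
  let e : Q →ₐ[k] (Subalgebra.inclusion h).range := (Subalgebra.inclusion h).rangeRestrict
  have hsurj : Function.Surjective fun f : Fin d → k[X] => ∑ i, aeval (e y) (f i) * e (b i) := by
    intro z
    obtain ⟨_, q, rfl⟩ := z
    obtain ⟨f, hf⟩ := hb q
    refine ⟨f, ?_⟩
    simp only [aeval_algHom_apply, ← map_mul, ← map_sum]
    show e _ = e q
    rw [← hf]
  refine (range_chartComb R hsurj).trans (congrArg Subalgebra.toSubmodule ?_)
  refine le_antisymm ?_ ?_
  · rintro _ ⟨z, rfl⟩
    induction z with
    | zero => simp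
    | add a b ha hb => rw [map_add]; exact add_mem ha hb
    | tmul r q =>
      obtain ⟨_, q, rfl⟩ := q
      exact ⟨r ⊗ₜ q, rfl⟩
  · rintro _ ⟨z, rfl⟩
    induction z with
    | zero => simp
    | add a b ha hb => rw [map_add]; exact add_mem ha hb
    | tmul r q => exact ⟨r ⊗ₜ e q, rfl⟩

end inclusion

namespace Model

variable (C : Model k)

theorem combP_injective : Function.Injective (C.combP R) :=
  chartComb_inclusion_injective R (E := C.F) (Q := C.Ap) (A₀ := C.A₀) C.Ap_le (y := ⟨C.x, C.x_mem⟩)
    (b := C.free_p.choose) C.free_p.choose_spec.injective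

theorem range_combP : LinearMap.range (C.combP R) = Subalgebra.toSubmodule (C.Cp R) :=
  range_chartComb_inclusion R (E := C.F) (Q := C.Ap) (A₀ := C.A₀) C.Ap_le (y := ⟨C.x, C.x_mem⟩)
    (b := C.free_p.choose) C.free_p.choose_spec.surjective

end Model

end Fermat.Agent.RelPic
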