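import Fermat.Agent.RelPic.Chart.FromTriple

/-!
# The chart condition in terms of the twisted triple

A rigidified triple lies in a chart exactly when its twist has a normalised frame, provided the
marked point and the evaluation points avoid the twisting points.
-/

set_option autoImplicit false
set_option synthInstance.maxHeartbeats 400000

noncomputable section

universe u

open scoped TensorProduct

namespace Fermat.Agent.RelPic

variable {k : Type u} [Field k] {C : Model k} {R : Type u} [CommRing R] [Algebra k R]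

namespace Triple

theorem mem_mShift_succ (T : Triple C R) (n : ℕ) (v : T.M) :
    v ∈ Idx.mShift T (n + 1) ↔ C.Y₀ R • v ∈ Idx.mShift T n := by
  constructor
  · rintro ⟨w, hw, rfl⟩
    refine ⟨w, hw, ?_⟩
    show C.X₀ R ^ n • w = C.Y₀ R • (C.X₀ R ^ (n + 1) • w)
    rw [smul_smul, pow_succ', ← mul_assoc, mul_comm (C.Y₀ R) (C.X₀ R), C.X₀_mul_Y₀, one_mul]
  · rintro ⟨w, hw, hwv⟩
    refine ⟨w, hw, ?_⟩
    change C.X₀ R ^ n • w = C.Y₀ R • v at hwv
    show C.X₀ R ^ (n + 1) • w = v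
    rw [pow_succ', mul_smul, hwv, smul_smul, C.X₀_mul_Y₀, one_smul]

end Triple

namespace Idx

variable (i : Idx C)

/-- The ideal of the twisting points on the overlap. -/
abbrev J (R : Type u) [CommRing R] [Algebra k R] : Ideal (C.A R) :=
  (i.Q.map fun Q => RingHom.ker (C.evalR R Q)).prod

theorem isCoprime_ker {P Q : C.Pt} (h : P ≠ Q) :
    IsCoprime (RingHom.ker (C.evalR R P)) (RingHom.ker (C.evalR R Q)) := by
  obtain ⟨a, ha⟩ : ∃ a, P a ≠ Q a := by
    by_contra hne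
    exact h (AlgHom.ext fun a => not_not.mp fun h' => hne ⟨a, h'⟩)
  have hu : IsUnit (algebraMap k R (Q a - P a)) :=
    (isUnit_iff_ne_zero.mpr (sub_ne_zero.mpr (Ne.symm ha))).map _
  obtain ⟨u, hu⟩ := hu
  refine Ideal.isCoprime_iff_exists.mpr
    ⟨algebraMap R (C.A R) ↑u⁻¹ * ((1 : R) ⊗ₜ a - algebraMap R (C.A R) (algebraMap k R (P a))), ?_,
      -(algebraMap R (C.A R) ↑u⁻¹ * ((1 : R) ⊗ₜ a - algebraMap R (C.A R) (algebraMap k R (Q a)))),
      ?_, ?_⟩
  · rw [RingHom.mem_ker, map_mul, map_sub, C.evalR_one_tmul, AlgHom.commutes, AlgHom.commutes,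
      Algebra.algebraMap_self, RingHom.id_apply, RingHom.id_apply, sub_self, mul_zero]
  · rw [RingHom.mem_ker, map_neg, map_mul, map_sub, C.evalR_one_tmul, AlgHom.commutes,
      AlgHom.commutes, Algebra.algebraMap_self, RingHom.id_apply, RingHom.id_apply, sub_self, mul_zero, neg_zero]
  · rw [← sub_eq_add_neg, ← mul_sub, sub_sub_sub_cancel_left, ← map_sub, ← map_sub, ← hu,
      ← map_mul, Units.inv_mul, map_one]

theorem isCoprime_J {P : C.Pt} (h : P ∉ i.Q) : IsCoprime (i.J R) (RingHom.ker (C.evalR R P)) := by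
  unfold Idx.J
  generalize i.Q = L at h ⊢
  induction L with
  | nil => rw [List.map_nil, List.prod_nil]; exact isCoprime_one_left
  | cons Q L ih =>
    rw [List.mem_cons, not_or] at h
    rw [List.map_cons, List.prod_cons]
    exact (isCoprime_ker (Ne.symm h.1)).mul_left (ih h.2)

theorem J_le_ker {P : C.Pt} (h : P ∈ i.Q) : i.J R ≤ RingHom.ker (C.evalR R P) := by
  unfold Idx.J
  generalize i.Q = L at h ⊢
  induction L with
  | nil => simp at h
  | cons Q L ih =>
    rw [List.map_cons, List.prod_cons]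
    rcases List.mem_cons.mp h with rfl | h
    · exact Ideal.mul_le_left
    · exact le_trans Ideal.mul_le_right (ih h)

/-- The marked point and the evaluation points avoid the twisting points. -/
def Avoids (e : C.Pt) : Prop := (∀ l, i.P l ∉ i.Q) ∧ e ∉ i.Q

/-- `N` is the twist of `T` in the chart `i`. -/
structure IsTwist (T N : Triple C R) where
  ι : N.M →ₗ[C.A R] T.M
  inj : Function.Injective ι
  range : ∀ v, v ∈ i.sub T ↔ ∃ w, ι w = v
  mem_p : ∀ w, w ∈ N.p ↔ ι w ∈ T.p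
  mem_m : ∀ w, w ∈ N.m ↔ ι w ∈ mShift T i.m

namespace IsTwist

variable {i} {T N : Triple C R} (tw : i.IsTwist T N)

/-- Twists may be replaced by isomorphic triples. -/
def congr {N' : Triple C R} (E : Triple.Equiv N' N) : i.IsTwist T N' where
  ι := tw.ι ∘ₗ E.toEquiv.toLinearMap
  inj := tw.inj.comp E.toEquiv.injective
  range v := (tw.range v).trans ⟨fun ⟨w, hw⟩ => ⟨E.toEquiv.symm w, by simp [hw]⟩,
    fun ⟨w, hw⟩ => ⟨E.toEquiv w, hw⟩⟩
  mem_p w := (E.mem_p w).trans (tw.mem_p _)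
  mem_m w := (E.mem_m w).trans (tw.mem_m _)

include tw

theorem range_eq : LinearMap.range tw.ι = i.J R • (⊤ : Submodule (C.A R) T.M) := by
  ext v
  exact (tw.range v).symm

theorem ι_mem_sub (w : N.M) : tw.ι w ∈ i.sub T := (tw.range _).mpr ⟨w, rfl⟩

theorem mem_vanishAt {q : C.A R →ₐ[R] R} (hq : IsCoprime (i.J R) (RingHom.ker q)) (w : N.M) :
    tw.ι w ∈ T.vanishAt q ↔ w ∈ N.vanishAt q := by
  simp only [Triple.vanishAt, Submodule.restrictScalars_mem]
  constructor
  · intro hw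
    obtain ⟨a, ha, b, hb, hab⟩ := Ideal.isCoprime_iff_exists.mp hq
    have h1 : a • tw.ι w ∈ RingHom.ker q • LinearMap.range tw.ι := by
      rw [range_eq, ← Submodule.smul_assoc]
      have hcomm : RingHom.ker q • i.J R = i.J R * RingHom.ker q :=
        (smul_eq_mul _ _).trans (Ideal.mul_comm _ _)
      rw [hcomm]
      exact (Submodule.smul_assoc (i.J R) (RingHom.ker q) (⊤ : Submodule (C.A R) T.M)).ge
        (Submodule.smul_mem_smul ha hw)
    have h2 : b • tw.ι w ∈ RingHom.ker q • LinearMap.range tw.ι :=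
      Submodule.smul_mem_smul hb ⟨w, rfl⟩
    have h3 := add_mem h1 h2
    rw [← add_smul, hab, one_smul, LinearMap.range_eq_map, ← Submodule.map_smul''] at h3
    obtain ⟨w', hw', hww⟩ := h3
    rwa [← tw.inj hww]
  · intro hw
    have h1 := Submodule.mem_map_of_mem (f := tw.ι) hw
    rw [Submodule.map_smul''] at h1
    exact Submodule.smul_mono le_rfl le_top h1

theorem exists_sub_mem_vanishAt {q : C.A R →ₐ[R] R} (hq : IsCoprime (i.J R) (RingHom.ker q))
    (v : T.M) : ∃ w, v - tw.ι w ∈ T.vanishAt q := by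
  obtain ⟨a, ha, b, hb, hab⟩ := Ideal.isCoprime_iff_exists.mp hq
  have hav : a • v ∈ i.J R • (⊤ : Submodule (C.A R) T.M) :=
    Submodule.smul_mem_smul ha Submodule.mem_top
  rw [← tw.range_eq] at hav
  obtain ⟨w, hw⟩ := hav
  refine ⟨w, ?_⟩
  have h1 : v - a • v = b • v := by
    rw [sub_eq_iff_eq_add', ← add_smul, hab, one_smul]
  rw [hw, h1, Triple.vanishAt, Submodule.restrictScalars_mem]
  exact Submodule.smul_mem_smul hb Submodule.mem_top

theorem mem_sections (w : N.M) :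
    tw.ι w ∈ i.sections T ↔ w ∈ N.pR ∧ C.Y₀ R • w ∈ N.mR := by
  have hm : tw.ι w ∈ mShift T (i.m + 1) ↔ C.Y₀ R • w ∈ N.m := by
    rw [Triple.mem_mShift_succ, tw.mem_m, map_smul]
  exact ⟨fun h => ⟨(tw.mem_p w).mpr h.1.2, hm.mp h.2.2⟩,
    fun h => ⟨⟨tw.ι_mem_sub w, (tw.mem_p w).mp h.1⟩, tw.ι_mem_sub w, hm.mpr h.2⟩⟩

/-- A rigidified triple in the chart has a twist with a normalised frame. -/
theorem exists_nframe {e : C.Pt} (hav : i.Avoids e) (hrig : T.IsRigid e) (h : i.InChart T e) :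
    ∃ s, NFrame i e N s := by
  obtain ⟨hsup, s, hs, huniq, hvan, hgen, hgene⟩ := h
  obtain ⟨r, hr, hsurj⟩ := hrig
  choose w hw using fun j => (tw.range (s j)).mp (hs j).1.1
  have hu : ∀ j, ∃ c, c * r (s j) = 1 := fun j => by
    obtain ⟨v, hv⟩ := hsurj 1
    have hmem : v ∈ T.vanishAt (C.evalR R e) ⊔ Submodule.span R {s j} := hgene j ▸ Submodule.mem_top
    obtain ⟨a, ha, b, hb, hab⟩ := Submodule.mem_sup.mp hmem
    obtain ⟨c, rfl⟩ := Submodule.mem_span_singleton.mp hb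
    refine ⟨c, ?_⟩
    rw [← hv, ← hab, map_add, (T.mem_vanishAt_iff hr hsurj).mp ha, zero_add, map_smul, smul_eq_mul]
  choose c hc using hu
  have hcs : ∀ j, (c j * r (s j)) • w j = w j := fun j => by rw [hc, one_smul]
  refine ⟨fun j => c j • w j, ?_, fun j => ?_, fun j => ?_, fun v hv hv' => ?_, fun j l hjl => ?_,
    fun j => ?_, ⟨r ∘ₗ tw.ι.restrictScalars R, fun a v => ?_, fun j => ?_⟩⟩
  · refine eq_top_iff.mpr fun v _ => ?_
    obtain ⟨a, ha, b, hb, hab⟩ := Submodule.mem_sup.mp (hsup (tw.ι_mem_sub v))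
    obtain ⟨wa, rfl⟩ := (tw.range a).mp ha.1
    obtain ⟨wb, rfl⟩ := (tw.range b).mp hb.1
    rw [← map_add] at hab
    rw [← tw.inj hab]
    exact Submodule.add_mem_sup ((tw.mem_p wa).mpr ha.2)
      ((tw.mem_m wb).mpr (by simpa using hb.2))
  · exact Submodule.smul_mem _ _ ((tw.mem_sections _).mp (by rw [hw]; exact hs j)).1
  · rw [smul_comm]
    exact Submodule.smul_mem _ _ ((tw.mem_sections _).mp (by rw [hw]; exact hs j)).2
  · obtain ⟨f, hf, -⟩ := huniq (tw.ι v) ((tw.mem_sections v).mpr ⟨hv, hv'⟩)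
    refine ⟨fun j => f j * r (s j), tw.inj ?_⟩
    rw [← hf, map_sum]
    refine Finset.sum_congr rfl fun j _ => ?_
    rw [smul_smul, mul_assoc, mul_comm (r (s j)), hc, mul_one, LinearMap.map_smul_of_tower, hw]
  · refine Submodule.smul_mem _ _ ((tw.mem_vanishAt (i.isCoprime_J (hav.1 l)) _).mp ?_)
    rw [hw]
    exact hvan j l hjl
  · refine eq_top_iff.mpr fun v _ => ?_
    have hmem : tw.ι v ∈ T.vanishAt (C.evalR R (i.P j)) ⊔ Submodule.span R {s j} :=
      hgen j ▸ Submodule.mem_top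
    obtain ⟨a, ha, b, hb, hab⟩ := Submodule.mem_sup.mp hmem
    obtain ⟨t, rfl⟩ := Submodule.mem_span_singleton.mp hb
    refine Submodule.mem_sup.mpr ⟨v - t • w j, ?_, _,
      Submodule.smul_mem _ (t * r (s j)) (Submodule.mem_span_singleton_self (c j • w j)), ?_⟩
    · refine (tw.mem_vanishAt (i.isCoprime_J (hav.1 j)) _).mp ?_
      rwa [map_sub, LinearMap.map_smul_of_tower, hw, ← hab, add_sub_cancel_right]
    · rw [smul_smul, mul_assoc, mul_comm (r (s j)), hc, mul_one, sub_add_cancel]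
  · show r (tw.ι (a • v)) = _
    rw [map_smul, hr]
    rfl
  · show r (tw.ι (c j • w j)) = 1
    rw [LinearMap.map_smul_of_tower, map_smul, hw, smul_eq_mul, hc]

theorem gen_of_nframe {q : C.A R →ₐ[R] R} (hq : IsCoprime (i.J R) (RingHom.ker q)) {w₀ : N.M}
    (h : N.vanishAt q ⊔ Submodule.span R {w₀} = ⊤) :
    T.vanishAt q ⊔ Submodule.span R {tw.ι w₀} = ⊤ := by
  refine eq_top_iff.mpr fun v _ => ?_
  obtain ⟨w, hw⟩ := tw.exists_sub_mem_vanishAt hq v
  obtain ⟨a, ha, b, hb, hab⟩ := Submodule.mem_sup.mp (h ▸ Submodule.mem_top : w ∈ N.vanishAt q ⊔ _)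
  obtain ⟨t, rfl⟩ := Submodule.mem_span_singleton.mp hb
  refine Submodule.mem_sup.mpr ⟨(v - tw.ι w) + tw.ι a, add_mem hw ((tw.mem_vanishAt hq a).mpr ha),
    t • tw.ι w₀, Submodule.smul_mem _ _ (Submodule.mem_span_singleton_self _), ?_⟩
  rw [← hab, map_add, LinearMap.map_smul_of_tower]
  abel

/-- A triple whose twist has a normalised frame lies in the chart and is rigidified. -/
theorem inChart_of_nframe {e : C.Pt} (hav : i.Avoids e) {s : Fin C.d → N.M}
    (h : NFrame i e N s) : i.InChart T e ∧ T.IsRigid e := by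
  obtain ⟨rN, hrN, hrs⟩ := h.norm
  have hsurjN : Function.Surjective rN := fun t =>
    ⟨t • s ⟨0, C.d_pos⟩, by rw [map_smul, hrs, smul_eq_mul, mul_one]⟩
  have hegen : ∀ j, N.vanishAt (C.evalR R e) ⊔ Submodule.span R {s j} = ⊤ := fun j =>
    eq_top_iff.mpr fun v _ => Submodule.mem_sup.mpr ⟨v - rN v • s j,
      (N.mem_vanishAt_iff hrN hsurjN).mpr
        (by rw [map_sub, map_smul, hrs, smul_eq_mul, mul_one, sub_self]),
      _, Submodule.smul_mem _ _ (Submodule.mem_span_singleton_self _), sub_add_cancel _ _⟩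
  refine ⟨⟨fun v hv => ?_, fun j => tw.ι (s j), fun j => ?_, fun v hv => ?_, fun j l hjl => ?_,
    fun j => ?_, fun j => ?_⟩, ?_⟩
  · obtain ⟨w, rfl⟩ := (tw.range v).mp hv
    obtain ⟨a, ha, b, hb, rfl⟩ := Submodule.mem_sup.mp (h.sup ▸ Submodule.mem_top : w ∈ N.pR ⊔ N.mR)
    rw [map_add]
    exact Submodule.add_mem_sup ⟨tw.ι_mem_sub a, (tw.mem_p a).mp ha⟩
      ⟨tw.ι_mem_sub b, (tw.mem_m b).mp hb⟩
  · exact (tw.mem_sections _).mpr ⟨h.mem_p j, h.mem_m j⟩
  · obtain ⟨w, rfl⟩ := (tw.range v).mp hv.1.1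
    obtain ⟨f, hf⟩ := h.span w ((tw.mem_sections w).mp hv).1 ((tw.mem_sections w).mp hv).2
    refine ⟨f, ?_, fun g hg => funext fun l => ?_⟩
    · show ∑ j, f j • tw.ι (s j) = tw.ι w
      rw [← hf, map_sum]
      exact Finset.sum_congr rfl fun j _ => (LinearMap.map_smul_of_tower _ _ _).symm
    · obtain ⟨r, hr, hrsl⟩ := N.exists_coord (h.gen l)
      have hsurj : Function.Surjective r := fun t =>
        ⟨t • s l, by rw [map_smul, hrsl, smul_eq_mul, mul_one]⟩
      have key : ∀ f : Fin C.d → R, r (∑ j, f j • s j) = f l := fun f => by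
        rw [map_sum, Finset.sum_eq_single l (fun j _ hj => ?_) (by simp), map_smul, hrsl,
          smul_eq_mul, mul_one]
        rw [map_smul, (N.mem_vanishAt_iff hr hsurj).mp (h.vanish j l hj), smul_zero]
      have hgw : ∑ j, g j • s j = w := tw.inj (by
        rw [map_sum, ← hg]
        exact Finset.sum_congr rfl fun j _ => LinearMap.map_smul_of_tower _ _ _)
      rw [← key g, hgw, ← hf, key f]
  · exact (tw.mem_vanishAt (i.isCoprime_J (hav.1 l)) _).mpr (h.vanish j l hjl)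
  · exact tw.gen_of_nframe (i.isCoprime_J (hav.1 j)) (h.gen j)
  · exact tw.gen_of_nframe (i.isCoprime_J hav.2) (hegen j)
  · obtain ⟨r, hr, hr1⟩ := T.exists_coord (tw.gen_of_nframe (i.isCoprime_J hav.2) (hegen ⟨0, C.d_pos⟩))
    exact ⟨r, hr, fun t => ⟨t • tw.ι (s ⟨0, C.d_pos⟩), by rw [map_smul, hr1, smul_eq_mul, mul_one]⟩⟩

end IsTwist

/-- If an evaluation point or the marked point is a twisting point, the chart is empty. -/
theorem subsingleton_of_inChart {e : C.Pt} (hav : ¬ i.Avoids e) {T : Triple C R}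
    (h : i.InChart T e) : Subsingleton R := by
  obtain ⟨-, s, hs, -, -, hgen, hgene⟩ := h
  obtain ⟨q, hq, j, hj⟩ : ∃ q : C.Pt, q ∈ i.Q ∧ ∃ j,
      T.vanishAt (C.evalR R q) ⊔ Submodule.span R {s j} = ⊤ := by
    by_cases he : e ∈ i.Q
    · exact ⟨e, he, ⟨0, C.d_pos⟩, hgene _⟩
    · obtain ⟨l, hl⟩ : ∃ l, i.P l ∈ i.Q := by
        by_contra hne
        exact hav ⟨fun l hl => hne ⟨l, hl⟩, he⟩
      exact ⟨i.P l, hl, l, hgen l⟩
  have hmem : (1 : R) • s j ∈ T.vanishAt (C.evalR R q) := by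
    rw [one_smul]
    exact Submodule.smul_mono (i.J_le_ker hq) le_rfl (hs j).1.1
  exact subsingleton_of_zero_eq_one (T.eq_zero_of_smul_mem_vanishAt hj hmem).symm

end Idx

end Fermat.Agent.RelPic
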