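import Fermat.Agent.RelPic.Chart.Rep

/-!
# The matrix models of a chart are represented by a finitely presented algebra
-/

set_option autoImplicit false

noncomputable section

universe u

open scoped TensorProduct LaurentPolynomial
open LaurentPolynomial (T)

namespace Fermat.Agent.RelPic

variable {k : Type u} [Field k] {C : Model k}

namespace RepRing

variable (i : Idx C) (e : C.Pt) (G : Finset C.A₀) (N : ℕ)

/-- The variables: coefficients of the entries of the matrices of the generators. -/
abbrev Var : Type u :=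
  ↥G × Fin C.d × Fin C.d × ↥(Finset.Icc (-(N : ℤ)) N)

/-- The ring of the coefficients. -/
abbrev Poly : Type u := MvPolynomial (Var (C := C) G N) k

/-- The generic matrix of a generator. -/
def gen (γ : G) : Matrix (Fin C.d) (Fin C.d) (Poly (C := C) G N)[T;T⁻¹] :=
  Matrix.of fun j l => ∑ n : Finset.Icc (-(N : ℤ)) N,
    AddMonoidAlgebra.single (n : ℤ) (MvPolynomial.X (γ, j, l, n))

theorem coeff_gen (γ : G) (j l : Fin C.d) (n : ℤ) :
    (gen (C := C) G N γ j l).coeff n =
      if h : n ∈ Finset.Icc (-(N : ℤ)) N then MvPolynomial.X (γ, j, l, ⟨n, h⟩) else 0 := by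
  classical
  simp only [gen, Matrix.of_apply, AddMonoidAlgebra.coeff_sum, Finsupp.finsetSum_apply,
    AddMonoidAlgebra.coeff_single, Finsupp.single_apply]
  split
  · next h =>
    rw [Finset.sum_eq_single ⟨n, h⟩]
    · simp
    · intro b _ hb
      rw [if_neg]
      exact fun h' => hb (Subtype.ext h')
    · simp
  · next h =>
    refine Finset.sum_eq_zero fun b _ => if_neg fun h' => h ?_
    exact h' ▸ b.2

/-- Evaluation of words in the generators at the generic matrices. -/
def word : FreeAlgebra k G →ₐ[k] Matrix (Fin C.d) (Fin C.d) (Poly (C := C) G N)[T;T⁻¹] :=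
  FreeAlgebra.lift k (gen (C := C) G N)

/-- The value of a word. -/
def val : FreeAlgebra k G →ₐ[k] C.A₀ := FreeAlgebra.lift k fun γ : G => (γ : C.A₀)

/-- The equations of the chart. -/
def eqns : Ideal (Poly (C := C) G N) :=
  Ideal.span ({q | ∃ r, val G r = 0 ∧ ∃ j l n, q = (word G N r j l).coeff n} ∪
    {q | ∃ r, val G r = C.xUnit ∧ ∃ j l n,
      q = (word G N r j l).coeff n -
        (((T 1 : (Poly (C := C) G N)[T;T⁻¹]) •
          (1 : Matrix (Fin C.d) (Fin C.d) (Poly (C := C) G N)[T;T⁻¹])) j l).coeff n} ∪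
    {q | ∃ r, ((val G r : C.A₀) : C.F) ∈ C.Ap ∧ ∃ j l, ∃ n : ℤ, n < 0 ∧
      q = (word G N r j l).coeff n} ∪
    {q | ∃ r, ((val G r : C.A₀) : C.F) ∈ C.Am ∧ ∃ j l, ∃ n : ℤ, 0 < n ∧
      q = (word G N r j l).coeff n} ∪
    {q | ∃ r j l, q = laurentEval (C.xAt _ (i.P j)) (word G N r j l) -
      if j = l then algebraMap k _ (i.P j (val G r)) else 0} ∪
    {q | ∃ r l, q = ∑ j, laurentEval (C.xAt _ e) (word G N r j l) -
      algebraMap k _ (e (val G r))})

/-- The representing ring. -/
abbrev Ring : Type u := Poly (C := C) G N ⧸ eqns i e G N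

/-- The quotient map. -/
abbrev q : Poly (C := C) G N →ₐ[k] Ring i e G N := Ideal.Quotient.mkₐ k _

theorem q_eq_zero {z : Poly (C := C) G N} (hz : z ∈ eqns i e G N) : q i e G N z = 0 :=
  Ideal.Quotient.eq_zero_iff_mem.mpr hz

/-- Words in the universal matrices. -/
def uword : FreeAlgebra k G →ₐ[k] Matrix (Fin C.d) (Fin C.d) (Ring i e G N)[T;T⁻¹] :=
  (laurentMap (q i e G N)).mapMatrix.comp (word G N)

variable {G N}

theorem val_surjective (hG : Algebra.adjoin k (G : Set C.A₀) = ⊤) :
    Function.Surjective (val (C := C) (k := k) G) := by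
  intro a
  have ha : a ∈ Algebra.adjoin k (Set.range fun γ : G => (γ : C.A₀)) := by
    rw [show Set.range (fun γ : G => (γ : C.A₀)) = (G : Set C.A₀) by ext; simp, hG]
    exact Algebra.mem_top
  rw [Algebra.adjoin_range_eq_range_freeAlgebra_lift] at ha
  exact ha

theorem uword_eq_zero {r : FreeAlgebra k G} (hr : val G r = 0) : uword i e G N r = 0 := by
  ext j l n
  simp only [uword, AlgHom.comp_apply, AlgHom.mapMatrix_apply, Matrix.map_apply, laurentMap_coeff]
  exact q_eq_zero i e G N (Ideal.subset_span (by left; left; left; left; left; exact ⟨r, hr, j, l, n, rfl⟩))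

variable (hG : Algebra.adjoin k (G : Set C.A₀) = ⊤)

/-- The universal action. -/
def urho : C.A₀ →ₐ[k] Matrix (Fin C.d) (Fin C.d) (Ring i e G N)[T;T⁻¹] :=
  AlgHom.ofLinearMap
    { toFun := fun a => uword i e G N ((val_surjective hG a).choose)
      map_add' := fun a b => by
        rw [← map_add, ← sub_eq_zero, ← map_sub]
        refine uword_eq_zero i e ?_
        simp [(val_surjective hG _).choose_spec]
      map_smul' := fun c a => by
        rw [RingHom.id_apply, ← map_smul, ← sub_eq_zero, ← map_sub]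
        refine uword_eq_zero i e ?_
        simp [(val_surjective hG _).choose_spec] }
    (by
      show uword i e G N _ = 1
      rw [← map_one (uword i e G N), ← sub_eq_zero, ← map_sub]
      refine uword_eq_zero i e ?_
      simp [(val_surjective hG _).choose_spec])
    (fun a b => by
      show uword i e G N _ = uword i e G N _ * uword i e G N _
      rw [← map_mul, ← sub_eq_zero, ← map_sub]
      refine uword_eq_zero i e ?_
      simp [(val_surjective hG _).choose_spec])

theorem urho_val (r : FreeAlgebra k G) : urho (N := N) i e hG (val G r) = uword i e G N r := by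
  show uword i e G N _ = _
  rw [← sub_eq_zero, ← map_sub]
  refine uword_eq_zero i e ?_
  simp [(val_surjective hG _).choose_spec]

theorem xAt_q (Q : C.Pt) :
    Units.map (q i e G N : Poly (C := C) G N →* Ring i e G N) (C.xAt _ Q) = C.xAt _ Q :=
  Rep.xAt_map _ Q

/-- The universal matrix model. -/
def univ : Rep i e (Ring i e G N) where
  ρ := urho i e hG
  ρ_x := by
    obtain ⟨r, hr⟩ := val_surjective hG (C.xUnit : C.A₀)
    rw [← hr, urho_val]
    ext j l n
    have := q_eq_zero i e G N (z := (word G N r j l).coeff n -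
        (((T 1 : (Poly (C := C) G N)[T;T⁻¹]) •
          (1 : Matrix (Fin C.d) (Fin C.d) (Poly (C := C) G N)[T;T⁻¹])) j l).coeff n)
      (Ideal.subset_span (by left; left; left; left; right; exact ⟨r, hr, j, l, n, rfl⟩))
    rw [map_sub, sub_eq_zero] at this
    simp only [uword, AlgHom.comp_apply, AlgHom.mapMatrix_apply, Matrix.map_apply, laurentMap_coeff]
    rw [this, ← laurentMap_coeff]
    congr 1
    by_cases h : j = l <;> simp [h, laurentMap_T]
  pos a ha j l n hn := by
    obtain ⟨r, rfl⟩ := val_surjective hG a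
    rw [urho_val]
    simp only [uword, AlgHom.comp_apply, AlgHom.mapMatrix_apply, Matrix.map_apply, laurentMap_coeff]
    exact q_eq_zero i e G N (Ideal.subset_span (by
      left; left; left; right; exact ⟨r, ha, j, l, n, hn, rfl⟩))
  neg a ha j l n hn := by
    obtain ⟨r, rfl⟩ := val_surjective hG a
    rw [urho_val]
    simp only [uword, AlgHom.comp_apply, AlgHom.mapMatrix_apply, Matrix.map_apply, laurentMap_coeff]
    exact q_eq_zero i e G N (Ideal.subset_span (by
      left; left; right; exact ⟨r, ha, j, l, n, hn, rfl⟩))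
  at_P a j l := by
    obtain ⟨r, rfl⟩ := val_surjective hG a
    have := q_eq_zero i e G N (z := laurentEval (C.xAt _ (i.P j)) (word G N r j l) -
      if j = l then algebraMap k _ (i.P j (val G r)) else 0)
      (Ideal.subset_span (by left; right; exact ⟨r, j, l, rfl⟩))
    rw [map_sub, sub_eq_zero] at this
    rw [urho_val, ← xAt_q i e]
    simp only [uword, AlgHom.comp_apply, AlgHom.mapMatrix_apply, Matrix.map_apply, laurentEval_map]
    rw [this]
    split
    · exact (q i e G N).commutes _
    · exact map_zero _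
  at_e a l := by
    obtain ⟨r, rfl⟩ := val_surjective hG a
    have := q_eq_zero i e G N (z := ∑ j, laurentEval (C.xAt _ e) (word G N r j l) -
      algebraMap k _ (e (val G r))) (Ideal.subset_span (by right; exact ⟨r, l, rfl⟩))
    rw [map_sub, map_sum, sub_eq_zero, AlgHom.commutes] at this
    simp only [urho_val, ← xAt_q i e, uword, AlgHom.comp_apply, AlgHom.mapMatrix_apply,
      Matrix.map_apply, laurentEval_map]
    exact this

/-- The classifying map of a matrix model on the coefficient ring. -/
def polyClassify {R : Type u} [CommRing R] [Algebra k R] (P : Rep i e R) :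
    Poly (C := C) G N →ₐ[k] R :=
  MvPolynomial.aeval fun v => (P.ρ (v.1 : C.A₀) v.2.1 v.2.2.1).coeff (v.2.2.2 : ℤ)

theorem existsUnique_map {R : Type u} [CommRing R] [Algebra k R] (P : Rep i e R)
    (hN : ∀ γ ∈ G, ∀ (R : Type u) [CommRing R] [Algebra k R] (P : Rep i e R) (j l : Fin C.d)
      (n : ℤ), (P.ρ γ j l).coeff n ≠ 0 → n ∈ Finset.Icc (-(N : ℤ)) N) :
    ∃! φ : Ring i e G N →ₐ[k] R, (univ (N := N) i e hG).map φ = P := by
  let φ₀ := polyClassify (G := G) (N := N) i e P
  have hcomp : (laurentMap φ₀).mapMatrix.comp (word G N) = P.ρ.comp (val G) := by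
    refine FreeAlgebra.hom_ext (funext fun γ => ?_)
    ext j l n
    simp only [Function.comp_apply, AlgHom.coe_comp, word, val, FreeAlgebra.lift_ι_apply,
      AlgHom.mapMatrix_apply, Matrix.map_apply, laurentMap_coeff, coeff_gen]
    split
    · simp [φ₀, polyClassify]
    · next h =>
      rw [map_zero]
      by_contra hne
      exact h (hN γ γ.2 R P j l n (Ne.symm hne))
  have hW : ∀ r j l, laurentMap φ₀ (word G N r j l) = P.ρ (val G r) j l := fun r j l => by
    have := congr_fun (congr_fun (DFunLike.congr_fun hcomp r) j) l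
    simpa using this
  have hker : eqns i e G N ≤ RingHom.ker φ₀ := by
    refine Ideal.span_le.mpr ?_
    rintro z (((((⟨r, hr, j, l, n, rfl⟩ | ⟨r, hr, j, l, n, rfl⟩) | ⟨r, hr, j, l, n, hn, rfl⟩) |
      ⟨r, hr, j, l, n, hn, rfl⟩) | ⟨r, j, l, rfl⟩) | ⟨r, l, rfl⟩) <;>
      rw [SetLike.mem_coe, RingHom.mem_ker]
    · rw [← laurentMap_coeff, hW, hr]; simp
    · rw [map_sub, ← laurentMap_coeff, ← laurentMap_coeff, hW, hr, P.ρ_x, sub_eq_zero]
      by_cases h : j = l <;> simp [h, laurentMap_T]
    · rw [← laurentMap_coeff, hW]; exact P.pos _ hr j l n hn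
    · rw [← laurentMap_coeff, hW]; exact P.neg _ hr j l n hn
    · rw [map_sub, ← laurentEval_map, Rep.xAt_map, hW, P.at_P, sub_eq_zero]
      split <;> simp
    · simp only [map_sub, map_sum, ← laurentEval_map, Rep.xAt_map, hW, P.at_e, AlgHom.commutes,
        sub_self]
  let φ : Ring i e G N →ₐ[k] R := Ideal.Quotient.liftₐ _ φ₀ fun z hz => hker hz
  refine ⟨φ, Rep.ext' fun a => ?_, fun ψ hψ => ?_⟩
  · obtain ⟨r, rfl⟩ := val_surjective hG a
    ext j l n
    simp only [Rep.map_ρ, univ, urho_val, uword, AlgHom.comp_apply, AlgHom.mapMatrix_apply,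
      Matrix.map_apply, laurentMap_coeff, ← hW]
    rfl
  · refine Ideal.Quotient.algHom_ext _ (MvPolynomial.algHom_ext fun v => ?_)
    obtain ⟨γ, j, l, n⟩ := v
    have h2 : φ.comp (q i e G N) (MvPolynomial.X (γ, j, l, n)) =
        (P.ρ (γ : C.A₀) j l).coeff (n : ℤ) := by
      simp [φ, φ₀, polyClassify]
    rw [show (φ.comp (Ideal.Quotient.mkₐ k (eqns i e G N))) (MvPolynomial.X (γ, j, l, n)) = _ from h2,
      ← hψ, Rep.map_ρ, laurentMap_coeff, AlgHom.comp_apply]
    congr 1
    have hγ : val G (FreeAlgebra.ι k γ) = (γ : C.A₀) := by simp [val]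
    show _ = ((univ (N := N) i e hG).ρ (γ : C.A₀) j l).coeff (n : ℤ)
    rw [← hγ]
    simp only [univ, urho_val, uword, word, AlgHom.comp_apply, FreeAlgebra.lift_ι_apply,
      AlgHom.mapMatrix_apply, Matrix.map_apply, laurentMap_coeff, coeff_gen]
    rw [dif_pos n.2]

end RepRing

/-- The matrix models of a chart are represented by a finitely presented algebra. -/
theorem exists_repRing [Algebra.FiniteType k C.Ap] [Algebra.FiniteType k C.Am] (i : Idx C)
    (e : C.Pt) : ∃ (S : Type u) (_ : CommRing S) (_ : Algebra k S) (U : Rep i e S),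
      Algebra.FinitePresentation k S ∧
      ∀ (R : Type u) [CommRing R] [Algebra k R] (P : Rep i e R),
        ∃! φ : S →ₐ[k] R, U.map φ = P := by
  classical
  obtain ⟨G, hG, hmem⟩ := exists_generators C
  choose N hN using fun (γ : G) => Rep.exists_bound (i := i) (e := e) (γ : C.A₀) (hmem _ γ.2)
  let M := Finset.univ.sup N
  refine ⟨RepRing.Ring i e G M, inferInstance, inferInstance, RepRing.univ i e hG, ?_,
    fun R _ _ P => RepRing.existsUnique_map i e hG P fun γ hγ R _ _ P j l n hn => ?_⟩
  · exact Algebra.FinitePresentation.quotient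
      ((isNoetherianRing_iff_ideal_fg _).mp inferInstance _)
  · have := Finset.mem_Icc.mp (hN ⟨γ, hγ⟩ R P j l n hn)
    have hle : N ⟨γ, hγ⟩ ≤ M := Finset.le_sup (Finset.mem_univ _)
    exact Finset.mem_Icc.mpr ⟨by omega, by omega⟩

end Fermat.Agent.RelPic
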