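import Fermat.Agent.RelPic.Chart.Bridge
import Fermat.Agent.RelPic.Chart.RepRing
import Fermat.Agent.RelPic.Contracts

/-!
# The rings of the affine charts with their universal triples

The ring of a chart represents the matrix models.  Its universal triple is the untwist of the
twisted triple of the universal matrix model.
-/

set_option autoImplicit false
set_option synthInstance.maxHeartbeats 400000

noncomputable section

universe u

open scoped TensorProduct

namespace Fermat.Agent.RelPic

variable {k : Type u} [Field k] {C : Model k}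

namespace Idx

/-- The properties of twisting used for the chart rings. -/
structure HasTwist (i : Idx C) : Prop where
  exists_twist : ∀ (R : Type u) [CommRing R] [Algebra k R] (T : Triple C R),
    ∃ N : Triple C R, Nonempty (i.IsTwist T N)
  exists_untwist : ∀ (R : Type u) [CommRing R] [Algebra k R] (N : Triple C R),
    ∃ T : Triple C R, Nonempty (i.IsTwist T N)
  bc : ∀ (R R' : Type u) [CommRing R] [Algebra k R] [CommRing R'] [Algebra k R'] (φ : R →ₐ[k] R')
    (T N : Triple C R) (T' N' : Triple C R'), Nonempty (i.IsTwist T N) → Nonempty (i.IsTwist T' N') →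
      Nonempty (Triple.BC φ T T') → Nonempty (Triple.BC φ N N')
  cancel : ∀ (R : Type u) [CommRing R] [Algebra k R] (T N T' N' : Triple C R),
    Nonempty (i.IsTwist T N) → Nonempty (i.IsTwist T' N') → Nonempty (Triple.Equiv N N') →
      Nonempty (Triple.Equiv T T')

end Idx

section Zero

variable (C) (S : Type u) [CommRing S] [Algebra k S] [Subsingleton S]

/-- A submodule over the zero ring is invertible. -/
theorem invertible_of_subsingleton {B M : Type u} [CommSemiring B] [Subsingleton B] [AddCommMonoid M]
    [Module B M] : Module.Invertible B M :=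
  have : Subsingleton M := Module.subsingleton B M
  Module.Invertible.congr
    { toFun := fun _ => (0 : M), invFun := fun _ => (0 : B),
      map_add' := fun _ _ => Subsingleton.elim _ _, map_smul' := fun _ _ => Subsingleton.elim _ _,
      left_inv := fun _ => Subsingleton.elim _ _, right_inv := fun _ => Subsingleton.elim _ _ }

/-- The only triple over the zero ring. -/
def zeroTriple : Triple C S where
  M := PUnit
  p := ⊤
  m := ⊤
  inv_p :=
    have : Subsingleton (C.A S) := Module.subsingleton S (C.A S)
    have : Subsingleton (C.Cp S) := Subtype.val_injective.subsingleton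
    invertible_of_subsingleton
  inv_m :=
    have : Subsingleton (C.A S) := Module.subsingleton S (C.A S)
    have : Subsingleton (C.Cm S) := Subtype.val_injective.subsingleton
    invertible_of_subsingleton
  exists_pow_smul_mem_p _ := ⟨0, Submodule.mem_top⟩
  exists_pow_smul_mem_m _ := ⟨0, Submodule.mem_top⟩

variable {C} {S}

theorem Triple.subsingleton_M (T : Triple C S) : Subsingleton T.M := Module.subsingleton S T.M

theorem Idx.inChart_of_subsingleton (i : Idx C) (e : C.Pt) (T : Triple C S) : i.InChart T e := by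
  have := T.subsingleton_M
  have : ∀ (v : T.M) (P : Submodule S T.M), v ∈ P := fun v P => by
    rw [Subsingleton.elim v 0]; exact P.zero_mem
  exact ⟨fun v _ => this v _, fun _ => 0, fun _ => this _ _,
    fun v _ => ⟨0, Subsingleton.elim _ _, fun g _ => Subsingleton.elim g 0⟩,
    fun _ _ _ => this _ _, fun _ => eq_top_iff.mpr fun v _ => this v _,
    fun _ => eq_top_iff.mpr fun v _ => this v _⟩

/-- Into the zero ring, every triple has every triple as a base change. -/
def Triple.bcOfSubsingleton {R : Type u} [CommRing R] [Algebra k R] (φ : R →ₐ[k] S)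
    (T : Triple C R) (T' : Triple C S) : Triple.BC φ T T' :=
  have := T'.subsingleton_M
  { toFun := 0
    map_smul := fun _ _ => Subsingleton.elim _ _
    map_p := fun _ _ => T'.p.zero_mem
    map_m := fun _ _ => T'.m.zero_mem
    span_p := fun v _ => by rw [Subsingleton.elim v 0]; exact zero_mem _
    span_m := fun v _ => by rw [Subsingleton.elim v 0]; exact zero_mem _ }

end Zero

namespace Idx

variable (i : Idx C) (e : C.Pt)

theorem nonempty_chartData_of_not_avoids (hav : ¬ i.Avoids e) : Nonempty (i.ChartData e) := by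
  have hsub : Subsingleton (k ⧸ (⊤ : Ideal k)) := Ideal.Quotient.subsingleton_iff.mpr rfl
  have hfp : Algebra.FinitePresentation k (k ⧸ (⊤ : Ideal k)) :=
    Algebra.FinitePresentation.quotient ⟨{1}, by simp [Ideal.span_singleton_one]⟩
  refine ⟨{ S := k ⧸ (⊤ : Ideal k), finitePresentation := hfp, U := zeroTriple C _,
            rigid := ⟨0, fun _ _ => Subsingleton.elim _ _, fun t => ⟨0, Subsingleton.elim _ _⟩⟩,
            inChart := i.inChart_of_subsingleton e _, univ := fun R _ _ T _ h => ?_ }⟩
  have := i.subsingleton_of_inChart hav h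
  exact ⟨Ideal.Quotient.liftₐ ⊤ (Algebra.ofId k R) fun _ _ => Subsingleton.elim _ _,
    ⟨Triple.bcOfSubsingleton _ _ _⟩, fun ψ _ => AlgHom.ext fun _ => Subsingleton.elim _ _⟩

/-- Every index has a chart. -/
theorem nonempty_chartData (hC : C.Regular) (hbc : C.HasBaseChange) (htw : i.HasTwist) :
    Nonempty (i.ChartData e) := by
  by_cases hav : i.Avoids e
  swap
  · exact i.nonempty_chartData_of_not_avoids e hav
  have := hC.finiteType_p
  have := hC.finiteType_m
  obtain ⟨S, _, _, P, hfp, hP⟩ := exists_repRing i e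
  obtain ⟨U, ⟨twU⟩⟩ := htw.exists_untwist S (P.triple hC)
  obtain ⟨hin, hrig⟩ := twU.inChart_of_nframe hav (P.nframe hC)
  refine ⟨{ S := S, finitePresentation := hfp, U := U, rigid := hrig, inChart := hin,
            univ := fun R _ _ T hT hTin => ?_ }⟩
  obtain ⟨N, ⟨twT⟩⟩ := htw.exists_twist R T
  obtain ⟨s, hs⟩ := twT.exists_nframe hav hT hTin
  obtain ⟨Q, ⟨E⟩, hQ⟩ := hs.existsUnique_rep hC
  obtain ⟨φ, hφ, hφu⟩ := hP R Q
  refine ⟨φ, ?_, fun ψ hψ => hφu ψ (hQ _ ?_)⟩
  · obtain ⟨U', ⟨F⟩⟩ := hbc S R φ U
    obtain ⟨N', ⟨twU'⟩⟩ := htw.exists_twist R U'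
    obtain ⟨F'⟩ := htw.bc S R φ U (P.triple hC) U' N' ⟨twU⟩ ⟨twU'⟩ ⟨F⟩
    obtain ⟨E₁⟩ := F'.nonempty_equiv (P.bc hC φ)
    obtain ⟨E₂⟩ := htw.cancel R U' N' T N ⟨twU'⟩ ⟨twT⟩ ⟨E₁.trans (hφ ▸ E)⟩
    exact ⟨F.congr_right E₂⟩
  · obtain ⟨F'⟩ := htw.bc S R ψ U (P.triple hC) T N ⟨twU⟩ ⟨twT⟩ hψ
    exact (P.bc hC ψ).nonempty_equiv F'

end Idx

end Fermat.Agent.RelPic
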