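import Fermat.Agent.RelPic.Complex.Frame

/-!
# Fibres of a triple at points of the overlap

For an `R`-point `q` of the overlap a semilinear surjection `r : M → R` has kernel `vanishAt q`, and
a section generating the fibre determines one.
-/

set_option autoImplicit false
set_option synthInstance.maxHeartbeats 400000

noncomputable section

universe u

open scoped TensorProduct

namespace Fermat.Agent.RelPic

theorem dual_apply_smul_comm {A M : Type*} [CommRing A] [AddCommGroup M] [Module A M]
    [Module.Invertible A M] (f : Module.Dual A M) (y z : M) : f y • z = f z • y := by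
  have h : y ⊗ₜ[A] z = z ⊗ₜ y := Module.Invertible.tmul_comm
  simpa using congrArg (TensorProduct.lift ((LinearMap.lsmul A M).comp f)) h

namespace Triple

variable {k : Type u} [Field k] {C : Model k} {R : Type u} [CommRing R] [Algebra k R]
  (T : Triple C R) {q : C.A R →ₐ[R] R}

theorem exists_dual_sum : ∃ (S : Finset (Module.Dual (C.A R) T.M × T.M)),
    ∀ v : T.M, ∑ z ∈ S, z.1 v • z.2 = v := by
  have := T.invertible
  obtain ⟨w, hw⟩ := (Module.Invertible.bijective (R := C.A R) (M := T.M)).2 1
  obtain ⟨S, hS⟩ := TensorProduct.exists_finset w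
  refine ⟨S, fun v => ?_⟩
  have h1 : ∑ z ∈ S, z.1 z.2 = (1 : C.A R) := by simpa [hS] using hw
  calc ∑ z ∈ S, z.1 v • z.2 = ∑ z ∈ S, z.1 z.2 • v :=
        Finset.sum_congr rfl fun z _ => dual_apply_smul_comm _ _ _
    _ = v := by rw [← Finset.sum_smul, h1, one_smul]

/-- Vanishing is the kernel of any surjective semilinear functional. -/
theorem mem_vanishAt_iff {r : T.M →ₗ[R] R} (hr : ∀ (a : C.A R) v, r (a • v) = q a * r v)
    (hsurj : Function.Surjective r) {v : T.M} : v ∈ T.vanishAt q ↔ r v = 0 := by
  constructor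
  · intro hv
    rw [vanishAt, Submodule.restrictScalars_mem] at hv
    induction hv using Submodule.smul_induction_on' with
    | smul a ha w _ => rw [hr, RingHom.mem_ker.mp ha, zero_mul]
    | add x _ y _ hx hy => rw [map_add, hx, hy, add_zero]
  · intro hv
    have := T.invertible
    obtain ⟨u, hu⟩ := hsurj 1
    obtain ⟨S, hS⟩ := T.exists_dual_sum
    rw [vanishAt, Submodule.restrictScalars_mem, ← hS v]
    refine Submodule.sum_mem _ fun z _ => Submodule.smul_mem_smul (RingHom.mem_ker.mpr ?_) Submodule.mem_top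
    have h1 := congrArg r (dual_apply_smul_comm z.1 v u)
    rw [hr, hr, hu, mul_one, hv, mul_zero] at h1
    exact h1

/-- A generator of the fibre has no annihilator there. -/
theorem eq_zero_of_smul_mem_vanishAt {s : T.M}
    (hs : T.vanishAt q ⊔ Submodule.span R {s} = ⊤) {c : R} (hc : c • s ∈ T.vanishAt q) : c = 0 := by
  have := T.invertible
  obtain ⟨w, hw⟩ := (Module.Invertible.bijective (R := C.A R) (M := T.M)).2 1
  obtain ⟨S, hS⟩ := TensorProduct.exists_finset w
  have h1 : ∑ z ∈ S, z.1 z.2 = (1 : C.A R) := by simpa [hS] using hw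
  have hv : ∀ (f : Module.Dual (C.A R) T.M) (v : T.M), v ∈ T.vanishAt q → q (f v) = 0 := by
    intro f v hv
    rw [vanishAt, Submodule.restrictScalars_mem] at hv
    induction hv using Submodule.smul_induction_on' with
    | smul a ha w _ => rw [map_smul, smul_eq_mul, map_mul, RingHom.mem_ker.mp ha, zero_mul]
    | add x _ y _ hx hy => rw [map_add, map_add, hx, hy, add_zero]
  have hcs : ∀ f : Module.Dual (C.A R) T.M, c * q (f s) = 0 := fun f => by
    have h := hv f _ hc
    rwa [LinearMap.map_smul_of_tower, map_smul, smul_eq_mul] at h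
  have hkey : ∀ (f : Module.Dual (C.A R) T.M) (v : T.M), c * q (f v) = 0 := by
    intro f v
    have hmem : v ∈ T.vanishAt q ⊔ Submodule.span R {s} := hs ▸ Submodule.mem_top
    obtain ⟨a, ha, b, hb, rfl⟩ := Submodule.mem_sup.mp hmem
    obtain ⟨t, rfl⟩ := Submodule.mem_span_singleton.mp hb
    rw [map_add, map_add, hv f a ha, zero_add, LinearMap.map_smul_of_tower, map_smul, smul_eq_mul,
      mul_left_comm, hcs, mul_zero]
  have h2 : c * q (∑ z ∈ S, z.1 z.2) = 0 := by
    rw [map_sum, Finset.mul_sum]; exact Finset.sum_eq_zero fun z _ => hkey _ _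
  simpa [h1] using h2

/-- A generator of the fibre gives the coordinate functional. -/
theorem exists_coord {s : T.M} (hs : T.vanishAt q ⊔ Submodule.span R {s} = ⊤) :
    ∃ r : T.M →ₗ[R] R, (∀ (a : C.A R) v, r (a • v) = q a * r v) ∧ r s = 1 := by
  have hex : ∀ v, ∃ c : R, v - c • s ∈ T.vanishAt q := fun v => by
    have hmem : v ∈ T.vanishAt q ⊔ Submodule.span R {s} := hs ▸ Submodule.mem_top
    obtain ⟨a, ha, b, hb, rfl⟩ := Submodule.mem_sup.mp hmem
    obtain ⟨t, rfl⟩ := Submodule.mem_span_singleton.mp hb
    exact ⟨t, by simpa using ha⟩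
  choose c hc using hex
  have huniq : ∀ v t, v - t • s ∈ T.vanishAt q → t = c v := fun v t ht => by
    refine sub_eq_zero.mp (T.eq_zero_of_smul_mem_vanishAt hs ?_)
    have := Submodule.sub_mem _ (hc v) ht
    rwa [sub_sub_sub_cancel_left, ← sub_smul] at this
  refine ⟨{ toFun := c, map_add' := fun v w => (huniq _ _ ?_).symm, map_smul' := fun t v => (huniq _ _ ?_).symm },
    fun a v => (huniq _ _ ?_).symm, (huniq _ _ (by simp)).symm⟩
  · have := Submodule.add_mem _ (hc v) (hc w)
    rw [add_smul]
    rwa [add_sub_add_comm]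
  · have := Submodule.smul_mem _ t (hc v)
    rw [RingHom.id_apply, smul_eq_mul, mul_smul, ← smul_sub]
    exact this
  · have hI : ∀ w : T.M, a • w - q a • w ∈ T.vanishAt q := fun w => by
      rw [vanishAt, Submodule.restrictScalars_mem, ← algebraMap_smul (C.A R) (q a) w, ← sub_smul]
      exact Submodule.smul_mem_smul (RingHom.mem_ker.mpr (by rw [map_sub, AlgHom.commutes]; exact sub_self (q a))) Submodule.mem_top
    have h2 := Submodule.add_mem _ (hI v) (Submodule.smul_mem _ (q a) (hc v))
    rw [smul_sub, sub_add_sub_cancel, smul_smul] at h2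
    exact h2

/-- Semilinear functionals at the same point differ by a factor. -/
theorem coord_eq_mul {r r' : T.M →ₗ[R] R} (hr : ∀ (a : C.A R) v, r (a • v) = q a * r v)
    (hr' : ∀ (a : C.A R) v, r' (a • v) = q a * r' v) {u : T.M} (hu : r u = 1) (v : T.M) :
    r' v = r v * r' u := by
  have hsurj : Function.Surjective r := fun t => ⟨t • u, by rw [map_smul, hu, smul_eq_mul, mul_one]⟩
  have hmem : v - r v • u ∈ T.vanishAt q :=
    (T.mem_vanishAt_iff hr hsurj).mpr (by rw [map_sub, map_smul, hu, smul_eq_mul, mul_one, sub_self])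
  rw [vanishAt, Submodule.restrictScalars_mem] at hmem
  have h0 : r' (v - r v • u) = 0 := by
    generalize v - r v • u = w at hmem ⊢
    induction hmem using Submodule.smul_induction_on' with
    | smul a ha w _ => rw [hr', RingHom.mem_ker.mp ha, zero_mul]
    | add x _ y _ hx hy => rw [map_add, hx, hy, add_zero]
  rw [map_sub, map_smul, smul_eq_mul, sub_eq_zero] at h0
  exact h0

end Triple

end Fermat.Agent.RelPic
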