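import Mathlib.RingTheory.PicardGroup
import Mathlib.RingTheory.Flat.EquationalCriterion
import Mathlib.RingTheory.Finiteness.Nakayama
import Mathlib.Algebra.Module.FinitePresentation

/-!
# Invertibility of a module from its fibres

Let `B` be an `R`-algebra and `N` a finitely presented `B`-module, flat over `R`.  If on every
fibre over `R` it is locally free of rank one, it is invertible.
-/

set_option autoImplicit false

noncomputable section

open scoped TensorProduct

namespace Fermat.Agent.RelPic

section RankOne

variable {B N : Type*} [CommRing B] [AddCommGroup N] [Module B N]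

theorem eq_zero_of_locally {α : Type*} [AddCommGroup α] [Module B α] (x : α)
    (h : ∀ P : Ideal B, P.IsMaximal → ∃ c, c ∉ P ∧ c • x = 0) : x = 0 := by
  by_contra hx
  let I : Ideal B := LinearMap.ker (LinearMap.toSpanSingleton B α x)
  have hI : I ≠ ⊤ := by
    intro hI
    have h1 : (1 : B) ∈ I := hI ▸ Submodule.mem_top
    simp [I] at h1
    exact hx h1
  obtain ⟨P, hP, hIP⟩ := I.exists_le_maximal hI
  obtain ⟨c, hc, hcx⟩ := h P hP
  exact hc (hIP (by simpa [I] using hcx))

variable (B N) in
/-- Near every maximal ideal the module is free on one element. -/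
def HasLocalGenerators : Prop :=
  ∀ P : Ideal B, P.IsMaximal → ∃ (n : N) (c : B), c ∉ P ∧
    (∀ y : N, ∃ b : B, c • y = b • n) ∧ ∀ b : B, b • n = 0 → c * b = 0

theorem HasLocalGenerators.of_semiequiv {B' N' : Type*} [CommRing B'] [AddCommGroup N']
    [Module B' N'] (e : B ≃+* B') (f : N ≃+ N') (hf : ∀ b y, f (b • y) = e b • f y)
    (h : HasLocalGenerators B N) : HasLocalGenerators B' N' := by
  intro P hP
  obtain ⟨n, c, hc, hgen, hann⟩ := h (P.comap e) (Ideal.comap_isMaximal_of_surjective e e.surjective)
  refine ⟨f n, e c, fun h' => hc h', fun y => ?_, fun b hb => ?_⟩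
  · obtain ⟨y, rfl⟩ := f.surjective y
    obtain ⟨b, hb⟩ := hgen y
    exact ⟨e b, by rw [← hf, hb, hf]⟩
  · obtain ⟨b, rfl⟩ := e.surjective b
    rw [← map_mul, hann b (f.injective (by rw [hf, hb, map_zero])), map_zero]

/-- A module with generators that are locally unique is invertible. -/
theorem invertible_of_local_generators (h : HasLocalGenerators B N) :
    Module.Invertible B N := by
  have key : ∀ (f : Module.Dual B N) (y z : N), f z • y = f y • z := by
    intro f y z
    refine sub_eq_zero.mp (eq_zero_of_locally (B := B) _ fun P hP => ?_)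
    obtain ⟨n, c, hc, hgen, -⟩ := h P hP
    refine ⟨c * c, fun hcc => ((hP.isPrime.mem_or_mem hcc).elim hc hc), ?_⟩
    obtain ⟨b, hb⟩ := hgen y
    obtain ⟨b', hb'⟩ := hgen z
    have hy : c * f y = b * f n := by simpa using congrArg f hb
    have hz : c * f z = b' * f n := by simpa using congrArg f hb'
    have h1 : (c * c) • f z • y = (b' * f n * b) • n := by
      rw [smul_smul, mul_assoc c c, hz, mul_comm c, mul_smul, hb, smul_smul]
    have h2 : (c * c) • f y • z = (b * f n * b') • n := by
      rw [smul_smul, mul_assoc c c, hy, mul_comm c, mul_smul, hb', smul_smul]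
    rw [smul_sub, h1, h2, show b' * f n * b = b * f n * b' by ring, sub_self]
  have hsurj : Function.Surjective (contractLeft B N) := by
    rw [← LinearMap.range_eq_top]
    by_contra hne
    obtain ⟨P, hP, hle⟩ := Ideal.exists_le_maximal _ hne
    obtain ⟨n, c, hc, hgen, hinj⟩ := h P hP
    choose b hb using hgen
    have hwd : ∀ (s t : B), s • n = t • n → c * s = c * t := fun s t hst => by
      rw [← sub_eq_zero, ← mul_sub]
      exact hinj _ (by rw [sub_smul, hst, sub_self])
    let g : Module.Dual B N :=
      { toFun := fun y => c * b y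
        map_add' := fun y z => by
          rw [← mul_add]
          exact hwd _ _ (by rw [← hb, smul_add, hb, hb, add_smul])
        map_smul' := fun s y => by
          rw [RingHom.id_apply, smul_eq_mul, mul_left_comm]
          exact hwd _ _ (by rw [← hb, smul_comm, hb, smul_smul]) }
    have hgn : g n = c * c := hwd _ _ (hb n).symm
    refine hc ((hP.isPrime.mem_or_mem (hgn ▸ hle ?_)).elim id id)
    exact ⟨g ⊗ₜ n, by simp⟩
  refine ⟨⟨?_, hsurj⟩⟩
  obtain ⟨w, hw⟩ := hsurj 1
  have hswap : ∀ t w : Module.Dual B N ⊗[B] N,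
      contractLeft B N w • t = contractLeft B N t • w := by
    intro t w
    induction t with
    | zero => simp
    | add a b ha hb => rw [smul_add, ha, hb, map_add, add_smul]
    | tmul g y =>
      induction w with
      | zero => simp
      | add a b ha hb => rw [map_add, add_smul, ha, hb, smul_add]
      | tmul f n =>
        simp only [contractLeft_apply]
        have hfg : g y • f = f y • g := by
          ext z
          simp only [LinearMap.smul_apply, smul_eq_mul]
          have h1 : f z * g y = f y * g z := by simpa using congrArg g (key f y z)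
          rw [mul_comm, h1]
        rw [TensorProduct.smul_tmul', TensorProduct.smul_tmul', hfg, TensorProduct.smul_tmul,
          TensorProduct.smul_tmul, key f y n]
  have hrepr : ∀ t, t = contractLeft B N t • w := fun t => by
    rw [← hswap, hw, one_smul]
  intro s t hst
  rw [hrepr s, hrepr t, hst]

end RankOne

variable {R B N : Type*} [CommRing R] [CommRing B] [Algebra R B] [AddCommGroup N] [Module R N]
  [Module B N] [IsScalarTower R B N]

/-- The fibrewise criterion.  `n` generates the fibre at `P`; on the fibre over `R` its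
annihilator vanishes near `P`. -/
theorem hasLocalGenerators_of_fibres [Module.FinitePresentation B N] [Module.Flat R N]
    (h : ∀ P : Ideal B, P.IsMaximal → ∃ n : N,
      Submodule.span B {n} ⊔ P • (⊤ : Submodule B N) = ⊤ ∧
      ∀ b : B, b • n = 0 → ∃ c, c ∉ P ∧
        c * b ∈ ((P.comap (algebraMap R B)).map (algebraMap R B))) :
    HasLocalGenerators B N := by
  classical
  intro P hP
  obtain ⟨n, hn, hfib⟩ := h P hP
  -- one denominator for generation
  obtain ⟨c, hc, hgen⟩ : ∃ c, c ∉ P ∧ ∀ y : N, ∃ b : B, c • y = b • n := by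
    let Q := N ⧸ Submodule.span B {n}
    have hQ : (⊤ : Submodule B Q) ≤ P • ⊤ := by
      have := congrArg (Submodule.map (Submodule.span B {n}).mkQ) hn
      rw [Submodule.map_sup, Submodule.map_smul'', Submodule.map_top, Submodule.range_mkQ,
        Submodule.mkQ_map_self, bot_sup_eq] at this
      exact this.ge
    obtain ⟨r, hr, hr0⟩ := Submodule.exists_sub_one_mem_and_smul_eq_zero_of_fg_of_le_smul P ⊤
      Module.Finite.fg_top hQ
    refine ⟨r, fun hrP => hP.ne_top ((Ideal.eq_top_iff_one _).mpr ?_), fun y => ?_⟩
    · simpa using P.sub_mem hrP hr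
    · have := hr0 (Submodule.Quotient.mk y) Submodule.mem_top
      rw [← Submodule.Quotient.mk_smul, Submodule.Quotient.mk_eq_zero,
        Submodule.mem_span_singleton] at this
      obtain ⟨b, hb⟩ := this
      exact ⟨b, hb.symm⟩
  -- finitely many elements span the annihilator of `n` up to `c`
  obtain ⟨κs, hκ0, hκ⟩ : ∃ κs : Finset B, (∀ a ∈ κs, a • n = 0) ∧
      ∀ b, b • n = 0 → c * b ∈ Ideal.span (κs : Set B) := by
    obtain ⟨r, y, hy⟩ := Module.Finite.exists_fin (R := B) (M := N)
    let π : B × (Fin r → B) →ₗ[B] N :=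
      (LinearMap.toSpanSingleton B N n).coprod (Fintype.linearCombination B y)
    have hπ : Function.Surjective π := by
      intro z
      have hz : z ∈ Submodule.span B (Set.range y) := hy ▸ Submodule.mem_top
      obtain ⟨g, hg⟩ := (Submodule.mem_span_range_iff_exists_fun B).mp hz
      exact ⟨(0, g), by simp [π, Fintype.linearCombination_apply, hg]⟩
    obtain ⟨S, hS⟩ := Module.FinitePresentation.fg_ker π hπ
    choose β hβ using fun l => hgen (y l)
    let κ : B × (Fin r → B) →ₗ[B] B :=
      (c • LinearMap.id).coprod (Fintype.linearCombination B β)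
    have hκn : ∀ z, κ z • n = c • π z := by
      intro z
      simp [κ, π, Fintype.linearCombination_apply, add_smul, Finset.sum_smul, smul_add,
        Finset.smul_sum, mul_smul, smul_comm c, hβ]
    refine ⟨S.image κ, fun a ha => ?_, fun b hb => ?_⟩
    · obtain ⟨z, hz, rfl⟩ := Finset.mem_image.mp ha
      rw [hκn, show π z = 0 from LinearMap.mem_ker.mp (hS ▸ Submodule.subset_span hz), smul_zero]
    · have hmem : ((b, 0) : B × (Fin r → B)) ∈ LinearMap.ker π := by simp [π, hb]
      rw [← hS] at hmem
      have := Submodule.mem_map_of_mem (f := κ) hmem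
      rw [Submodule.map_span, ← Finset.coe_image] at this
      simpa [κ] using this
  let I : Ideal B := Ideal.span (κs : Set B)
  have hI0 : ∀ a ∈ I, a • n = 0 := fun a ha => by
    have : I ≤ LinearMap.ker (LinearMap.toSpanSingleton B N n) :=
      Submodule.span_le.mpr fun x hx => by simpa using hκ0 x hx
    simpa using this ha
  -- flatness: the annihilator is divisible by the prime below `P`
  have hdiv : ∀ a ∈ I, ∃ e, e ∉ P ∧ e * a ∈ P • I := by
    intro a ha
    obtain ⟨c₁, hc₁, hmem⟩ := hfib a (hI0 a ha)
    rw [Ideal.map, ← Ideal.submodule_span_eq, Submodule.mem_span_set'] at hmem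
    obtain ⟨L, b, q, hbq⟩ := hmem
    choose q₀ hq₀ hq₁ using fun l => (q l).2
    have hrel : ∑ l, q₀ l • (b l • n) = 0 := by
      have hh : (c₁ * a) • n = 0 := by rw [mul_smul, hI0 a ha, smul_zero]
      rw [← hbq, Finset.sum_smul] at hh
      rw [← hh]
      refine Finset.sum_congr rfl fun l _ => ?_
      rw [← algebraMap_smul B (q₀ l) (b l • n), smul_smul, hq₁, smul_eq_mul, mul_comm]
    obtain ⟨K, A, z, hz, hA⟩ := Module.Flat.isTrivialRelation_of_sum_smul_eq_zero hrel
    choose ρ hρ using fun l => hgen (z l)
    let κ' : Fin L → B := fun l => c * b l - ∑ j, algebraMap R B (A l j) * ρ j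
    have hκ' : ∀ l, κ' l • n = 0 := by
      intro l
      simp only [κ', sub_smul, Finset.sum_smul, mul_smul, hz l, Finset.smul_sum]
      rw [sub_eq_zero]
      refine Finset.sum_congr rfl fun j _ => ?_
      rw [← hρ, algebraMap_smul, smul_comm]
    have hsum : c * (c₁ * a) = ∑ l, algebraMap R B (q₀ l) * κ' l := by
      simp only [κ', mul_sub, Finset.sum_sub_distrib, Finset.mul_sum]
      rw [Finset.sum_comm (f := fun l j => algebraMap R B (q₀ l) * _)]
      have hz0 : ∀ j, ∑ l, algebraMap R B (q₀ l) * (algebraMap R B (A l j) * ρ j) = 0 := by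
        intro j
        simp only [← mul_assoc, ← map_mul, ← Finset.sum_mul, ← map_sum, hA j, map_zero, zero_mul]
      simp only [hz0, Finset.sum_const_zero, sub_zero, ← hbq, Finset.mul_sum]
      refine Finset.sum_congr rfl fun l _ => ?_
      rw [hq₁, smul_eq_mul]
      ring
    refine ⟨c * (c * c₁), fun h' => ?_, ?_⟩
    · exact (hP.isPrime.mem_or_mem h').elim hc fun h'' => (hP.isPrime.mem_or_mem h'').elim hc hc₁
    · rw [show c * (c * c₁) * a = c * (c * (c₁ * a)) by ring, hsum, Finset.mul_sum]
      refine Submodule.sum_mem _ fun l _ => ?_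
      rw [mul_left_comm]
      exact Submodule.smul_mem_smul (hq₀ l) (hκ _ (hκ' l))
  have hle : I ≤ P • I := fun a ha => by
    obtain ⟨e, he, hea⟩ := hdiv a ha
    obtain ⟨u, hu⟩ := hP.exists_inv he
    obtain ⟨v, hv, huv⟩ := hu
    have hsplit : a = u * (e * a) + v * a := by linear_combination (-a) * huv
    rw [hsplit]
    exact add_mem (Ideal.mul_mem_left _ u hea) (Submodule.smul_mem_smul hv ha)
  obtain ⟨r, hr, hr0⟩ := Submodule.exists_sub_one_mem_and_smul_eq_zero_of_fg_of_le_smul P I
    ⟨κs, rfl⟩ hle
  have hrP : r ∉ P := fun h' => hP.ne_top ((Ideal.eq_top_iff_one _).mpr (by simpa using P.sub_mem h' hr))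
  refine ⟨n, r * c * c, fun h' => ?_, fun y => ?_, fun b hb => ?_⟩
  · exact (hP.isPrime.mem_or_mem h').elim (fun h'' => (hP.isPrime.mem_or_mem h'').elim hrP hc) hc
  · obtain ⟨b, hb⟩ := hgen y
    exact ⟨r * c * b, by rw [mul_smul, hb, smul_smul]⟩
  · have := hr0 _ (hκ b hb)
    rw [smul_eq_mul] at this
    rw [show r * c * c * b = c * (r * (c * b)) by ring, this, mul_zero]

end Fermat.Agent.RelPic
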