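import Fermat.Agent.RelPic.Chart.Fibrewise
import Mathlib.RingTheory.Artinian.Module
import Mathlib.LinearAlgebra.TensorProduct.Quotient
import Mathlib.RingTheory.Finiteness.Projective
import Mathlib.LinearAlgebra.Dimension.Free

/-!
# A surjection of the right rank onto an invertible module is bijective
-/

set_option autoImplicit false

noncomputable section

universe u

open scoped TensorProduct

namespace Fermat.Agent.RelPic

theorem bijective_of_surjective_of_invertible {S B P : Type u} [CommRing S] [CommRing B]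
    [Algebra S B] [AddCommGroup P] [Module B P] [Module S P] [IsScalarTower S B P]
    [Module.Invertible B P] {d : ℕ} (e : Module.Basis (Fin d) S B) (ψ : (Fin d → S) →ₗ[S] P)
    (hψ : Function.Surjective ψ) : Function.Bijective ψ := by
  classical
  have hfinB : Module.Finite S B := Module.Finite.of_basis e
  have hfreeB : Module.Free S B := Module.Free.of_basis e
  have : Module.Projective S P := by
    obtain ⟨n, f, g, -, -, hfg⟩ := Module.Finite.exists_comp_eq_id_of_projective B P
    exact Module.Projective.of_split (g.restrictScalars S) (f.restrictScalars S)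
      (LinearMap.ext fun v => LinearMap.congr_fun hfg v)
  obtain ⟨σ, hσ⟩ := Module.projective_lifting_property ψ LinearMap.id hψ
  refine ⟨(injective_iff_map_eq_zero ψ).mpr fun x hx => ?_, hψ⟩
  -- the kernel is a finite summand which vanishes modulo every maximal ideal
  let π : (Fin d → S) →ₗ[S] (Fin d → S) := LinearMap.id - σ ∘ₗ ψ
  let K : Submodule S (Fin d → S) := LinearMap.range π
  have hxK : x ∈ K := ⟨x, by simp [π, hx]⟩
  have hψπ : ∀ y, ψ (π y) = 0 := fun y => by
    simp [π, show ∀ v, ψ (σ v) = v from fun v => LinearMap.congr_fun hσ v]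
  refine eq_zero_of_locally (B := S) x fun m hm => ?_
  suffices hle : K ≤ m • K by
    obtain ⟨r, hr, hr0⟩ := Submodule.exists_sub_one_mem_and_smul_eq_zero_of_fg_of_le_smul m K
      (by rw [show K = _ from LinearMap.range_eq_map π]; exact Module.Finite.fg_top.map π) hle
    exact ⟨r, fun h => hm.ne_top ((Ideal.eq_top_iff_one _).mpr (by simpa using m.sub_mem h hr)),
      hr0 x hxK⟩
  suffices hmem : ∀ y, ψ y = 0 → y ∈ m • (⊤ : Submodule S (Fin d → S)) by
    rintro _ ⟨y, rfl⟩
    have h1 : π (π y) = π y := by
      conv_lhs => rw [show π (π y) = π y - σ (ψ (π y)) from rfl, hψπ, map_zero, sub_zero]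
    rw [← h1]
    have := Submodule.mem_map_of_mem (f := π) (hmem _ (hψπ y))
    rwa [Submodule.map_smul'', ← LinearMap.range_eq_map] at this
  intro y hy
  let I : Ideal B := m.map (algebraMap S B)
  let := Ideal.Quotient.field m
  have hI : ∀ b : B, b ∈ I ↔ ∀ l, e.repr b l ∈ m := by
    intro b
    constructor
    · intro hb l
      have : b ∈ (m • (⊤ : Submodule S B)) := by
        rw [Ideal.smul_top_eq_map]; exact hb
      clear hb
      induction this using Submodule.smul_induction_on' with
      | smul s hs v _ => simpa using m.mul_mem_right _ hs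
      | add v _ w _ hv hw => simpa using add_mem hv hw
    · intro hb
      rw [← e.sum_repr b]
      refine Ideal.sum_mem _ fun l _ => ?_
      rw [Algebra.smul_def]
      exact Ideal.mul_mem_right _ _ (Ideal.mem_map_of_mem _ (hb l))
  let N := P ⧸ I • (⊤ : Submodule B P)
  -- a generator of the fibre
  obtain ⟨n, hn⟩ : ∃ n : P, ∀ b : B, b • n ∈ I • (⊤ : Submodule B P) → b ∈ I := by
    have : Module.Finite (S ⧸ m) (B ⧸ I) :=
      Module.Finite.of_restrictScalars_finite S (S ⧸ m) (B ⧸ I)
    have : IsArtinianRing (B ⧸ I) := IsArtinianRing.of_finite (S ⧸ m) (B ⧸ I)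
    obtain ⟨ε⟩ := Module.Invertible.free_iff_linearEquiv.mp
      (inferInstance : Module.Free (B ⧸ I) ((B ⧸ I) ⊗[B] P))
    let q := TensorProduct.quotTensorEquivQuotSMul P I
    obtain ⟨n, hn⟩ := Submodule.mkQ_surjective _ (q (ε.symm 1))
    refine ⟨n, fun b hb => ?_⟩
    have h1 : q (b • ε.symm 1) = 0 := by
      rw [map_smul, ← hn, ← map_smul]
      exact (Submodule.Quotient.mk_eq_zero _).mpr hb
    have h2 := congrArg ε ((LinearEquiv.map_eq_zero_iff q).mp h1)
    rw [map_zero, ← algebraMap_smul (B ⧸ I) b (ε.symm 1), map_smul, LinearEquiv.apply_symm_apply,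
      smul_eq_mul, mul_one] at h2
    exact Ideal.Quotient.eq_zero_iff_mem.mp h2
  let mS : Submodule S P := (I • (⊤ : Submodule B P)).restrictScalars S
  let Q := P ⧸ mS
  let : Module (S ⧸ m) Q := Module.IsTorsionBySet.module (I := m) (M := Q) fun w s => by
    induction w using Submodule.Quotient.induction_on with
    | _ w =>
      rw [← Submodule.Quotient.mk_smul, Submodule.Quotient.mk_eq_zero,
        Submodule.restrictScalars_mem, ← algebraMap_smul B (s : S) w]
      exact Submodule.smul_mem_smul (Ideal.mem_map_of_mem _ s.2) Submodule.mem_top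
  let red : (Fin d → S) → (Fin d → S ⧸ m) := fun f l => Ideal.Quotient.mk m (f l)
  let ψ₁ : (Fin d → S ⧸ m) →ₗ[S ⧸ m] Q :=
    Fintype.linearCombination (S ⧸ m) fun l => Submodule.Quotient.mk (ψ (Pi.single l 1))
  let g : (Fin d → S ⧸ m) →ₗ[S ⧸ m] Q :=
    Fintype.linearCombination (S ⧸ m) fun l => Submodule.Quotient.mk (e l • n)
  have hψ₁ : ∀ f, ψ₁ (red f) = Submodule.Quotient.mk (ψ f) := by
    intro f
    simp only [ψ₁, Fintype.linearCombination_apply, red]
    conv_rhs => rw [pi_eq_sum_univ' f, map_sum]
    rw [show Submodule.Quotient.mk (∑ l, ψ (f l • Pi.single l 1)) =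
      ∑ l, (Submodule.Quotient.mk (ψ (f l • Pi.single l 1)) : Q) from map_sum mS.mkQ _ _]
    refine Finset.sum_congr rfl fun l _ => ?_
    rw [map_smul, Submodule.Quotient.mk_smul]
    rfl
  have hred : ∀ f : Fin d → S ⧸ m, ∃ f', red f' = f := fun f => by
    choose f' hf' using fun l => Ideal.Quotient.mk_surjective (f l)
    exact ⟨f', funext hf'⟩
  have hsurj : Function.Surjective ψ₁ := fun w => by
    obtain ⟨w, rfl⟩ := Submodule.mkQ_surjective _ w
    obtain ⟨f, rfl⟩ := hψ w
    exact ⟨red f, hψ₁ f⟩
  have ginj : Function.Injective g := by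
    refine (injective_iff_map_eq_zero g).mpr fun f hf => ?_
    obtain ⟨f, rfl⟩ := hred f
    have h1 : g (red f) = Submodule.Quotient.mk ((∑ l, f l • e l) • n) := by
      simp only [g, Fintype.linearCombination_apply, red]
      rw [Finset.sum_smul, show Submodule.Quotient.mk (∑ l, (f l • e l) • n) =
        ∑ l, (Submodule.Quotient.mk ((f l • e l) • n) : Q) from map_sum mS.mkQ _ _]
      refine Finset.sum_congr rfl fun l _ => ?_
      rw [smul_assoc]
      rfl
    rw [h1, Submodule.Quotient.mk_eq_zero, Submodule.restrictScalars_mem] at hf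
    have hb := (hI _).mp (hn _ hf)
    funext l
    refine Ideal.Quotient.eq_zero_iff_mem.mpr ?_
    have := hb l
    rwa [e.repr_sum_self] at this
  have : Module.Finite (S ⧸ m) Q := Module.Finite.of_surjective ψ₁ hsurj
  have hinj : Function.Injective ψ₁ := by
    refine (LinearMap.injective_iff_surjective_of_finrank_eq_finrank ?_).mpr hsurj
    exact le_antisymm (LinearMap.finrank_le_finrank_of_injective ginj)
      (by rw [← finrank_top (S ⧸ m) Q, ← LinearMap.range_eq_top.mpr hsurj]; exact LinearMap.finrank_range_le ψ₁)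
  have h0 : red y = 0 := hinj (by rw [hψ₁, hy, map_zero]; rfl)
  rw [pi_eq_sum_univ' y]
  exact Submodule.sum_mem _ fun l _ => Submodule.smul_mem_smul
    (Ideal.Quotient.eq_zero_iff_mem.mp (congrFun h0 l)) Submodule.mem_top

end Fermat.Agent.RelPic
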