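import Fermat.Agent.RelPic.Chart.Fibre
import Fermat.Agent.RelPic.Chart.Generate
import Fermat.Agent.RelPic.Chart.Rank
import Fermat.Agent.RelPic.Chart.Basis
import Mathlib.Algebra.Polynomial.Laurent

/-!
# Normalised frames of twisted triples

A normalised frame identifies the module with `R[X, X⁻¹]^d` and the two lattices with `R[X]^d` and
`X⁻¹ R[X⁻¹]^d`.
-/

set_option autoImplicit false

noncomputable section

universe u

open scoped TensorProduct LaurentPolynomial
open Polynomial (aeval)

namespace Fermat.Agent.RelPic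

variable {k : Type u} [Field k]

namespace Model

variable (C : Model k) (R : Type u) [CommRing R] [Algebra k R]

/-- The coordinate on the overlap over `Spec R`, as a unit. -/
def xUnitR : (C.A R)ˣ where
  val := C.X₀ R
  inv := C.Y₀ R
  val_inv := C.X₀_mul_Y₀ R
  inv_val := by rw [mul_comm]; exact C.X₀_mul_Y₀ R

/-- Laurent polynomials in the coordinate, as functions on the overlap. -/
def laurentHom : R[T;T⁻¹] →ₐ[R] C.A R :=
  AlgHom.mk (LaurentPolynomial.eval₂ (algebraMap R (C.A R)) (C.xUnitR R)) fun r => by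
    show LaurentPolynomial.eval₂ _ _ (LaurentPolynomial.C r) = _
    rw [LaurentPolynomial.eval₂_C]

theorem laurentHom_T (n : ℤ) : C.laurentHom R (LaurentPolynomial.T n) = ((C.xUnitR R) ^ n : (C.A R)ˣ) :=
  LaurentPolynomial.eval₂_T _ _ n

theorem laurentHom_T_nat (n : ℕ) : C.laurentHom R (LaurentPolynomial.T (n : ℤ)) = C.X₀ R ^ n := by
  rw [laurentHom_T, zpow_natCast, Units.val_pow_eq_pow_val]; rfl

theorem laurentHom_T_neg (n : ℕ) : C.laurentHom R (LaurentPolynomial.T (-(n : ℤ))) = C.Y₀ R ^ n := by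
  rw [laurentHom_T, zpow_neg, zpow_natCast, ← inv_pow, Units.val_pow_eq_pow_val]; rfl

theorem laurentHom_toLaurent (g : Polynomial R) :
    C.laurentHom R (Polynomial.toLaurent g) = aeval (C.X₀ R) g := by
  show LaurentPolynomial.eval₂ _ _ _ = _
  rw [LaurentPolynomial.eval₂_toLaurent]
  rfl

theorem laurentHom_invert (g : Polynomial R) :
    C.laurentHom R (LaurentPolynomial.invert (Polynomial.toLaurent g)) = aeval (C.Y₀ R) g := by
  induction g using Polynomial.induction_on' with
  | add p q hp hq => simp [hp, hq]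
  | monomial n r =>
    rw [← Polynomial.C_mul_X_pow_eq_monomial, Polynomial.toLaurent_C_mul_X_pow, map_mul,
      LaurentPolynomial.invert_C, LaurentPolynomial.invert_T, map_mul, laurentHom_T_neg]
    simp only [map_mul, Polynomial.aeval_C, map_pow, Polynomial.aeval_X]
    congr 1
    exact LaurentPolynomial.eval₂_C _ _ r

end Model

variable {C : Model k} {R : Type u} [CommRing R] [Algebra k R]

/-- A normalised frame of a twisted triple. -/
structure NFrame (i : Idx C) (e : C.Pt) (N : Triple C R) (s : Fin C.d → N.M) : Prop where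
  sup : N.pR ⊔ N.mR = ⊤
  mem_p : ∀ j, s j ∈ N.pR
  mem_m : ∀ j, C.Y₀ R • s j ∈ N.mR
  span : ∀ v ∈ N.pR, C.Y₀ R • v ∈ N.mR → ∃ f : Fin C.d → R, ∑ j, f j • s j = v
  vanish : ∀ j l, j ≠ l → s j ∈ N.vanishAt (C.evalR R (i.P l))
  gen : ∀ j, N.vanishAt (C.evalR R (i.P j)) ⊔ Submodule.span R {s j} = ⊤
  norm : ∃ r : N.M →ₗ[R] R, (∀ (a : C.A R) v, r (a • v) = C.evalR R e a * r v) ∧ ∀ j, r (s j) = 1

/-- Polynomial combinations generating an invertible module over a ring free of the same rank over
the polynomials are injective. -/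
theorem injective_polyComb_of_basis {A M : Type u} [CommRing A] [Algebra R A] [AddCommGroup M]
    [Module R M] [Module A M] [IsScalarTower R A M] {B : Subalgebra R A} (P : Submodule B M)
    [Module.Invertible B P] {d : ℕ} {X : A} (hX : X ∈ B)
    (Φ₀ : (Fin d → Polynomial R) →ₗ[R] A)
    (hΦc : ∀ (c : Polynomial R) f, Φ₀ (c • f) = aeval X c * Φ₀ f)
    (hΦinj : Function.Injective Φ₀) (hΦrange : LinearMap.range Φ₀ = Subalgebra.toSubmodule B)
    (s : Fin d → M) (hs : ∀ j, s j ∈ P)
    (hsurj : ∀ v ∈ P, v ∈ LinearMap.range (polyComb (R := R) X s)) :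
    Function.Injective (polyComb (R := R) X s) := by
  let : Algebra (Polynomial R) B := (aeval (⟨X, hX⟩ : B)).toRingHom.toAlgebra
  let : Module (Polynomial R) P := Module.compHom P (algebraMap (Polynomial R) B)
  have : IsScalarTower (Polynomial R) B P := IsScalarTower.of_algebraMap_smul fun _ _ => rfl
  have hval : ∀ g : Polynomial R, ((algebraMap (Polynomial R) B g : B) : A) = aeval X g := by
    intro g
    show B.val (aeval _ g) = _
    rw [← Polynomial.aeval_algHom_apply]
    rfl
  -- the polynomial basis of the ring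
  let Φ : (Fin d → Polynomial R) →ₗ[Polynomial R] B :=
    { toFun := fun f => ⟨Φ₀ f, by
        rw [← Subalgebra.mem_toSubmodule, ← hΦrange]; exact ⟨f, rfl⟩⟩
      map_add' := fun f g => Subtype.ext (map_add Φ₀ f g)
      map_smul' := fun c f => Subtype.ext (by
        show Φ₀ (c • f) = (algebraMap (Polynomial R) B c : B) * Φ₀ f
        rw [hval, hΦc]) }
  have hΦ : Function.Bijective Φ := ⟨fun f g h => hΦinj (congrArg Subtype.val h), fun b => by
    have hb : (b : A) ∈ LinearMap.range Φ₀ := by rw [hΦrange]; exact b.2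
    obtain ⟨f, hf⟩ := hb
    exact ⟨f, Subtype.ext hf⟩⟩
  let ψ : (Fin d → Polynomial R) →ₗ[Polynomial R] P :=
    Fintype.linearCombination (Polynomial R) fun j => (⟨s j, hs j⟩ : P)
  have hψ : ∀ f, ((ψ f : P) : M) = polyComb (R := R) X s f := fun f => by
    rw [polyComb_apply, Fintype.linearCombination_apply, Submodule.coe_sum]
    refine Finset.sum_congr rfl fun j _ => ?_
    show ((algebraMap (Polynomial R) B (f j) : B) : A) • s j = _
    rw [hval]
  have hbij := bijective_of_surjective_of_invertible (S := Polynomial R) (B := B) (P := P)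
    (Module.Basis.ofEquivFun (LinearEquiv.ofBijective Φ hΦ).symm) ψ fun v => by
      obtain ⟨f, hf⟩ := hsurj v v.2
      exact ⟨f, Subtype.ext ((hψ f).trans hf)⟩
  exact fun f g h => hbij.1 (Subtype.ext (by rw [hψ, hψ, h]))

/-- Polynomial combinations of sections spanning `{v ∈ p | Y v ∈ m}` are a basis of the first
lattice. -/
theorem bijective_polyComb_of_span (N : Triple C R) (s : Fin C.d → N.M) (hsup : N.pR ⊔ N.mR = ⊤)
    (hs : ∀ j, s j ∈ N.pR)
    (hspan : ∀ v ∈ N.pR, C.Y₀ R • v ∈ N.mR → ∃ f : Fin C.d → R, ∑ j, f j • s j = v) :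
    Function.Injective (polyComb (R := R) (C.X₀ R) s) ∧
      LinearMap.range (polyComb (R := R) (C.X₀ R) s) = N.pR := by
  classical
  have hap : ∀ v ∈ N.pR, C.X₀ R • v ∈ N.pR := fun v hv => by
    simpa using N.X_pow_smul_mem_p (n := 1) hv
  have hbm : ∀ v ∈ N.mR, C.Y₀ R • v ∈ N.mR := fun v hv => by
    simpa using N.Y_pow_smul_mem_m (n := 1) hv
  have hrange := range_polyComb (C.X₀_mul_Y₀ R) hap hbm (fun n _ => hsup ▸ Submodule.mem_top)
    hspan (fun n _ => N.exists_pow_smul_mem_m n) hs
  have := N.inv_p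
  refine ⟨injective_polyComb_of_basis N.p (C.X₀_mem_Cp R) (C.combP R) (fun c f => ?_)
    (C.combP_injective R) (C.range_combP R) s hs fun v hv => hrange ▸ hv, hrange⟩
  simp only [Model.combP, chartComb_apply, Pi.smul_apply, smul_eq_mul, map_mul, Finset.mul_sum,
    mul_assoc]
  rfl

namespace NFrame

variable {i : Idx C} {e : C.Pt} {N : Triple C R} {s : Fin C.d → N.M} (h : NFrame i e N s)

include h

theorem bijective_p : Function.Injective (polyComb (R := R) (C.X₀ R) s) ∧
    LinearMap.range (polyComb (R := R) (C.X₀ R) s) = N.pR :=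
  bijective_polyComb_of_span N s h.sup h.mem_p h.span

theorem bijective_m :
    Function.Injective (polyComb (R := R) (C.Y₀ R) fun j => C.Y₀ R • s j) ∧
      LinearMap.range (polyComb (R := R) (C.Y₀ R) fun j => C.Y₀ R • s j) = N.mR := by
  have hY : C.swap.Y₀ R = C.X₀ R := C.swap_Y₀ R
  refine bijective_polyComb_of_span (C := C.swap) N.swap (fun j => C.Y₀ R • s j)
    (by rw [N.swap_pR, N.swap_mR, sup_comm]; exact h.sup) h.mem_m fun v hv hv' => ?_
  rw [hY] at hv'
  have hYX : C.Y₀ R • C.X₀ R • v = v := by simpa using N.Y_pow_smul_X_pow_smul 1 v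
  obtain ⟨f, hf⟩ := h.span (C.X₀ R • v) hv' (by rw [hYX]; exact hv)
  refine ⟨f, ?_⟩
  have := congrArg (C.Y₀ R • ·) hf
  simp only [Finset.smul_sum, hYX] at this
  rw [← this]
  exact Finset.sum_congr rfl fun j _ => smul_comm _ _ _

/-- Combinations with Laurent coefficients. -/
def comb (_h : NFrame i e N s) : (Fin C.d → R[T;T⁻¹]) →ₗ[R] N.M where
  toFun f := ∑ j, C.laurentHom R (f j) • s j
  map_add' f g := by simp [add_smul, Finset.sum_add_distrib]
  map_smul' r f := by simp [Finset.smul_sum, smul_assoc]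

omit h in
theorem comb_apply (h : NFrame i e N s) (f : Fin C.d → R[T;T⁻¹]) :
    h.comb f = ∑ j, C.laurentHom R (f j) • s j := rfl

theorem comb_toLaurent (g : Fin C.d → Polynomial R) :
    h.comb (fun j => Polynomial.toLaurent (g j)) = polyComb (R := R) (C.X₀ R) s g := by
  simp [comb_apply, polyComb_apply, C.laurentHom_toLaurent]

theorem comb_smul (f : R[T;T⁻¹]) (g : Fin C.d → R[T;T⁻¹]) :
    h.comb (f • g) = C.laurentHom R f • h.comb g := by
  simp [comb_apply, Finset.smul_sum, mul_smul]

theorem comb_bijective : Function.Bijective h.comb := by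
  obtain ⟨hinj, hrange⟩ := h.bijective_p
  refine ⟨(injective_iff_map_eq_zero _).mpr fun f hf => ?_, fun v => ?_⟩
  · choose n g hg using fun j => LaurentPolynomial.exists_T_pow (f j)
    let m := Finset.univ.sup n
    let g' : Fin C.d → Polynomial R := fun j => g j * Polynomial.X ^ (m - n j)
    have hg' : (fun j => Polynomial.toLaurent (g' j)) = (LaurentPolynomial.T (m : ℤ) : R[T;T⁻¹]) • f := by
      funext j
      have hle : n j ≤ m := Finset.le_sup (Finset.mem_univ j)
      simp only [g', map_mul, Polynomial.toLaurent_X_pow, hg, Pi.smul_apply, smul_eq_mul]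
      rw [mul_assoc, ← LaurentPolynomial.T_add, mul_comm]
      congr 2
      omega
    have h0 : polyComb (R := R) (C.X₀ R) s g' = 0 := by
      rw [← h.comb_toLaurent, hg', h.comb_smul, hf, smul_zero]
    have hg0 : g' = 0 := hinj (h0.trans (map_zero _).symm)
    funext j
    have h1 := congrFun hg' j
    rw [hg0, Pi.zero_apply, map_zero, Pi.smul_apply, smul_eq_mul] at h1
    exact (LaurentPolynomial.isUnit_T _).mul_left_cancel (h1.symm.trans (mul_zero _).symm)
  · obtain ⟨n, hn⟩ := N.exists_pow_smul_mem_p v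
    have hv : C.X₀ R ^ n • v ∈ LinearMap.range (polyComb (R := R) (C.X₀ R) s) := hrange ▸ hn
    obtain ⟨g, hg⟩ := hv
    refine ⟨(LaurentPolynomial.T (-(n : ℤ)) : R[T;T⁻¹]) • fun j => Polynomial.toLaurent (g j), ?_⟩
    rw [h.comb_smul, h.comb_toLaurent, hg, C.laurentHom_T_neg]
    exact N.Y_pow_smul_X_pow_smul n v

theorem mem_p_iff (f : Fin C.d → R[T;T⁻¹]) :
    h.comb f ∈ N.pR ↔ ∀ j, ∃ g : Polynomial R, Polynomial.toLaurent g = f j := by
  obtain ⟨-, hrange⟩ := h.bijective_p
  constructor
  · intro hf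
    rw [← hrange] at hf
    obtain ⟨g, hg⟩ := hf
    rw [← h.comb_toLaurent] at hg
    exact fun j => ⟨g j, congrFun (h.comb_bijective.1 hg) j⟩
  · intro hg
    choose g hg using hg
    rw [← funext hg, h.comb_toLaurent, ← hrange]
    exact ⟨g, rfl⟩

theorem mem_m_iff (f : Fin C.d → R[T;T⁻¹]) :
    h.comb f ∈ N.mR ↔ ∀ j, ∃ g : Polynomial R,
      LaurentPolynomial.invert (Polynomial.toLaurent g) = LaurentPolynomial.T 1 * f j := by
  obtain ⟨-, hrange⟩ := h.bijective_m
  have key : ∀ g : Fin C.d → Polynomial R, polyComb (R := R) (C.Y₀ R) (fun j => C.Y₀ R • s j) g =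
      h.comb fun j => LaurentPolynomial.T (-1) * LaurentPolynomial.invert (Polynomial.toLaurent (g j)) := by
    intro g
    rw [comb_apply, polyComb_apply]
    refine Finset.sum_congr rfl fun j _ => ?_
    have hT : C.laurentHom R (LaurentPolynomial.T (-1)) = C.Y₀ R := by
      simpa using C.laurentHom_T_neg R 1
    rw [map_mul, C.laurentHom_invert, hT, smul_smul, mul_comm]
  constructor
  · intro hf
    rw [← hrange] at hf
    obtain ⟨g, hg⟩ := hf
    rw [key] at hg
    intro j
    refine ⟨g j, ?_⟩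
    rw [← congrFun (h.comb_bijective.1 hg) j, ← mul_assoc, ← LaurentPolynomial.T_add, add_neg_cancel,
      LaurentPolynomial.T_zero, one_mul]
  · intro hg
    choose g hg using hg
    rw [← hrange]
    refine ⟨g, ?_⟩
    rw [key]
    refine congrArg h.comb (funext fun j => ?_)
    rw [hg, ← mul_assoc, ← LaurentPolynomial.T_add, neg_add_cancel, LaurentPolynomial.T_zero, one_mul]

end NFrame

end Fermat.Agent.RelPic
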