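import Fermat.Agent.RelPic.Chart.Basis
import Fermat.Agent.RelPic.Chart.Fibrewise
import Mathlib.RingTheory.DedekindDomain.Ideal.Lemmas
import Mathlib.LinearAlgebra.Matrix.NonsingularInverse
import Mathlib.LinearAlgebra.Matrix.ToLin
import Mathlib.FieldTheory.IsAlgClosed.AlgebraicClosure

/-!
# Polynomial modules given by commuting matrices are invertible

`Q` is free of rank `d` over `k[y]` and acts on `R[X]^d` with `y` acting as `X`.  If `Ω ⊗ Q` is a
Dedekind domain for algebraically closed fields `Ω`, then `R[X]^d` is invertible over `R ⊗ Q`.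
-/

set_option autoImplicit false

noncomputable section

universe u

open scoped TensorProduct
open Polynomial

namespace Fermat.Agent.RelPic

theorem exists_smul_mem_range {S : Type*} [CommRing S] [IsDomain S] {d : ℕ}
    (φ : (Fin d → S) →ₗ[S] (Fin d → S)) (h : Function.Injective φ) :
    ∃ s : S, s ≠ 0 ∧ ∀ f, s • f ∈ LinearMap.range φ := by
  let M := LinearMap.toMatrix' φ
  refine ⟨M.det, fun h0 => ?_, fun f => ⟨Matrix.mulVec M.adjugate f, ?_⟩⟩
  · obtain ⟨v, hv, hv0⟩ := Matrix.exists_mulVec_eq_zero_iff.mpr h0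
    refine hv (h ?_)
    rw [map_zero, ← Matrix.toLin'_toMatrix' φ, Matrix.toLin'_apply]
    exact hv0
  · rw [← Matrix.toLin'_toMatrix' φ, Matrix.toLin'_apply, Matrix.mulVec_mulVec,
      Matrix.mul_adjugate, Matrix.smul_mulVec, Matrix.one_mulVec]

variable {k : Type u} [Field k] {Q : Type u} [CommRing Q] [Algebra k Q] {d : ℕ}

/-- Data of a module `R[X]^d` over `R ⊗ Q`. -/
structure PolyRep (y : Q) (d : ℕ) (R : Type u) [CommRing R] [Algebra k R] where
  ρ : Q →ₐ[k] Matrix (Fin d) (Fin d) R[X]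
  ρ_y : ρ y = (X : R[X]) • (1 : Matrix (Fin d) (Fin d) R[X])

namespace PolyRep

variable {y : Q} {R : Type u} [CommRing R] [Algebra k R] (P : PolyRep (k := k) y d R)

/-- The action of `R ⊗ Q`. -/
def act : R ⊗[k] Q →ₐ[R] Matrix (Fin d) (Fin d) R[X] :=
  Algebra.TensorProduct.lift (Algebra.ofId R _) P.ρ fun r _ => Algebra.commutes r _

theorem act_tmul (r : R) (q : Q) : P.act (r ⊗ₜ q) = r • P.ρ q := by
  exact (Algebra.TensorProduct.lift_tmul _ _ _ _ _).trans (Algebra.smul_def r _).symm

/-- The module. -/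
def Space (_P : PolyRep (k := k) y d R) : Type u := Fin d → R[X]

instance : AddCommGroup P.Space := inferInstanceAs (AddCommGroup (Fin d → R[X]))
instance : Module R P.Space := inferInstanceAs (Module R (Fin d → R[X]))

instance : Module (R ⊗[k] Q) P.Space :=
  Module.compHom (Fin d → R[X]) (Matrix.toLinAlgEquiv'.toAlgHom.toRingHom.comp P.act.toRingHom)

/-- Forget the action. -/
def vec : P.Space ≃ₗ[R] (Fin d → R[X]) := LinearEquiv.refl R _

theorem vec_smul (a : R ⊗[k] Q) (v : P.Space) :
    P.vec (a • v) = Matrix.mulVec (P.act a) (P.vec v) := by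
  show Matrix.toLinAlgEquiv' (P.act a) (P.vec v) = _
  exact Matrix.toLinAlgEquiv'_apply _ _

instance : IsScalarTower R (R ⊗[k] Q) P.Space := by
  refine ⟨fun r a v => P.vec.injective ?_⟩
  rw [vec_smul, map_smul, map_smul, vec_smul, Matrix.smul_mulVec]

theorem act_aeval (f : R[X]) :
    P.act (aeval ((1 : R) ⊗ₜ[k] y) f) = f • (1 : Matrix (Fin d) (Fin d) R[X]) := by
  induction f using Polynomial.induction_on' with
  | add p q hp hq => rw [map_add, map_add, hp, hq, add_smul]
  | monomial n r =>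
    rw [aeval_monomial, map_mul, map_pow, AlgHom.commutes, act_tmul, one_smul, P.ρ_y, smul_pow,
      one_pow, ← C_mul_X_pow_eq_monomial, mul_smul]
    exact (Algebra.smul_def r _).symm.trans (algebraMap_smul R[X] r _).symm

theorem vec_aeval_smul (f : R[X]) (v : P.Space) :
    P.vec (aeval ((1 : R) ⊗ₜ[k] y) f • v) = f • P.vec v := by
  rw [vec_smul, act_aeval, Matrix.smul_mulVec, Matrix.one_mulVec]

/-- The standard vectors. -/
def std (j : Fin d) : P.Space := P.vec.symm (Pi.single j 1)

theorem eq_sum_std (v : P.Space) : v = ∑ j, aeval ((1 : R) ⊗ₜ[k] y) (P.vec v j) • P.std j := by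
  classical
  refine P.vec.injective ?_
  rw [map_sum]
  funext l
  simp [vec_aeval_smul, std, Finset.sum_apply, Pi.single_apply]

/-- Change of base. -/
def map {R' : Type u} [CommRing R'] [Algebra k R'] (φ : R →ₐ[k] R') : PolyRep (k := k) y d R' where
  ρ := (Polynomial.mapAlgHom φ).mapMatrix.comp P.ρ
  ρ_y := by
    rw [AlgHom.comp_apply, P.ρ_y]
    ext j l : 1
    by_cases h : j = l <;> simp [h]

/-- The map on spaces. -/
def mapVec {R' : Type u} [CommRing R'] [Algebra k R'] (φ : R →ₐ[k] R') : P.Space →+ (P.map φ).Space where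
  toFun v := (P.map φ).vec.symm fun j => Polynomial.mapAlgHom φ (P.vec v j)
  map_zero' := (P.map φ).vec.injective (funext fun j => by simp)
  map_add' v w := (P.map φ).vec.injective (funext fun j => by simp)

theorem mapVec_smul {R' : Type u} [CommRing R'] [Algebra k R'] (φ : R →ₐ[k] R') (a : R ⊗[k] Q)
    (v : P.Space) : P.mapVec φ (a • v) =
      Algebra.TensorProduct.map φ (AlgHom.id k Q) a • P.mapVec φ v := by
  refine (P.map φ).vec.injective ?_
  induction a with
  | zero => simp
  | add a b ha hb => simp [add_smul, map_add, ha, hb]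
  | tmul r q =>
    funext j
    simp only [mapVec, AddMonoidHom.coe_mk, ZeroHom.coe_mk, LinearEquiv.apply_symm_apply, vec_smul,
      Algebra.TensorProduct.map_tmul, AlgHom.id_apply, act_tmul, Matrix.smul_mulVec, Pi.smul_apply]
    simp [Matrix.mulVec, dotProduct, map, Algebra.smul_def, Polynomial.map_sum]

section Field

variable {Ω : Type u} [Field Ω] [Algebra k Ω] (P₀ : PolyRep (k := k) y d Ω) {b : Fin d → Q}

theorem chartComb_smul (g : Ω[X]) (f : Fin d → Ω[X]) :
    chartComb (k := k) Ω y b (g • f) = aeval ((1 : Ω) ⊗ₜ[k] y) g * chartComb (k := k) Ω y b f := by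
  simp [chartComb_apply, Finset.mul_sum, mul_assoc]

variable (hi : Function.Injective (chartComb (k := k) Ω y b))
  (hs : Function.Surjective (chartComb (k := k) Ω y b)) [IsDomain (Ω ⊗[k] Q)]

include hi hs in
theorem exists_mul_eq_aeval {β : Ω ⊗[k] Q} (hβ : β ≠ 0) :
    ∃ (s : Ω[X]) (γ : Ω ⊗[k] Q), s ≠ 0 ∧ β * γ = aeval ((1 : Ω) ⊗ₜ[k] y) s := by
  classical
  choose col hcol using fun l : Fin d => hs (β * (1 : Ω) ⊗ₜ b l)
  let φ := Fintype.linearCombination Ω[X] col
  have hφ : ∀ f, chartComb (k := k) Ω y b (φ f) = β * chartComb (k := k) Ω y b f := by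
    intro f
    simp only [φ, Fintype.linearCombination_apply, map_sum, chartComb_smul, hcol]
    rw [chartComb_apply, Finset.mul_sum]
    exact Finset.sum_congr rfl fun l _ => by ring
  have hinj : Function.Injective φ := fun f g hfg => hi (mul_left_cancel₀ hβ (by rw [← hφ, hfg, hφ]))
  obtain ⟨s, hs0, hrange⟩ := exists_smul_mem_range φ hinj
  obtain ⟨one, hone⟩ := hs 1
  obtain ⟨g, hg⟩ := hrange one
  exact ⟨s, chartComb (k := k) Ω y b g, hs0, by rw [← hφ, hg, chartComb_smul, hone, mul_one]⟩

include hi hs in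
theorem smul_eq_zero_imp {β : Ω ⊗[k] Q} (hβ : β ≠ 0) {v : P₀.Space} (h : β • v = 0) : v = 0 := by
  obtain ⟨s, γ, hs0, hγ⟩ := exists_mul_eq_aeval hi hs hβ
  have h0 : s • P₀.vec v = 0 := by
    rw [← vec_aeval_smul, ← hγ, mul_comm, mul_smul, h, smul_zero, map_zero]
  exact P₀.vec.injective (((smul_eq_zero.mp h0).resolve_left hs0).trans (map_zero _).symm)

set_option linter.overlappingInstances false in
include hi hs in
theorem hasLocalGenerators_field [IsDedekindDomain (Ω ⊗[k] Q)] (hd : 0 < d) :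
    HasLocalGenerators (Ω ⊗[k] Q) P₀.Space := by
  classical
  set B := Ω ⊗[k] Q
  set Y : B := (1 : Ω) ⊗ₜ[k] y
  let v := P₀.std ⟨0, hd⟩
  have hv : v ≠ 0 := fun h => by simpa [v, std] using congrFun (congrArg P₀.vec h) ⟨0, hd⟩
  let φ : (Fin d → Ω[X]) →ₗ[Ω[X]] (Fin d → Ω[X]) :=
    { toFun := fun f => P₀.vec (chartComb (k := k) Ω y b f • v)
      map_add' := fun f g => by rw [map_add, add_smul, map_add]
      map_smul' := fun g f => by rw [chartComb_smul, mul_smul, vec_aeval_smul]; rfl }
  have hφ : Function.Injective φ := by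
    intro f g hfg
    refine hi (sub_eq_zero.mp ?_)
    by_contra hne
    exact hv (smul_eq_zero_imp P₀ hi hs hne (by rw [sub_smul, sub_eq_zero]; exact P₀.vec.injective hfg))
  obtain ⟨s, hs0, hrange⟩ := exists_smul_mem_range φ hφ
  set σ : B := aeval Y s
  have hσ : σ ≠ 0 := fun h => hv (by
    have h0 := P₀.vec_aeval_smul s v
    rw [show aeval ((1 : Ω) ⊗ₜ[k] y) s = 0 from h, zero_smul, map_zero] at h0
    exact P₀.vec.injective (((smul_eq_zero.mp h0.symm).resolve_left hs0).trans (map_zero _).symm))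
  have hcov : ∀ w : P₀.Space, ∃ β : B, σ • w = β • v := fun w => by
    obtain ⟨f, hf⟩ := hrange (P₀.vec w)
    exact ⟨chartComb (k := k) Ω y b f, P₀.vec.injective ((P₀.vec_aeval_smul s w).trans hf.symm)⟩
  let J : Ideal B :=
    { carrier := {β | ∃ w, σ • w = β • v}
      add_mem' := by
        rintro a c ⟨w, hw⟩ ⟨w', hw'⟩
        exact ⟨w + w', by rw [smul_add, hw, hw', add_smul]⟩
      zero_mem' := ⟨0, by simp⟩
      smul_mem' := by
        rintro a c ⟨w, hw⟩
        exact ⟨a • w, by rw [smul_comm, hw, smul_smul, smul_eq_mul]⟩ }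
  have hσJ : σ ∈ J := ⟨v, rfl⟩
  obtain ⟨J', hJJ'⟩ := Ideal.dvd_iff_le.mpr ((Ideal.span_singleton_le_iff_mem J).mpr hσJ)
  intro P hP
  obtain ⟨a, ha, a', ha', c, hc, hcP⟩ : ∃ a ∈ J, ∃ a' ∈ J', ∃ c, a * a' = σ * c ∧ c ∉ P := by
    by_contra! hcon
    have hle : Ideal.span {σ} ≤ Ideal.span {σ} * P := by
      rw [hJJ', Ideal.mul_le]
      intro a ha a' ha'
      have hmem : a * a' ∈ Ideal.span {σ} := hJJ' ▸ Ideal.mul_mem_mul ha ha'
      obtain ⟨c, hc⟩ := Ideal.mem_span_singleton'.mp hmem
      rw [← hJJ', ← hc, mul_comm c σ]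
      exact Ideal.mul_mem_mul (Ideal.mem_span_singleton_self σ)
        (hcon a ha a' ha' c (by rw [← hc, mul_comm]))
    obtain ⟨z, hz, hzσ⟩ := Ideal.mem_span_singleton_mul.mp (hle (Ideal.mem_span_singleton_self σ))
    have h1 : z = 1 := mul_left_cancel₀ hσ (by rw [hzσ, mul_one])
    exact hP.ne_top ((Ideal.eq_top_iff_one _).mpr (h1 ▸ hz))
  obtain ⟨n, hn⟩ := ha
  have hn0 : n ≠ 0 := fun h => by
    rw [h, smul_zero] at hn
    have ha0 : a = 0 := by
      by_contra hne
      exact hv (smul_eq_zero_imp P₀ hi hs hne hn.symm)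
    rw [ha0, zero_mul] at hc
    exact hcP ((mul_eq_zero.mp hc.symm).resolve_left hσ ▸ P.zero_mem)
  refine ⟨n, c, hcP, fun w => ?_, fun β hβ => ?_⟩
  · obtain ⟨β, hβ⟩ := hcov w
    have hmem : β * a' ∈ Ideal.span {σ} := hJJ' ▸ Ideal.mul_mem_mul ⟨w, hβ⟩ ha'
    obtain ⟨β', hβ'⟩ := Ideal.mem_span_singleton'.mp hmem
    refine ⟨β', sub_eq_zero.mp (smul_eq_zero_imp P₀ hi hs (mul_ne_zero hσ hσ) ?_)⟩
    rw [smul_sub, sub_eq_zero]
    calc (σ * σ) • c • w = (σ * c) • σ • w := by simp only [smul_smul]; congr 1; ring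
      _ = (a * a' * β) • v := by rw [hβ, smul_smul, hc]
      _ = (σ * β') • a • v := by
          rw [smul_smul, show a * a' * β = a * (β * a') by ring, ← hβ',
            show a * (β' * σ) = σ * β' * a by ring]
      _ = (σ * σ) • β' • n := by rw [← hn]; simp only [smul_smul]; congr 1; ring
  · by_contra hne
    exact hn0 (smul_eq_zero_imp P₀ hi hs (fun h => hne (by rw [h, mul_zero])) hβ)

end Field

section General

variable {b : Fin d → Q}
  (hi : ∀ (S : Type u) [CommRing S] [Algebra k S], Function.Injective (chartComb (k := k) S y b))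
  (hs : ∀ (S : Type u) [CommRing S] [Algebra k S], Function.Surjective (chartComb (k := k) S y b))

include hs in
theorem finitePresentation_space : Module.FinitePresentation (R ⊗[k] Q) P.Space := by
  classical
  let B := R ⊗[k] Q
  let π : (Fin d → B) →ₗ[B] P.Space := Fintype.linearCombination B P.std
  let emb : (Fin d → R[X]) → (Fin d → B) := fun g l => aeval ((1 : R) ⊗ₜ[k] y) (g l)
  have hemb : ∀ g, P.vec (π (emb g)) = g := by
    intro g
    have := P.eq_sum_std (P.vec.symm g)
    rw [LinearEquiv.apply_symm_apply] at this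
    simp only [π, emb, Fintype.linearCombination_apply, ← this, LinearEquiv.apply_symm_apply]
  have hπ : Function.Surjective π := fun v => ⟨emb (P.vec v), P.vec.injective (hemb _)⟩
  refine Module.finitePresentation_of_surjective π hπ ?_
  let κ : Fin d × Fin d → (Fin d → B) := fun ij =>
    Pi.single ij.2 ((1 : R) ⊗ₜ b ij.1) - emb (P.vec (((1 : R) ⊗ₜ b ij.1 : B) • P.std ij.2))
  have hκ : ∀ ij, π (κ ij) = 0 := by
    intro ij
    refine P.vec.injective ?_
    rw [map_sub, map_sub, hemb, Fintype.linearCombination_apply_single, sub_self, map_zero]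
  refine ⟨Finset.univ.image κ, le_antisymm (Submodule.span_le.mpr ?_) fun z hz => ?_⟩
  · intro x hx
    obtain ⟨ij, -, rfl⟩ := Finset.mem_image.mp hx
    exact hκ ij
  · rw [Finset.coe_image, Finset.coe_univ, Set.image_univ]
    choose f hf using fun l => hs R (z l)
    have key : ∀ z', (∃ g, z' = emb g) → π z' = 0 → z' = 0 := by
      rintro _ ⟨g, rfl⟩ h0
      have : g = 0 := by rw [← hemb g, h0, map_zero]
      subst this
      funext l
      simp [emb]
    suffices h : ∃ g, z - ∑ ij : Fin d × Fin d, aeval ((1 : R) ⊗ₜ[k] y) (f ij.2 ij.1) • κ ij = emb g by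
      have hrest := key _ h (by rw [map_sub, map_sum, LinearMap.mem_ker.mp hz]; simp [hκ])
      rw [sub_eq_zero] at hrest
      rw [hrest]
      exact Submodule.sum_mem _ fun ij _ => Submodule.smul_mem _ _ (Submodule.subset_span ⟨ij, rfl⟩)
    refine ⟨fun l => ∑ ij : Fin d × Fin d, f ij.2 ij.1 * P.vec (((1 : R) ⊗ₜ b ij.1 : B) • P.std ij.2) l,
      ?_⟩
    funext l
    simp only [κ, emb, Pi.sub_apply, Finset.sum_apply, Pi.smul_apply, smul_eq_mul, mul_sub,
      Finset.sum_sub_distrib, map_sum, map_mul]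
    have hz : ∑ ij : Fin d × Fin d, aeval ((1 : R) ⊗ₜ[k] y) (f ij.2 ij.1) *
        (Pi.single ij.2 ((1 : R) ⊗ₜ b ij.1) : Fin d → B) l = z l := by
      rw [Fintype.sum_prod_type_right, Finset.sum_eq_single l (fun j _ hj => by simp [Pi.single_eq_of_ne' hj])
        (by simp), ← hf l, chartComb_apply]
      simp
    rw [hz]
    abel

include hi hs in
theorem hasLocalGenerators
    (hD : ∀ (Ω : Type u) [Field Ω] [Algebra k Ω] [IsAlgClosed Ω], IsDedekindDomain (Ω ⊗[k] Q))
    (hd : 0 < d) : HasLocalGenerators (R ⊗[k] Q) P.Space := by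
  classical
  have := P.finitePresentation_space hs
  have : Module.Flat R P.Space := Module.Flat.of_linearEquiv P.vec
  refine hasLocalGenerators_of_fibres (R := R) fun M hM => ?_
  let := Ideal.Quotient.field M
  let Ω := AlgebraicClosure (R ⊗[k] Q ⧸ M)
  let χ₀ : R ⊗[k] Q →ₐ[k] Ω := (IsScalarTower.toAlgHom k (R ⊗[k] Q ⧸ M) Ω).comp (Ideal.Quotient.mkₐ k M)
  let ψ : R →ₐ[k] Ω := χ₀.comp (IsScalarTower.toAlgHom k R (R ⊗[k] Q))
  let χ : Ω ⊗[k] Q →ₐ[Ω] Ω := Algebra.TensorProduct.lift (AlgHom.id Ω Ω)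
    (χ₀.comp Algebra.TensorProduct.includeRight) fun _ _ => Commute.all _ _
  have hχ : ∀ a, χ (Algebra.TensorProduct.map ψ (AlgHom.id k Q) a) = χ₀ a := by
    intro a
    induction a with
    | zero => simp
    | add a c ha hc => simp [ha, hc]
    | tmul r q =>
      have : r ⊗ₜ[k] q = (r ⊗ₜ[k] (1 : Q)) * ((1 : R) ⊗ₜ q) := by simp
      conv_rhs => rw [this, map_mul]
      simp [χ, ψ, Algebra.TensorProduct.algebraMap_apply]
  have := hD Ω
  let P₀ := P.map ψ
  let μ := P.mapVec ψ
  have hμ : ∀ r j t, P₀.vec (μ (P.vec.symm (Pi.single j (monomial t r)))) =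
      Pi.single j (monomial t (ψ r)) := by
    intro r j t
    funext l
    simp only [μ, P₀, mapVec, AddMonoidHom.coe_mk, ZeroHom.coe_mk, LinearEquiv.apply_symm_apply]
    by_cases h : l = j <;> simp [h, Pi.single_eq_of_ne]
  -- the fibre at the point `χ` is a line, and it is spanned from below
  have hker : (RingHom.ker χ.toRingHom).IsMaximal :=
    RingHom.ker_isMaximal_of_surjective χ.toRingHom fun ω => ⟨algebraMap Ω _ ω, χ.commutes ω⟩
  obtain ⟨n₀, c, hc, hgen, hann⟩ := hasLocalGenerators_field P₀ (hi Ω) (hs Ω) hd _ hker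
  have hχc : χ c ≠ 0 := hc
  obtain ⟨n, hn⟩ : ∃ n : P.Space, ∀ β, c • μ n = β • n₀ → χ β ≠ 0 := by
    by_contra! hcon
    have hall : ∀ w : P₀.Space, ∃ β, c • w = β • n₀ ∧ χ β = 0 := by
      intro w
      obtain ⟨g, rfl⟩ := P₀.vec.symm.surjective w
      rw [← Finset.univ_sum_single g, map_sum]
      refine Finset.induction_on Finset.univ ⟨0, by simp, map_zero _⟩ fun j s hj ih => ?_
      rw [Finset.sum_insert hj]
      obtain ⟨β₁, h₁, h₁'⟩ : ∃ β, c • P₀.vec.symm (Pi.single j (g j)) = β • n₀ ∧ χ β = 0 := by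
        induction g j using Polynomial.induction_on' with
        | add p q hp hq =>
          obtain ⟨β, hb, hb'⟩ := hp
          obtain ⟨γ, hg, hg'⟩ := hq
          exact ⟨β + γ, by rw [Pi.single_add, map_add, smul_add, hb, hg, add_smul], by simp [hb', hg']⟩
        | monomial t ω =>
          obtain ⟨β, hb, hb'⟩ := hcon (P.vec.symm (Pi.single j (monomial t 1)))
          refine ⟨algebraMap Ω _ ω * β, ?_, by rw [map_mul, hb', mul_zero]⟩
          have h1 : P₀.vec.symm (Pi.single j (monomial t ω)) =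
              ω • μ (P.vec.symm (Pi.single j (monomial t 1))) := by
            refine P₀.vec.injective ?_
            rw [map_smul, hμ, LinearEquiv.apply_symm_apply, map_one, ← Pi.single_smul,
              Polynomial.smul_monomial, smul_eq_mul, mul_one]
          rw [h1, smul_comm, hb, mul_smul, algebraMap_smul]
      obtain ⟨β₂, h₂, h₂'⟩ := ih
      exact ⟨β₁ + β₂, by rw [smul_add, h₁, h₂, add_smul], by simp [h₁', h₂']⟩
    obtain ⟨β, hβ, hβ'⟩ := hall n₀
    have hn0 : n₀ ≠ 0 := fun h0 => by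
      have h1 := hann 1 (by simp [h0])
      rw [mul_one] at h1
      exact hχc (by rw [h1, map_zero])
    refine hn0 (smul_eq_zero_imp P₀ (hi Ω) (hs Ω) (β := c - β) ?_ (by rw [sub_smul, hβ, sub_self]))
    intro h0
    have := congrArg χ (sub_eq_zero.mp h0)
    exact hχc (this.trans hβ')
  have hsemi : ∀ a v, μ (a • v) = Algebra.TensorProduct.map ψ (AlgHom.id k Q) a • μ v :=
    P.mapVec_smul ψ
  refine ⟨n, ?_, fun a ha => ⟨1, ?_, ?_⟩⟩
  · -- a functional on the fibre vanishing at `n` extends to the fibre over `Ω`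
    by_contra hne
    set N : Submodule (R ⊗[k] Q) P.Space := Submodule.span (R ⊗[k] Q) {n} ⊔ M • ⊤
    obtain ⟨v₀, hv₀⟩ : ∃ v, v ∉ N := by
      by_contra! hall
      exact hne (eq_top_iff.mpr fun v _ => hall v)
    let : Module (R ⊗[k] Q ⧸ M) (P.Space ⧸ N) :=
      Module.IsTorsionBySet.module (I := M) (M := P.Space ⧸ N) (fun w m => by
        induction w using Submodule.Quotient.induction_on with
        | _ w =>
          rw [← Submodule.Quotient.mk_smul, Submodule.Quotient.mk_eq_zero]
          exact Submodule.mem_sup_right (Submodule.smul_mem_smul m.2 Submodule.mem_top))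
    obtain ⟨l, hl⟩ : ∃ l : Module.Dual (R ⊗[k] Q ⧸ M) (P.Space ⧸ N),
        l (Submodule.Quotient.mk v₀) ≠ 0 := by
      by_contra! hall
      exact hv₀ ((Submodule.Quotient.mk_eq_zero N).mp ((Module.forall_dual_apply_eq_zero_iff _ _).mp hall))
    let lam : P.Space → Ω := fun v => algebraMap (R ⊗[k] Q ⧸ M) Ω (l (Submodule.Quotient.mk v))
    have hlam : ∀ (a : R ⊗[k] Q) v, lam (a • v) = χ₀ a * lam v := by
      intro a v
      show algebraMap _ Ω (l (Submodule.Quotient.mk (a • v))) = _
      rw [Submodule.Quotient.mk_smul]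
      show algebraMap _ Ω (l ((Ideal.Quotient.mk M a) • Submodule.Quotient.mk v)) = _
      rw [map_smul, smul_eq_mul, map_mul]
      rfl
    have hadd : ∀ v w, lam (v + w) = lam v + lam w := fun v w => by simp [lam]
    let L : P₀.Space →ₗ[Ω] Ω := ((Pi.basis fun _ : Fin d => Polynomial.basisMonomials Ω).constr Ω
      fun jt => lam (P.vec.symm (Pi.single jt.1 (monomial jt.2 1)))) ∘ₗ P₀.vec.toLinearMap
    have hL : ∀ v, L (μ v) = lam v := by
      intro v
      obtain ⟨g, rfl⟩ := P.vec.symm.surjective v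
      rw [← Finset.univ_sum_single g, map_sum, map_sum, map_sum]
      have hlam0 : lam 0 = 0 := by simp [lam]
      have hlsum : ∀ f : Fin d → P.Space, lam (∑ j, f j) = ∑ j, lam (f j) := fun f =>
        map_sum (⟨⟨lam, hlam0⟩, hadd⟩ : P.Space →+ Ω) f _
      rw [hlsum]
      refine Finset.sum_congr rfl fun j _ => ?_
      induction g j using Polynomial.induction_on' with
      | add p q hp hq => simp only [Pi.single_add, map_add, hadd, hp, hq]
      | monomial t r =>
        have h2 : P.vec.symm (Pi.single j (monomial t r)) =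
            algebraMap R (R ⊗[k] Q) r • P.vec.symm (Pi.single j (monomial t 1)) := by
          rw [algebraMap_smul]
          refine P.vec.injective ?_
          rw [map_smul, LinearEquiv.apply_symm_apply, LinearEquiv.apply_symm_apply, ← Pi.single_smul,
            Polynomial.smul_monomial, smul_eq_mul, mul_one]
        show (Pi.basis fun _ : Fin d => Polynomial.basisMonomials Ω).constr Ω _ (P₀.vec (μ _)) = _
        rw [hμ]
        conv_rhs => rw [h2, hlam]
        rw [show Pi.single j (monomial t (ψ r)) = ψ r •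
          (Pi.basis fun _ : Fin d => Polynomial.basisMonomials Ω) ⟨j, t⟩ by
            rw [Pi.basis_apply, coe_basisMonomials, ← Pi.single_smul, Polynomial.smul_monomial,
              smul_eq_mul, mul_one], map_smul, Module.Basis.constr_basis, smul_eq_mul]
        rfl
    have hLsemi : ∀ (β : Ω ⊗[k] Q) w, L (β • w) = χ β * L w := by
      intro β w
      have hgen' : w ∈ Submodule.span Ω (Set.range fun jt : (Σ _ : Fin d, ℕ) =>
          μ (P.vec.symm (Pi.single jt.1 (monomial jt.2 1)))) := by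
        have hmem := (Pi.basis fun _ : Fin d => Polynomial.basisMonomials Ω).mem_span (P₀.vec w)
        have := Submodule.mem_map_of_mem (f := P₀.vec.symm.toLinearMap) hmem
        rw [Submodule.map_span, ← Set.range_comp, LinearEquiv.coe_coe,
          LinearEquiv.symm_apply_apply] at this
        refine Submodule.span_mono ?_ this
        rintro _ ⟨jt, rfl⟩
        refine ⟨jt, P₀.vec.injective ?_⟩
        simp [hμ, Pi.basis_apply]
      induction hgen' using Submodule.span_induction with
      | mem x hx =>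
        obtain ⟨jt, rfl⟩ := hx
        induction β with
        | zero => simp
        | add a c ha hc => simp [add_smul, ha, hc, add_mul]
        | tmul ω q =>
          have : (ω ⊗ₜ[k] q : Ω ⊗[k] Q) = algebraMap Ω _ ω *
              Algebra.TensorProduct.map ψ (AlgHom.id k Q) ((1 : R) ⊗ₜ q) := by
            simp [Algebra.TensorProduct.algebraMap_apply]
          rw [this, mul_smul, algebraMap_smul, map_smul, ← hsemi, hL, hlam, hL, map_mul, hχ,
            AlgHom.commutes, smul_eq_mul, Algebra.algebraMap_self, RingHom.id_apply, mul_assoc]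
      | zero => simp
      | add x z _ _ hx hz => simp [smul_add, hx, hz, mul_add]
      | smul ω x _ hx =>
        rw [smul_comm, LinearMap.map_smul L ω (β • x), hx, LinearMap.map_smul L ω x, smul_eq_mul,
          smul_eq_mul, mul_left_comm]
    obtain ⟨β₀, hβ₀⟩ := hgen (μ n)
    have hχβ₀ := hn β₀ hβ₀
    have hn0 : L n₀ = 0 := by
      have h1 : L (c • μ n) = χ β₀ * L n₀ := by rw [hβ₀, hLsemi]
      have h2 : lam n = 0 := by
        have : Submodule.Quotient.mk n = (0 : P.Space ⧸ N) := (Submodule.Quotient.mk_eq_zero N).mpr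
          (Submodule.mem_sup_left (Submodule.mem_span_singleton_self n))
        simp [lam, this]
      rw [hLsemi, hL, h2, mul_zero] at h1
      exact (mul_eq_zero.mp h1.symm).resolve_left hχβ₀
    refine hl ((algebraMap (R ⊗[k] Q ⧸ M) Ω).injective ?_)
    show lam v₀ = algebraMap _ Ω 0
    obtain ⟨β, hβ⟩ := hgen (μ v₀)
    have h1 := congrArg L hβ
    rw [hLsemi, hLsemi, hn0, mul_zero, hL] at h1
    rw [map_zero]
    exact (mul_eq_zero.mp h1).resolve_left hχc
  · exact fun h1 => hM.ne_top ((Ideal.eq_top_iff_one _).mpr h1)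
  · -- on the fibre over `Ω` there is no torsion
    have h0 : Algebra.TensorProduct.map ψ (AlgHom.id k Q) a = 0 := by
      by_contra hne
      have hμn : μ n = 0 := smul_eq_zero_imp P₀ (hi Ω) (hs Ω) hne (by rw [← hsemi, ha, map_zero])
      exact hn 0 (by rw [hμn, smul_zero, zero_smul]) (map_zero _)
    obtain ⟨f, rfl⟩ := hs R a
    rw [mapA_chartComb] at h0
    have hf := hi Ω (h0.trans (map_zero _).symm)
    rw [one_mul, chartComb_apply]
    refine Ideal.sum_mem _ fun l _ => Ideal.mul_mem_right _ _ ?_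
    rw [aeval_eq_sum_range]
    refine Ideal.sum_mem _ fun t _ => ?_
    rw [Algebra.smul_def]
    refine Ideal.mul_mem_right _ _ (Ideal.mem_map_of_mem _ ?_)
    have hft : ψ ((f l).coeff t) = 0 := by simpa using congrArg (fun q : Ω[X] => q.coeff t) (congrFun hf l)
    rw [Ideal.mem_comap]
    exact Ideal.Quotient.eq_zero_iff_mem.mp ((algebraMap (R ⊗[k] Q ⧸ M) Ω).injective
      (hft.trans (map_zero _).symm))

end General

end PolyRep

end Fermat.Agent.RelPic
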