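import Fermat.Agent.RelPic.Chart.Rep
import Fermat.Agent.RelPic.Chart.PolyModule
import Fermat.Agent.RelPic.Complex.Ring

/-!
# The twisted triple of a matrix model
-/

set_option autoImplicit false
set_option synthInstance.maxHeartbeats 400000

noncomputable section

universe u

open scoped TensorProduct LaurentPolynomial
open LaurentPolynomial (T)
open Polynomial (X)

namespace Fermat.Agent.RelPic

theorem isDedekindDomain_of_ringEquiv {A B : Type*} [CommRing A] [CommRing B] (e : A ≃+* B)
    (h : IsDedekindDomain A) : IsDedekindDomain B := by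
  have : IsDomain B := MulEquiv.isDomain A e.symm.toMulEquiv
  have : IsNoetherianRing B := isNoetherianRing_of_ringEquiv A e
  have : IsIntegrallyClosed B := IsIntegrallyClosed.of_equiv e
  have : Ring.DimensionLEOne B := ⟨fun {p} hp hpp => by
    have : (p.comap e).IsPrime := Ideal.comap_isPrime e p
    have hne : p.comap e ≠ ⊥ := fun hb => hp <| by
      rw [← Ideal.map_comap_of_surjective e e.surjective p, hb, Ideal.map_bot]
    have hm := Ring.DimensionLEOne.maximalOfPrime hne this
    rw [← Ideal.map_comap_of_surjective e e.surjective p]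
    exact Ideal.IsMaximal.map_bijective e e.bijective hm⟩
  exact {}

/-- Laurent polynomials with negative degrees, as polynomials in `T⁻¹`. -/
def negLaurent (R : Type*) [CommRing R] : Polynomial R →ₐ[R] R[T;T⁻¹] :=
  (LaurentPolynomial.invert (R := R)).toAlgHom.comp Polynomial.toLaurentAlg

theorem mem_range_toLaurent_iff {R : Type*} [CommRing R] {f : R[T;T⁻¹]} :
    (∃ g : Polynomial R, Polynomial.toLaurent g = f) ↔ ∀ n : ℤ, n < 0 → f.coeff n = 0 := by
  constructor
  · rintro ⟨g, rfl⟩ n hn
    rw [LaurentPolynomial.coeff_toLaurent, Finsupp.mapDomain_of_notMem_range]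
    rintro ⟨m, rfl⟩
    exact absurd hn (by simp)
  · intro hf
    refine ⟨LaurentPolynomial.trunc f, ?_⟩
    induction hs : f.coeff.support using Finset.induction_on generalizing f with
    | empty =>
      obtain rfl : f = 0 := LaurentPolynomial.ext fun a => by
        have : f.coeff = 0 := Finsupp.support_eq_empty.mp hs
        simp [this]
      simp
    | insert a s ha ih =>
      have ha0 : 0 ≤ a := le_of_not_gt fun h => by
        have : a ∈ f.coeff.support := hs ▸ Finset.mem_insert_self a s
        exact Finsupp.mem_support_iff.mp this (hf a h)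
      let g : R[T;T⁻¹] := f - AddMonoidAlgebra.single a (f.coeff a)
      have hg : ∀ n, g.coeff n = if n = a then 0 else f.coeff n := fun n => by
        simp only [g]
        rw [AddMonoidAlgebra.coeff_sub, Finsupp.sub_apply, AddMonoidAlgebra.coeff_single,
          Finsupp.single_apply]
        by_cases h : n = a
        · subst h; simp
        · simp [h, Ne.symm h]
      have hgs : g.coeff.support = s := by
        ext n
        rw [Finsupp.mem_support_iff, hg]
        by_cases h : n = a
        · simp [h, ha]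
        · rw [if_neg h, ← Finsupp.mem_support_iff, hs, Finset.mem_insert]
          simp [h]
      have h1 := ih (f := g) (fun n hn => by rw [hg]; split <;> simp [hf n hn]) hgs
      have h2 : f = g + LaurentPolynomial.C (f.coeff a) * T a := by
        rw [← LaurentPolynomial.single_eq_C_mul_T]; simp [g]
      rw [h2, map_add, map_add, h1, LaurentPolynomial.trunc_C_mul_T, if_pos ha0,
        ← Polynomial.C_mul_X_pow_eq_monomial, Polynomial.toLaurent_C_mul_X_pow,
        Int.toNat_of_nonneg ha0]

theorem mem_range_negLaurent_iff {R : Type*} [CommRing R] {f : R[T;T⁻¹]} :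
    (∃ g : Polynomial R, negLaurent R g = f) ↔ ∀ n : ℤ, 0 < n → f.coeff n = 0 := by
  have h := mem_range_toLaurent_iff (f := LaurentPolynomial.invert f)
  constructor
  · rintro ⟨g, rfl⟩ n hn
    have h1 := mem_range_toLaurent_iff.mp ⟨g, rfl⟩ (-n) (by omega)
    show (LaurentPolynomial.invert (Polynomial.toLaurent g)).coeff n = 0
    rw [LaurentPolynomial.invert_apply]
    exact h1
  · intro hf
    obtain ⟨g, hg⟩ := h.mpr fun n hn => by rw [LaurentPolynomial.invert_apply]; exact hf _ (by omega)
    refine ⟨g, ?_⟩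
    show LaurentPolynomial.invert (Polynomial.toLaurent g) = f
    rw [hg]
    exact LaurentPolynomial.involutive_invert f

variable {k : Type u} [Field k] {C : Model k}

namespace Rep

variable {i : Idx C} {e : C.Pt} {R : Type u} [CommRing R] [Algebra k R] (P : Rep i e R)

/-- The action of functions on the overlap. -/
def act : C.A R →ₐ[R] Matrix (Fin C.d) (Fin C.d) R[T;T⁻¹] :=
  Algebra.TensorProduct.lift (Algebra.ofId R _) P.ρ fun r _ => Algebra.commutes r _

theorem act_tmul (r : R) (a : C.A₀) : P.act (r ⊗ₜ a) = r • P.ρ a :=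
  (Algebra.TensorProduct.lift_tmul _ _ _ _ _).trans (Algebra.smul_def r _).symm

/-- The underlying module of the twisted triple. -/
def Space (_P : Rep i e R) : Type u := Fin C.d → R[T;T⁻¹]

instance : AddCommGroup P.Space := inferInstanceAs (AddCommGroup (Fin C.d → R[T;T⁻¹]))
instance : Module R P.Space := inferInstanceAs (Module R (Fin C.d → R[T;T⁻¹]))

instance : Module (C.A R) P.Space :=
  Module.compHom (Fin C.d → R[T;T⁻¹]) (Matrix.toLinAlgEquiv'.toAlgHom.toRingHom.comp P.act.toRingHom)

/-- Forget the action. -/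
def vec : P.Space ≃ₗ[R] (Fin C.d → R[T;T⁻¹]) := LinearEquiv.refl R _

theorem vec_smul (a : C.A R) (v : P.Space) :
    P.vec (a • v) = Matrix.mulVec (P.act a) (P.vec v) := by
  show Matrix.toLinAlgEquiv' (P.act a) (P.vec v) = _
  exact Matrix.toLinAlgEquiv'_apply _ _

instance : IsScalarTower R (C.A R) P.Space := by
  refine ⟨fun r a v => P.vec.injective ?_⟩
  rw [vec_smul, map_smul, map_smul, vec_smul, Matrix.smul_mulVec]

theorem ρ_x_inv : P.ρ (C.xUnit⁻¹ : (C.A₀)ˣ) = (T (-1) : R[T;T⁻¹]) • (1 : Matrix (Fin C.d) (Fin C.d) R[T;T⁻¹]) := by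
  have h : P.ρ C.xUnit * ((T (-1) : R[T;T⁻¹]) • 1) = 1 := by
    rw [P.ρ_x, smul_mul_smul_comm, one_mul, ← LaurentPolynomial.T_add, add_neg_cancel,
      LaurentPolynomial.T_zero, one_smul]
  calc P.ρ (C.xUnit⁻¹ : (C.A₀)ˣ) = P.ρ (C.xUnit⁻¹ : (C.A₀)ˣ) * (P.ρ C.xUnit * ((T (-1) : R[T;T⁻¹]) • 1)) := by
        rw [h, mul_one]
    _ = _ := by rw [← mul_assoc, ← map_mul, ← Units.val_mul, inv_mul_cancel, Units.val_one, map_one, one_mul]

theorem vec_X₀_pow_smul (n : ℕ) (v : P.Space) :
    P.vec (C.X₀ R ^ n • v) = (T (n : ℤ) : R[T;T⁻¹]) • P.vec v := by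
  rw [vec_smul, map_pow, Model.X₀, act_tmul, one_smul]
  show Matrix.mulVec (P.ρ C.xUnit ^ n) _ = _
  rw [P.ρ_x, smul_pow, one_pow, LaurentPolynomial.T_pow, mul_one, Matrix.smul_mulVec,
    Matrix.one_mulVec]

theorem vec_Y₀_pow_smul (n : ℕ) (v : P.Space) :
    P.vec (C.Y₀ R ^ n • v) = (T (-(n : ℤ)) : R[T;T⁻¹]) • P.vec v := by
  rw [vec_smul, map_pow, Model.Y₀, act_tmul, one_smul]
  show Matrix.mulVec (P.ρ (C.xUnit⁻¹ : (C.A₀)ˣ) ^ n) _ = _
  rw [P.ρ_x_inv, smul_pow, one_pow, LaurentPolynomial.T_pow, Matrix.smul_mulVec,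
    Matrix.one_mulVec, mul_neg_one]

section Side

/-- One of the two charts, as seen by a matrix model. -/
structure Side where
  Q : Subalgebra k C.F
  le : Q ≤ C.A₀
  y : Q
  b : Fin C.d → Q
  bij : Function.Bijective fun f : Fin C.d → Polynomial k => ∑ l, Polynomial.aeval y (f l) * b l
  ι : Polynomial R →ₐ[R] R[T;T⁻¹]
  ι_inj : Function.Injective ι
  ρ_y : P.ρ (Subalgebra.inclusion le y) = ι X • (1 : Matrix (Fin C.d) (Fin C.d) R[T;T⁻¹])
  entries : ∀ (a : Q) (j l), ∃ g, ι g = P.ρ (Subalgebra.inclusion le a) j l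
  shift : ℤ
  dedekind : ∀ (K : Type u) [Field K] [Algebra k K] [IsAlgClosed K],
    IsDedekindDomain (Algebra.TensorProduct.map (AlgHom.id K K) (Subalgebra.inclusion le)).range

namespace Side

variable {P} (S : P.Side)

/-- The ring of the chart inside the overlap. -/
abbrev ring : Subalgebra R (C.A R) :=
  (Algebra.TensorProduct.map (AlgHom.id R R) (Subalgebra.inclusion S.le)).range

/-- The isomorphism with the abstract chart ring. -/
def ringEquiv (R' : Type u) [CommRing R'] [Algebra k R'] :
    R' ⊗[k] S.Q ≃ₐ[R'] (Algebra.TensorProduct.map (AlgHom.id R' R') (Subalgebra.inclusion S.le)).range :=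
  AlgEquiv.ofInjective _ (Module.Flat.lTensor_preserves_injective_linearMap (M := R')
    (Subalgebra.inclusion S.le).toLinearMap (Subalgebra.inclusion_injective S.le))

/-- A polynomial entry of the action of the chart ring. -/
def entry (a : S.Q) (j l : Fin C.d) : Polynomial R := (S.entries a j l).choose

theorem ι_entry (a : S.Q) (j l : Fin C.d) :
    S.ι (S.entry a j l) = P.ρ (Subalgebra.inclusion S.le a) j l := (S.entries a j l).choose_spec

/-- The polynomial data of the chart. -/
def rep : PolyRep (k := k) S.y C.d R where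
  ρ := AlgHom.ofLinearMap
    { toFun := fun a => Matrix.of (S.entry a)
      map_add' := fun a b => by
        ext1 j l
        refine S.ι_inj ?_
        simp [ι_entry, map_add]
      map_smul' := fun r a => by
        ext1 j l
        refine S.ι_inj ?_
        rw [RingHom.id_apply, Matrix.smul_apply, Matrix.of_apply, Matrix.of_apply, ι_entry,
          ← algebraMap_smul R r (S.entry a j l), map_smul S.ι, ι_entry, map_smul, map_smul,
          Matrix.smul_apply, algebraMap_smul] }
    (by
      ext1 j l
      refine S.ι_inj ?_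
      show S.ι (S.entry 1 j l) = _
      by_cases h : j = l <;> simp [ι_entry, Matrix.one_apply, h])
    (fun a b => by
      ext1 j l
      refine S.ι_inj ?_
      show S.ι (S.entry (a * b) j l) = _
      simp [Matrix.mul_apply, ι_entry])
  ρ_y := by
    ext1 j l
    refine S.ι_inj ?_
    show S.ι (S.entry S.y j l) = _
    rw [ι_entry, S.ρ_y]
    by_cases h : j = l <;> simp [h]

theorem ι_act (a : R ⊗[k] S.Q) (j l : Fin C.d) :
    S.ι (S.rep.act a j l) = P.act (S.ringEquiv R a : C.A R) j l := by
  induction a with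
  | zero => simp
  | add a b ha hb => simp [ha, hb]
  | tmul r q =>
    show _ = P.act (r ⊗ₜ Subalgebra.inclusion S.le q) j l
    rw [PolyRep.act_tmul, act_tmul]
    simp [rep, Matrix.smul_apply, ι_entry]

/-- The embedding of the polynomial module. -/
def emb : S.rep.Space →ₗ[R] P.Space where
  toFun g := P.vec.symm fun j => T (-S.shift) * S.ι (S.rep.vec g j)
  map_add' _ _ := P.vec.injective (funext fun j => by simp [mul_add])
  map_smul' _ _ := P.vec.injective (funext fun j => by simp)

theorem emb_injective : Function.Injective S.emb := fun _ _ hgh =>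
  S.rep.vec.injective (funext fun j => S.ι_inj ((LaurentPolynomial.isUnit_T _).mul_left_cancel
    (congrFun (congrArg P.vec hgh) j)))

theorem emb_smul (a : R ⊗[k] S.Q) (g : S.rep.Space) :
    S.emb (a • g) = (S.ringEquiv R a : C.A R) • S.emb g := by
  refine P.vec.injective (funext fun j => ?_)
  simp only [emb, LinearMap.coe_mk, AddHom.coe_mk, LinearEquiv.apply_symm_apply, vec_smul,
    PolyRep.vec_smul, Matrix.mulVec, dotProduct, map_sum, map_mul, S.ι_act, Finset.mul_sum]
  exact Finset.sum_congr rfl fun l _ => mul_left_comm _ _ _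

/-- The lattice of the chart. -/
def lattice : Submodule S.ring P.Space where
  carrier := Set.range S.emb
  add_mem' := by rintro _ _ ⟨g, rfl⟩ ⟨h, rfl⟩; exact ⟨g + h, map_add _ _ _⟩
  zero_mem' := ⟨0, map_zero _⟩
  smul_mem' := by
    rintro a _ ⟨g, rfl⟩
    refine ⟨(S.ringEquiv R).symm a • g, ?_⟩
    rw [emb_smul, AlgEquiv.apply_symm_apply]
    rfl

theorem mem_lattice {v : P.Space} :
    v ∈ S.lattice ↔ ∀ j, ∃ g, S.ι g = T S.shift * P.vec v j := by
  constructor
  · rintro ⟨g, rfl⟩ j
    refine ⟨S.rep.vec g j, ?_⟩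
    show _ = T S.shift * (T (-S.shift) * S.ι _)
    rw [← mul_assoc, ← LaurentPolynomial.T_add, add_neg_cancel, LaurentPolynomial.T_zero, one_mul]
  · intro h
    choose g hg using h
    refine ⟨S.rep.vec.symm g, P.vec.injective (funext fun j => ?_)⟩
    show T (-S.shift) * S.ι (g j) = _
    rw [hg, ← mul_assoc, ← LaurentPolynomial.T_add, neg_add_cancel, LaurentPolynomial.T_zero, one_mul]

attribute [local instance 10000] Submodule.module Submodule.addCommMonoid

set_option maxHeartbeats 2000000 in
theorem invertible_lattice : Module.Invertible S.ring S.lattice := by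
  have hbij : ∀ (R' : Type u) [CommRing R'] [Algebra k R'],
      Function.Bijective (chartComb (k := k) R' S.y S.b) := by
    intro R' _ _
    let f : R' ⊗[k] S.Q →ₐ[R'] C.A R' :=
      Algebra.TensorProduct.map (AlgHom.id R' R') (Subalgebra.inclusion S.le)
    have hf : Function.Injective f := Module.Flat.lTensor_preserves_injective_linearMap (M := R')
        (Subalgebra.inclusion S.le).toLinearMap (Subalgebra.inclusion_injective S.le)
    have hcomp : ∀ g, f (chartComb (k := k) R' S.y S.b g) = chartComb (k := k) R'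
        (Subalgebra.inclusion S.le S.y) (fun l => Subalgebra.inclusion S.le (S.b l)) g := by
      intro g
      rw [chartComb_apply, chartComb_apply, map_sum]
      simp [f, ← Polynomial.aeval_algHom_apply]
    refine ⟨fun g h hgh => chartComb_inclusion_injective R' S.le S.bij.1 ?_, fun z => ?_⟩
    · rw [← hcomp, ← hcomp, hgh]
    · have hz : f z ∈ LinearMap.range (chartComb (k := k) R' (Subalgebra.inclusion S.le S.y)
          fun l => Subalgebra.inclusion S.le (S.b l)) := by
        rw [range_chartComb_inclusion R' S.le S.bij.2]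
        exact ⟨z, rfl⟩
      obtain ⟨g, hg⟩ := hz
      exact ⟨g, hf ((hcomp g).trans hg)⟩
  let : Ring S.ring := Subalgebra.toRing S.ring
  let : AddCommGroup S.lattice := Submodule.addCommGroup (R := S.ring) S.lattice
  refine invertible_of_local_generators (B := S.ring) (N := S.lattice) ?_
  let F : S.rep.Space ≃+ S.lattice :=
    AddEquiv.ofBijective
      (⟨⟨fun g => (⟨S.emb g, ⟨g, rfl⟩⟩ : S.lattice), Subtype.ext (map_zero _)⟩,
        fun g h => Subtype.ext (map_add _ _ _)⟩ : S.rep.Space →+ S.lattice)
      ⟨fun g h hgh => S.emb_injective (congrArg Subtype.val hgh), fun ⟨_, g, hg⟩ =>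
        ⟨g, Subtype.ext hg⟩⟩
  refine HasLocalGenerators.of_semiequiv (S.ringEquiv R).toRingEquiv F
    (fun a g => Subtype.ext (S.emb_smul a g)) ?_
  exact S.rep.hasLocalGenerators (b := S.b) (fun R' _ _ => (hbij R').1) (fun R' _ _ => (hbij R').2)
    (fun K _ _ _ => isDedekindDomain_of_ringEquiv (S.ringEquiv K).symm.toRingEquiv (S.dedekind K))
    C.d_pos

end Side

/-- The first chart. -/
def sideP (hC : C.Regular) : P.Side where
  Q := C.Ap
  le := C.Ap_le
  y := ⟨C.x, C.x_mem⟩
  b := C.free_p.choose
  bij := C.free_p.choose_spec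
  ι := Polynomial.toLaurentAlg
  ι_inj := Polynomial.toLaurent_injective
  ρ_y := by
    rw [Polynomial.coe_toLaurentAlg, Polynomial.toLaurent_X]
    exact P.ρ_x
  entries a j l := mem_range_toLaurent_iff.mpr fun n hn => P.pos _ a.2 j l n hn
  shift := 0
  dedekind K := hC.dedekind_p K

/-- The second chart. -/
def sideM (hC : C.Regular) : P.Side where
  Q := C.Am
  le := C.Am_le
  y := ⟨C.x⁻¹, C.x_inv_mem⟩
  b := C.free_m.choose
  bij := C.free_m.choose_spec
  ι := negLaurent R
  ι_inj := (LaurentPolynomial.invert (R := R)).injective.comp Polynomial.toLaurent_injective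
  ρ_y := by
    show _ = LaurentPolynomial.invert (Polynomial.toLaurent X) • _
    rw [Polynomial.toLaurent_X, LaurentPolynomial.invert_T]
    exact P.ρ_x_inv
  entries a j l := mem_range_negLaurent_iff.mpr fun n hn => P.neg _ a.2 j l n hn
  shift := 1
  dedekind K := hC.dedekind_m K

end Side

variable (hC : C.Regular)

/-- The twisted triple of a matrix model. -/
@[reducible]
def triple : Triple C R where
  M := P.Space
  p := (P.sideP hC).lattice
  m := (P.sideM hC).lattice
  inv_p := (P.sideP hC).invertible_lattice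
  inv_m := (P.sideM hC).invertible_lattice
  exists_pow_smul_mem_p v := by
    have : ∀ j, ∃ n : ℕ, ∀ N, n ≤ N → ∀ l : ℤ, l < 0 → (P.vec v j * T (N : ℤ)).coeff l = 0 := by
      intro j
      obtain ⟨n, g, hg⟩ := LaurentPolynomial.exists_T_pow (P.vec v j)
      refine ⟨n, fun N hN l hl => ?_⟩
      have h1 := mem_range_toLaurent_iff.mp ⟨g, hg⟩ (l - (N - n)) (by omega)
      rw [coeff_mul_T] at h1 ⊢
      rwa [show l - (N : ℤ) = l - (N - n) - n by omega]
    choose n hn using this
    refine ⟨Finset.univ.sup n, (P.sideP hC).mem_lattice.mpr fun j => ?_⟩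
    refine mem_range_toLaurent_iff.mpr fun l hl => ?_
    have h1 := hn j (Finset.univ.sup n) (Finset.le_sup (Finset.mem_univ j)) l hl
    show (T 0 * P.vec (C.X₀ R ^ Finset.univ.sup n • v) j).coeff l = 0
    rwa [LaurentPolynomial.T_zero, one_mul, vec_X₀_pow_smul, Pi.smul_apply, smul_eq_mul, mul_comm]
  exists_pow_smul_mem_m v := by
    have : ∀ j, ∃ n : ℕ, ∀ N, n ≤ N → ∀ l : ℤ, 0 < l → (P.vec v j * T (1 - (N : ℤ))).coeff l = 0 := by
      intro j
      obtain ⟨n, g, hg⟩ := LaurentPolynomial.exists_T_pow (LaurentPolynomial.invert (P.vec v j))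
      refine ⟨n + 1, fun N hN l hl => ?_⟩
      have h1 := mem_range_toLaurent_iff.mp ⟨g, hg⟩ (n - (l - (1 - N))) (by omega)
      rw [coeff_mul_T, LaurentPolynomial.invert_apply] at h1
      rw [coeff_mul_T]
      convert h1 using 2
      omega
    choose n hn using this
    refine ⟨Finset.univ.sup n, (P.sideM hC).mem_lattice.mpr fun j => ?_⟩
    refine mem_range_negLaurent_iff.mpr fun l hl => ?_
    have h1 := hn j (Finset.univ.sup n) (Finset.le_sup (Finset.mem_univ j)) l hl
    show (T 1 * P.vec (C.Y₀ R ^ Finset.univ.sup n • v) j).coeff l = 0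
    rwa [vec_Y₀_pow_smul, Pi.smul_apply, smul_eq_mul, ← mul_assoc, ← LaurentPolynomial.T_add,
      ← sub_eq_add_neg, mul_comm]

/-- The normalised frame. -/
def frame (j : Fin C.d) : P.Space := P.vec.symm (Pi.single j 1)

end Rep

end Fermat.Agent.RelPic
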