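import Fermat.Agent.RelPic.Chart.Frame
import Fermat.Agent.RelPic.Chart.RepTriple
import Fermat.Agent.RelPic.Complex.Equiv

/-!
# Normalised frames and matrix models

The matrix of a triple with a normalised frame is a matrix model with an isomorphic twisted
triple, and conversely every matrix model carries a normalised frame.  The frame is unique up to
one unit, so the matrix model is unique.
-/

set_option autoImplicit false
set_option synthInstance.maxHeartbeats 400000

noncomputable section

universe u

open scoped TensorProduct LaurentPolynomial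
open LaurentPolynomial (T)

namespace Fermat.Agent.RelPic

variable {k : Type u} [Field k] {C : Model k} {R : Type u} [CommRing R] [Algebra k R]

theorem Model.evalR_laurentHom (Q : C.Pt) (f : R[T;T⁻¹]) :
    C.evalR R Q (C.laurentHom R f) = laurentEval (C.xAt R Q) f := by
  induction f using LaurentPolynomial.induction_on' with
  | add p q hp hq => simp only [map_add, hp, hq]
  | C_mul_T n a =>
    have hu : Units.map (C.evalR R Q).toRingHom.toMonoidHom (C.xUnitR R) = C.xAt R Q := by
      ext
      show C.evalR R Q ((1 : R) ⊗ₜ _) = _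
      simp [Model.evalR, Model.xAt, Model.xUnit, Algebra.algebraMap_eq_smul_one]
    have hC : C.laurentHom R (LaurentPolynomial.C a) = algebraMap R (C.A R) a := by
      rw [LaurentPolynomial.C_eq_algebraMap, AlgHom.commutes]
    rw [map_mul, C.laurentHom_T, hC, map_mul, AlgHom.commutes, laurentEval,
      LaurentPolynomial.eval₂_C_mul_T, ← hu, ← map_zpow]
    rfl

theorem Model.evalR_one_tmul (Q : C.Pt) (a : C.A₀) :
    C.evalR R Q ((1 : R) ⊗ₜ a) = algebraMap k R (Q a) := by
  simp [Model.evalR, Algebra.algebraMap_eq_smul_one]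

namespace NFrame

variable {i : Idx C} {e : C.Pt} {N : Triple C R} {s : Fin C.d → N.M} (h : NFrame i e N s)

include h

theorem comb_single (l : Fin C.d) : h.comb (Pi.single l 1) = s l := by
  rw [comb_apply, Finset.sum_eq_single l]
  · rw [Pi.single_eq_same, map_one, one_smul]
  · intro j _ hj
    rw [Pi.single_eq_of_ne hj, map_zero]
    exact zero_smul (C.A R) (s j)
  · simp

/-- The coordinates of a section in the frame. -/
def coords : N.M ≃ₗ[R] (Fin C.d → R[T;T⁻¹]) :=
  (LinearEquiv.ofBijective h.comb h.comb_bijective).symm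

theorem comb_coords (v : N.M) : h.comb (h.coords v) = v :=
  (LinearEquiv.ofBijective h.comb h.comb_bijective).apply_symm_apply v

theorem coords_comb (f : Fin C.d → R[T;T⁻¹]) : h.coords (h.comb f) = f :=
  (LinearEquiv.ofBijective h.comb h.comb_bijective).symm_apply_apply f

/-- The matrix of a function on the overlap in the frame. -/
def mat (a : C.A₀) : Matrix (Fin C.d) (Fin C.d) R[T;T⁻¹] :=
  Matrix.of fun j l => h.coords (((1 : R) ⊗ₜ a : C.A R) • s l) j

theorem comb_col (a : C.A₀) (l : Fin C.d) :
    h.comb (fun j => h.mat a j l) = ((1 : R) ⊗ₜ a : C.A R) • s l :=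
  h.comb_coords _

theorem smul_comb (a : C.A₀) (g : Fin C.d → R[T;T⁻¹]) :
    ((1 : R) ⊗ₜ a : C.A R) • h.comb g = h.comb (Matrix.mulVec (h.mat a) g) := by
  have hg : ((1 : R) ⊗ₜ a : C.A R) • h.comb g =
      ∑ l, C.laurentHom R (g l) • h.comb (fun j => h.mat a j l) := by
    rw [comb_apply, Finset.smul_sum]
    exact Finset.sum_congr rfl fun l _ => by rw [h.comb_col, smul_comm]
  rw [hg, comb_apply]
  simp only [comb_apply, Finset.smul_sum, smul_smul, ← map_mul, Matrix.mulVec, dotProduct, map_sum,
    Finset.sum_smul]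
  rw [Finset.sum_comm]
  exact Finset.sum_congr rfl fun l _ => Finset.sum_congr rfl fun j _ => by rw [mul_comm]

/-- The matrices of all functions on the overlap. -/
def matHom : C.A₀ →ₐ[k] Matrix (Fin C.d) (Fin C.d) R[T;T⁻¹] :=
  AlgHom.ofLinearMap
    { toFun := h.mat
      map_add' := fun a b => by
        ext1 j l
        simp [mat, TensorProduct.tmul_add, add_smul]
      map_smul' := fun c a => by
        ext1 j l
        simp only [mat, RingHom.id_apply, Matrix.smul_apply, Matrix.of_apply,
          TensorProduct.tmul_smul]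
        rw [← algebraMap_smul R c ((1 : R) ⊗ₜ[k] a : C.A R), smul_assoc, map_smul, Pi.smul_apply,
          algebraMap_smul] }
    (by
      ext1 j l
      show h.coords (((1 : R) ⊗ₜ (1 : C.A₀) : C.A R) • s l) j = _
      rw [← Algebra.TensorProduct.one_def, one_smul, ← h.comb_single, h.coords_comb,
        Matrix.one_apply, Pi.single_apply])
    (fun a b => by
      ext1 j l
      show h.coords (((1 : R) ⊗ₜ (a * b) : C.A R) • s l) j = _
      have hab : ((1 : R) ⊗ₜ (a * b) : C.A R) = ((1 : R) ⊗ₜ a) * ((1 : R) ⊗ₜ b) := by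
        rw [Algebra.TensorProduct.tmul_mul_tmul, one_mul]
      rw [hab, mul_smul, ← h.comb_col b l, h.smul_comb, h.coords_comb]
      rfl)

theorem coeff_mat_of_mem_Ap {a : C.A₀} (ha : (a : C.F) ∈ C.Ap) (j l : Fin C.d) (n : ℤ) (hn : n < 0) :
    (h.mat a j l).coeff n = 0 := by
  have hmem : ((1 : R) ⊗ₜ a : C.A R) • s l ∈ N.pR :=
    N.smul_mem_p (C.tmul_mem_Cp R 1 (C.mem_subP.mpr ha)) (h.mem_p l)
  rw [← h.comb_col] at hmem
  exact mem_range_toLaurent_iff.mp ((h.mem_p_iff _).mp hmem j) n hn

theorem coeff_mat_of_mem_Am {a : C.A₀} (ha : (a : C.F) ∈ C.Am) (j l : Fin C.d) (n : ℤ) (hn : 0 < n) :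
    (h.mat a j l).coeff n = 0 := by
  have hmem : ((1 : R) ⊗ₜ a : C.A R) • C.Y₀ R • s l ∈ N.mR :=
    N.smul_mem_m (C.tmul_mem_Cm R 1 (C.mem_subM.mpr ha)) (h.mem_m l)
  have hY : C.laurentHom R (T (-1)) = C.Y₀ R := by simpa using C.laurentHom_T_neg R 1
  rw [smul_comm, ← h.comb_col, ← hY, ← h.comb_smul] at hmem
  obtain ⟨g, hg⟩ := (h.mem_m_iff _).mp hmem j
  refine mem_range_negLaurent_iff.mp ⟨g, ?_⟩ n hn
  show LaurentPolynomial.invert (Polynomial.toLaurent g) = _
  rw [hg, Pi.smul_apply, smul_eq_mul, ← mul_assoc, ← LaurentPolynomial.T_add, add_neg_cancel,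
    LaurentPolynomial.T_zero, one_mul]

theorem coord_mat (Q : C.Pt) {r : N.M →ₗ[R] R} (hr : ∀ (a : C.A R) v, r (a • v) = C.evalR R Q a * r v)
    (a : C.A₀) (l : Fin C.d) :
    ∑ m, laurentEval (C.xAt R Q) (h.mat a m l) * r (s m) = algebraMap k R (Q a) * r (s l) := by
  have h1 := congrArg r (h.comb_col a l)
  rw [comb_apply, map_sum, hr, C.evalR_one_tmul] at h1
  rw [← h1]
  exact Finset.sum_congr rfl fun m _ => by rw [hr, C.evalR_laurentHom]

theorem mat_at_P (a : C.A₀) (j l : Fin C.d) :
    laurentEval (C.xAt R (i.P j)) (h.mat a j l) =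
      if j = l then algebraMap k R (i.P j a) else 0 := by
  obtain ⟨r, hr, hrs⟩ := N.exists_coord (h.gen j)
  have hsurj : Function.Surjective r := fun t =>
    ⟨t • s j, by rw [map_smul, hrs, smul_eq_mul, mul_one]⟩
  have hval : ∀ m, r (s m) = if j = m then 1 else 0 := fun m => by
    by_cases hm : j = m
    · subst hm; rw [if_pos rfl, hrs]
    · rw [if_neg hm]
      exact (N.mem_vanishAt_iff hr hsurj).mp (h.vanish m j (Ne.symm hm))
  have h1 := h.coord_mat (i.P j) hr a l
  simp only [hval, mul_ite, mul_one, mul_zero, Finset.sum_ite_eq, Finset.mem_univ, if_true] at h1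
  exact h1

theorem mat_at_e (a : C.A₀) (l : Fin C.d) :
    ∑ j, laurentEval (C.xAt R e) (h.mat a j l) = algebraMap k R (e a) := by
  obtain ⟨r, hr, hrs⟩ := h.norm
  simpa [hrs] using h.coord_mat e hr a l

/-- The matrix model of a normalised frame. -/
def rep : Rep i e R where
  ρ := h.matHom
  ρ_x := by
    ext1 j l
    show h.coords (C.X₀ R • s l) j = _
    rw [← pow_one (C.X₀ R), ← C.laurentHom_T_nat, ← h.comb_single, ← h.comb_smul, h.coords_comb,
      Matrix.smul_apply, Matrix.one_apply, Pi.smul_apply, Pi.single_apply, Nat.cast_one]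
  pos a ha j l n hn := h.coeff_mat_of_mem_Ap ha j l n hn
  neg a ha j l n hn := h.coeff_mat_of_mem_Am ha j l n hn
  at_P a j l := h.mat_at_P a j l
  at_e a l := h.mat_at_e a l

theorem smul_comb_act (a : C.A R) (g : Fin C.d → R[T;T⁻¹]) :
    a • h.comb g = h.comb (Matrix.mulVec (h.rep.act a) g) := by
  induction a using TensorProduct.induction_on with
  | zero =>
    rw [map_zero, Matrix.zero_mulVec, map_zero]
    exact zero_smul (C.A R) (h.comb g)
  | add a b ha hb => rw [add_smul, ha, hb, map_add, Matrix.add_mulVec, map_add]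
  | tmul r a0 =>
    rw [h.rep.act_tmul, Matrix.smul_mulVec, map_smul]
    show _ = r • h.comb (Matrix.mulVec (h.mat a0) g)
    rw [← h.smul_comb, ← smul_assoc, TensorProduct.smul_tmul', smul_eq_mul, mul_one]

/-- The identification of the module with Laurent vectors, linear over functions on the overlap. -/
def repLinearEquiv : h.rep.Space ≃ₗ[C.A R] N.M where
  toFun v := h.comb (h.rep.vec v)
  map_add' v w := by rw [map_add, map_add]
  map_smul' a v := by rw [RingHom.id_apply, h.smul_comb_act, Rep.vec_smul]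
  invFun w := h.rep.vec.symm (h.coords w)
  left_inv v := by
    show h.rep.vec.symm (h.coords (h.comb _)) = v
    rw [h.coords_comb, LinearEquiv.symm_apply_apply]
  right_inv w := by
    show h.comb (h.rep.vec (h.rep.vec.symm _)) = w
    rw [LinearEquiv.apply_symm_apply, h.comb_coords]

/-- A triple with a normalised frame is the twisted triple of its matrix model. -/
def repEquiv (hC : C.Regular) : Triple.Equiv (h.rep.triple hC) N where
  toEquiv := h.repLinearEquiv
  mem_p v := by
    refine ((h.rep.sideP hC).mem_lattice).trans ?_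
    refine Iff.trans ?_ (h.mem_p_iff (h.rep.vec v)).symm
    show (∀ j, ∃ g, Polynomial.toLaurent g = T 0 * h.rep.vec v j) ↔ _
    simp only [LaurentPolynomial.T_zero, one_mul]
  mem_m v := by
    refine ((h.rep.sideM hC).mem_lattice).trans ?_
    exact Iff.trans Iff.rfl (h.mem_m_iff (h.rep.vec v)).symm

/-- Normalised frames are transported by isomorphisms. -/
theorem map_equiv {N' : Triple C R} (E : Triple.Equiv N N') :
    NFrame i e N' fun j => E.toEquiv (s j) := by
  have hvan : ∀ (q : C.A R →ₐ[R] R),
      (N.vanishAt q).map (E.toEquiv.restrictScalars R).toLinearMap = N'.vanishAt q := fun q => by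
    ext v
    simp only [Triple.vanishAt, Submodule.restrictScalars_mem, Submodule.mem_map]
    constructor
    · rintro ⟨w, hw, rfl⟩
      have := Submodule.mem_map_of_mem (f := E.toEquiv.toLinearMap) hw
      rw [Submodule.map_smul''] at this
      exact Submodule.smul_mono le_rfl le_top this
    · intro hv
      refine ⟨E.toEquiv.symm v, ?_, E.toEquiv.apply_symm_apply v⟩
      have := Submodule.mem_map_of_mem (f := E.toEquiv.symm.toLinearMap) hv
      rw [Submodule.map_smul''] at this
      exact Submodule.smul_mono le_rfl le_top this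
  obtain ⟨r, hr, hrs⟩ := h.norm
  refine ⟨?_, fun j => (E.mem_p _).mp (h.mem_p j), fun j => ?_, fun v hv hv' => ?_,
    fun j l hjl => ?_, fun j => ?_, ⟨r ∘ₗ (E.toEquiv.symm.restrictScalars R).toLinearMap, ?_, ?_⟩⟩
  · rw [← E.map_pR, ← E.map_mR, ← Submodule.map_sup, h.sup, Submodule.map_top]
    exact LinearMap.range_eq_top.mpr E.toEquiv.surjective
  · have := (E.mem_m _).mp (h.mem_m j)
    rwa [map_smul] at this
  · have hm : C.Y₀ R • E.toEquiv.symm v ∈ N.mR := by
      rw [← map_smul]
      exact (E.symm.mem_m _).mp hv'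
    obtain ⟨f, hf⟩ := h.span _ ((E.symm.mem_p _).mp hv) hm
    refine ⟨f, ?_⟩
    have h1 := congrArg (E.toEquiv.restrictScalars R) hf
    simpa [map_sum, Triple.Equiv.symm] using h1
  · rw [← hvan]
    exact Submodule.mem_map_of_mem (h.vanish j l hjl)
  · have h1 : (R ∙ E.toEquiv (s j)) =
        (R ∙ s j).map (E.toEquiv.restrictScalars R).toLinearMap := by
      rw [Submodule.map_span, Set.image_singleton]
      rfl
    rw [← hvan, h1, ← Submodule.map_sup, h.gen, Submodule.map_top]
    exact LinearMap.range_eq_top.mpr E.toEquiv.surjective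
  · intro a v
    show r (E.toEquiv.symm (a • v)) = _
    rw [map_smul, hr]
    rfl
  · intro j
    show r (E.toEquiv.symm (E.toEquiv (s j))) = 1
    rw [LinearEquiv.symm_apply_apply, hrs]

/-- Two normalised frames differ by one unit. -/
theorem exists_unit {s' : Fin C.d → N.M} (h' : NFrame i e N s') :
    ∃ c : Rˣ, ∀ j, s' j = (c : R) • s j := by
  choose f hf using fun j => h.span (s' j) (h'.mem_p j) (h'.mem_m j)
  have hdiag : ∀ j, s' j = f j j • s j := by
    intro j
    have hz : ∀ m, m ≠ j → f j m = 0 := by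
      intro m hm
      obtain ⟨r, hr, hrs⟩ := N.exists_coord (h.gen m)
      have hsurj : Function.Surjective r := fun t =>
        ⟨t • s m, by rw [map_smul, hrs, smul_eq_mul, mul_one]⟩
      have h0 := (N.mem_vanishAt_iff hr hsurj).mp (h'.vanish j m (Ne.symm hm))
      rw [← hf j, map_sum, Finset.sum_eq_single m (fun l _ hl => ?_) (by simp), map_smul, hrs,
        smul_eq_mul, mul_one] at h0
      · exact h0
      · rw [map_smul, (N.mem_vanishAt_iff hr hsurj).mp (h.vanish l m hl), smul_zero]
    conv_lhs => rw [← hf j]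
    exact Finset.sum_eq_single j (fun m _ hm => by rw [hz m hm, zero_smul]) (by simp)
  obtain ⟨r, hr, hrs⟩ := h.norm
  obtain ⟨r', hr', hrs'⟩ := h'.norm
  let j₀ : Fin C.d := ⟨0, C.d_pos⟩
  have hmul : ∀ j, f j j * r' (s j₀) = 1 := fun j => by
    have h1 := hrs' j
    rwa [hdiag j, map_smul, N.coord_eq_mul hr hr' (hrs j₀) (s j), hrs j, one_mul, smul_eq_mul] at h1
  refine ⟨⟨f j₀ j₀, r' (s j₀), hmul j₀, by rw [mul_comm]; exact hmul j₀⟩, fun j => ?_⟩
  rw [hdiag j]
  congr 1
  calc f j j = f j j * (f j₀ j₀ * r' (s j₀)) := by rw [hmul, mul_one]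
    _ = f j₀ j₀ * (f j j * r' (s j₀)) := by ring
    _ = f j₀ j₀ := by rw [hmul, mul_one]

end NFrame

namespace Rep

variable {i : Idx C} {e : C.Pt} {R' : Type u} [CommRing R'] [Algebra k R'] (P : Rep i e R)

theorem vec_laurentHom_smul (f : R[T;T⁻¹]) (v : P.Space) :
    P.vec (C.laurentHom R f • v) = f • P.vec v := by
  induction f using LaurentPolynomial.induction_on' with
  | add p q hp hq => rw [map_add, add_smul, map_add, hp, hq, add_smul]
  | C_mul_T n a =>
    have hC : C.laurentHom R (LaurentPolynomial.C a) = algebraMap R (C.A R) a := by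
      rw [LaurentPolynomial.C_eq_algebraMap, AlgHom.commutes]
    rw [map_mul, mul_smul, hC, algebraMap_smul, map_smul, mul_smul,
      LaurentPolynomial.C_eq_algebraMap, algebraMap_smul]
    congr 1
    obtain ⟨m, rfl | rfl⟩ := Int.eq_nat_or_neg n
    · rw [C.laurentHom_T_nat, P.vec_X₀_pow_smul]
    · rw [C.laurentHom_T_neg, P.vec_Y₀_pow_smul]

theorem single_mem (j : Fin C.d) (hC : C.Regular) (f : R[T;T⁻¹]) :
    (show (P.triple hC).M from P.vec.symm (Pi.single j f)) ∈
      (P.triple hC).pR ⊔ (P.triple hC).mR := by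
  induction f using LaurentPolynomial.induction_on' with
  | add p q hp hq =>
    show (show P.Space from P.vec.symm (Pi.single j (p + q))) ∈ _
    rw [Pi.single_add, map_add]
    exact add_mem hp hq
  | C_mul_T n a =>
    rcases le_or_gt 0 n with hn | hn
    · refine Submodule.mem_sup_left ?_
      refine (P.sideP hC).mem_lattice.mpr fun l => ?_
      refine mem_range_toLaurent_iff.mpr fun m hm => ?_
      show (T 0 * (Pi.single j (LaurentPolynomial.C a * T n) : Fin C.d → R[T;T⁻¹]) l).coeff m = 0
      rw [LaurentPolynomial.T_zero, one_mul, Pi.single_apply]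
      split
      · rw [← LaurentPolynomial.single_eq_C_mul_T, AddMonoidAlgebra.coeff_single,
          Finsupp.single_eq_of_ne (by omega)]
      · simp
    · refine Submodule.mem_sup_right ?_
      refine (P.sideM hC).mem_lattice.mpr fun l => ?_
      refine mem_range_negLaurent_iff.mpr fun m hm => ?_
      show (T 1 * (Pi.single j (LaurentPolynomial.C a * T n) : Fin C.d → R[T;T⁻¹]) l).coeff m = 0
      rw [Pi.single_apply]
      split
      · rw [mul_left_comm, ← LaurentPolynomial.T_add, ← LaurentPolynomial.single_eq_C_mul_T,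
          AddMonoidAlgebra.coeff_single, Finsupp.single_eq_of_ne (by omega)]
      · simp

/-- The functional attached to a point and weights on the coordinates. -/
def coordAt (Q : C.Pt) (w : Fin C.d → R) : P.Space →ₗ[R] R where
  toFun v := ∑ j, w j * laurentEval (C.xAt R Q) (P.vec v j)
  map_add' v w := by simp [mul_add, Finset.sum_add_distrib]
  map_smul' r v := by
    simp only [map_smul, Pi.smul_apply, RingHom.id_apply, smul_eq_mul, Finset.mul_sum]
    refine Finset.sum_congr rfl fun j _ => ?_
    rw [← algebraMap_smul R[T;T⁻¹] r, smul_eq_mul, map_mul, ← LaurentPolynomial.C_eq_algebraMap]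
    simp [laurentEval, mul_left_comm]

theorem coordAt_smul (Q : C.Pt) (w : Fin C.d → R)
    (hw : ∀ (a : C.A₀) (l : Fin C.d),
      ∑ j, w j * laurentEval (C.xAt R Q) (P.ρ a j l) = w l * algebraMap k R (Q a))
    (a : C.A R) (v : P.Space) : P.coordAt Q w (a • v) = C.evalR R Q a * P.coordAt Q w v := by
  induction a using TensorProduct.induction_on with
  | zero =>
    rw [map_zero, zero_mul, ← map_zero (P.coordAt Q w)]
    exact congrArg _ (zero_smul (C.A R) v)
  | add a b ha hb => rw [add_smul, map_add, map_add, ha, hb, add_mul]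
  | tmul r a0 =>
    have h1 : (r ⊗ₜ a0 : C.A R) • v = r • ((1 : R) ⊗ₜ a0 : C.A R) • v := by
      rw [← smul_assoc, TensorProduct.smul_tmul', smul_eq_mul, mul_one]
    have h2 : C.evalR R Q (r ⊗ₜ a0) = r * algebraMap k R (Q a0) := by
      rw [← C.evalR_one_tmul, ← smul_eq_mul, ← map_smul, TensorProduct.smul_tmul', smul_eq_mul,
        mul_one]
    rw [h1, map_smul, h2, smul_eq_mul, mul_assoc]
    congr 1
    show ∑ j, w j * laurentEval _ (P.vec (((1 : R) ⊗ₜ a0 : C.A R) • v) j) = _
    simp only [vec_smul, act_tmul, one_smul, Matrix.mulVec, dotProduct, map_sum, map_mul,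
      Finset.mul_sum, ← mul_assoc]
    rw [Finset.sum_comm, coordAt, LinearMap.coe_mk, AddHom.coe_mk, Finset.mul_sum]
    refine Finset.sum_congr rfl fun l _ => ?_
    rw [← Finset.sum_mul, hw]
    ring

theorem coordAt_frame (Q : C.Pt) (w : Fin C.d → R) (l : Fin C.d) :
    P.coordAt Q w (P.frame l) = w l := by
  show ∑ j, w j * laurentEval _ (P.vec (P.vec.symm (Pi.single l 1)) j) = w l
  rw [LinearEquiv.apply_symm_apply, Finset.sum_eq_single l]
  · rw [Pi.single_eq_same, map_one, mul_one]
  · intro j _ hj
    rw [Pi.single_eq_of_ne hj, map_zero, mul_zero]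
  · simp

variable (hC : C.Regular)

/-- The frame of a matrix model is normalised. -/
theorem nframe : NFrame i e (P.triple hC) P.frame := by
  have hsmulY : ∀ (v : P.Space) (j : Fin C.d),
      T 1 * P.vec (C.Y₀ R • v) j = P.vec v j := fun v j => by
    rw [← pow_one (C.Y₀ R), P.vec_Y₀_pow_smul, Pi.smul_apply, smul_eq_mul, ← mul_assoc,
      ← LaurentPolynomial.T_add, Nat.cast_one, add_neg_cancel, LaurentPolynomial.T_zero, one_mul]
  have hone : ∀ j l : Fin C.d, (Pi.single j 1 : Fin C.d → R[T;T⁻¹]) l =
      Polynomial.toLaurent (if l = j then 1 else 0) := fun j l => by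
    rw [Pi.single_apply]; split <;> simp
  have hframe : ∀ j, P.vec (P.frame j) = Pi.single j 1 := fun j => P.vec.apply_symm_apply _
  have hP : ∀ (j : Fin C.d) (a : C.A R) (v : P.Space),
      P.coordAt (i.P j) (Pi.single j 1) (a • v) =
        C.evalR R (i.P j) a * P.coordAt (i.P j) (Pi.single j 1) v := fun j =>
    P.coordAt_smul _ _ fun a l => by
      rw [Finset.sum_eq_single j (fun m _ hm => by rw [Pi.single_eq_of_ne hm, zero_mul]) (by simp),
        Pi.single_eq_same, one_mul, P.at_P]
      by_cases hjl : j = l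
      · subst hjl; simp
      · rw [if_neg hjl, Pi.single_eq_of_ne (Ne.symm hjl), zero_mul]
  have hsurj : ∀ j, Function.Surjective (P.coordAt (i.P j) (Pi.single j 1)) := fun j t =>
    ⟨t • P.frame j, by rw [map_smul, coordAt_frame, Pi.single_eq_same, smul_eq_mul, mul_one]⟩
  refine ⟨eq_top_iff.mpr fun v _ => ?_, fun j => ?_, fun j => ?_, fun v hv hv' => ?_,
    fun j l hjl => ?_, fun j => eq_top_iff.mpr fun v _ => ?_, ⟨P.coordAt e 1, ?_, ?_⟩⟩
  · show (v : P.Space) ∈ _
    rw [← P.vec.symm_apply_apply v, ← Finset.univ_sum_single (P.vec v), map_sum]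
    exact sum_mem fun j _ => P.single_mem j hC _
  · refine (P.sideP hC).mem_lattice.mpr fun l => ⟨if l = j then 1 else 0, ?_⟩
    show Polynomial.toLaurent _ = T 0 * P.vec (P.frame j) l
    rw [LaurentPolynomial.T_zero, one_mul, hframe]
    exact (hone j l).symm
  · refine (P.sideM hC).mem_lattice.mpr fun l => ⟨if l = j then 1 else 0, ?_⟩
    show LaurentPolynomial.invert (Polynomial.toLaurent _) = T 1 * P.vec (C.Y₀ R • P.frame j) l
    rw [hsmulY, hframe, hone]
    split <;> simp
  · refine ⟨fun j => (P.vec v j).coeff 0, P.vec.injective (funext fun l => ?_)⟩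
    show P.vec (∑ j : Fin C.d, ((P.vec v j).coeff 0 • P.frame j : P.Space)) l = P.vec v l
    rw [map_sum, Finset.sum_apply, Finset.sum_eq_single l]
    · rw [map_smul, Pi.smul_apply, hframe, Pi.single_eq_same]
      refine LaurentPolynomial.ext fun n => ?_
      rw [AddMonoidAlgebra.coeff_smul, Finsupp.smul_apply, AddMonoidAlgebra.one_def,
        AddMonoidAlgebra.coeff_single, smul_eq_mul]
      rcases lt_trichotomy n 0 with hn | rfl | hn
      · have h1 := mem_range_toLaurent_iff.mp ((P.sideP hC).mem_lattice.mp hv l) n hn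
        rw [Finsupp.single_eq_of_ne hn.ne, mul_zero]
        change (T 0 * P.vec v l).coeff n = 0 at h1
        rw [LaurentPolynomial.T_zero, one_mul] at h1
        exact h1.symm
      · rw [Finsupp.single_eq_same, mul_one]
      · have h1 := mem_range_negLaurent_iff.mp ((P.sideM hC).mem_lattice.mp hv' l) n hn
        rw [Finsupp.single_eq_of_ne hn.ne', mul_zero]
        change (T 1 * P.vec (C.Y₀ R • v) l).coeff n = 0 at h1
        rw [hsmulY] at h1
        exact h1.symm
    · intro j _ hj
      rw [map_smul, Pi.smul_apply, hframe, Pi.single_eq_of_ne hj.symm, smul_zero]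
    · simp
  · refine ((P.triple hC).mem_vanishAt_iff (hP l) (hsurj l)).mpr ?_
    show P.coordAt _ _ (P.frame j) = 0
    rw [coordAt_frame, Pi.single_eq_of_ne hjl]
  · show (v : P.Space) ∈ _
    refine Submodule.mem_sup.mpr ⟨v - P.coordAt (i.P j) (Pi.single j 1) v • P.frame j,
      ((P.triple hC).mem_vanishAt_iff (hP j) (hsurj j)).mpr ?_, _,
      Submodule.smul_mem _ _ (Submodule.mem_span_singleton_self _), sub_add_cancel _ _⟩
    show P.coordAt _ _ (v - _) = 0
    rw [map_sub, map_smul, coordAt_frame, Pi.single_eq_same, smul_eq_mul, mul_one, sub_self]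
  · exact P.coordAt_smul _ _ fun a l => by simpa using P.at_e a l
  · exact fun j => P.coordAt_frame e 1 j

theorem vec_comb (f : Fin C.d → R[T;T⁻¹]) : P.vec ((P.nframe hC).comb f) = f := by
  have h1 : (P.nframe hC).comb f = ∑ j, C.laurentHom R (f j) • P.frame j := rfl
  rw [h1]
  conv_rhs => rw [← Finset.univ_sum_single f]
  refine (map_sum P.vec _ _).trans (Finset.sum_congr rfl fun j _ => ?_)
  rw [vec_laurentHom_smul, show P.vec (P.frame j) = Pi.single j 1 from P.vec.apply_symm_apply _,
    ← Pi.single_smul, smul_eq_mul, mul_one]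

/-- A matrix model is determined by its twisted triple. -/
theorem eq_of_equiv {Q : Rep i e R} (E : Triple.Equiv (P.triple hC) (Q.triple hC)) : P = Q := by
  have hQ := Q.nframe hC
  obtain ⟨c, hc⟩ := hQ.exists_unit ((P.nframe hC).map_equiv E)
  have hcomb : ∀ f : Fin C.d → R[T;T⁻¹],
      E.toEquiv ((P.nframe hC).comb f) = (c : R) • hQ.comb f := by
    intro f
    show E.toEquiv (∑ j, C.laurentHom R (f j) • P.frame j) =
      (c : R) • ∑ j, C.laurentHom R (f j) • Q.frame j
    rw [map_sum, Finset.smul_sum]
    refine Finset.sum_congr rfl fun j _ => ?_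
    rw [map_smul, hc, smul_comm]
  ext1 a
  ext1 j l
  have hcol : ∀ (P' : Rep i e R), ((1 : R) ⊗ₜ a : C.A R) • P'.frame l =
      (P'.nframe hC).comb fun j => P'.ρ a j l := fun P' => by
    refine P'.vec.injective ?_
    rw [vec_comb, vec_smul, act_tmul, one_smul,
      show P'.vec (P'.frame l) = Pi.single l 1 from P'.vec.apply_symm_apply _,
      Matrix.mulVec_single_one]
    rfl
  have h1 := congrArg E.toEquiv (hcol P)
  rw [hcomb] at h1
  have h2 : E.toEquiv (((1 : R) ⊗ₜ a : C.A R) • P.frame l) =
      (c : R) • hQ.comb fun j => Q.ρ a j l := by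
    rw [map_smul, hc l, smul_comm, hcol Q]
  have h3 := hQ.comb_bijective.1 ((IsUnit.smul_left_cancel c.isUnit).mp (h1.symm.trans h2))
  exact congrFun h3 j

theorem map_act (φ : R →ₐ[k] R') (a : C.A R) (j l : Fin C.d) :
    laurentMap φ (P.act a j l) = (P.map φ).act (C.mapA φ a) j l := by
  induction a using TensorProduct.induction_on with
  | zero => simp
  | add a b ha hb => simp [ha, hb]
  | tmul r a0 =>
    rw [C.mapA_tmul, act_tmul, act_tmul, Matrix.smul_apply, Matrix.smul_apply, map_ρ,
      ← algebraMap_smul R[T;T⁻¹] r, ← algebraMap_smul R'[T;T⁻¹] (φ r), smul_eq_mul, smul_eq_mul,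
      map_mul]
    congr 1
    exact laurentMap_single φ 0 r

/-- Change of coefficients of the twisted triple. -/
def mapVec (φ : R →ₐ[k] R') : P.Space →+ (P.map φ).Space where
  toFun v := (P.map φ).vec.symm fun j => laurentMap φ (P.vec v j)
  map_zero' := by simp [Pi.zero_def]
  map_add' v w := by
    rw [← map_add]
    exact congrArg _ (funext fun j => by simp)

theorem vec_mapVec (φ : R →ₐ[k] R') (v : P.Space) (j : Fin C.d) :
    (P.map φ).vec (P.mapVec φ v) j = laurentMap φ (P.vec v j) := rfl

theorem coeff_T_mul (n m : ℤ) (f : R[T;T⁻¹]) : (T n * f).coeff m = f.coeff (m - n) := by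
  rw [mul_comm, coeff_mul_T]

/-- The twisted triple commutes with base change. -/
def bc (φ : R →ₐ[k] R') : Triple.BC φ (P.triple hC) ((P.map φ).triple hC) where
  toFun := P.mapVec φ
  map_smul a v := (P.map φ).vec.injective (funext fun j => by
    show (P.map φ).vec (P.mapVec φ (a • (v : P.Space))) j = (P.map φ).vec (_ • P.mapVec φ v) j
    rw [vec_mapVec, vec_smul, vec_smul]
    simp only [Matrix.mulVec, dotProduct, map_sum, map_mul, P.map_act, vec_mapVec])
  map_p v hv := ((P.map φ).sideP hC).mem_lattice.mpr fun j => mem_range_toLaurent_iff.mpr fun n hn => by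
    have h1 := mem_range_toLaurent_iff.mp ((P.sideP hC).mem_lattice.mp hv j) n hn
    show (T 0 * (P.map φ).vec (P.mapVec φ v) j).coeff n = 0
    change (T 0 * P.vec v j).coeff n = 0 at h1
    rw [coeff_T_mul, sub_zero] at h1
    rw [coeff_T_mul, sub_zero, vec_mapVec, laurentMap_coeff, h1, map_zero]
  map_m v hv := ((P.map φ).sideM hC).mem_lattice.mpr fun j => mem_range_negLaurent_iff.mpr fun n hn => by
    have h1 := mem_range_negLaurent_iff.mp ((P.sideM hC).mem_lattice.mp hv j) n hn
    show (T 1 * (P.map φ).vec (P.mapVec φ v) j).coeff n = 0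
    change (T 1 * P.vec v j).coeff n = 0 at h1
    rw [coeff_T_mul] at h1
    rw [coeff_T_mul, vec_mapVec, laurentMap_coeff, h1, map_zero]
  span_p v hv := by
    show (v : (P.map φ).Space) ∈ _
    rw [← (P.map φ).vec.symm_apply_apply v, ← Finset.univ_sum_single ((P.map φ).vec v), map_sum]
    refine sum_mem fun j _ => ?_
    obtain ⟨g, hg⟩ := ((P.map φ).sideP hC).mem_lattice.mp hv j
    change Polynomial.toLaurent g = T 0 * (P.map φ).vec v j at hg
    rw [LaurentPolynomial.T_zero, one_mul] at hg
    rw [← hg]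
    clear hg
    induction g using Polynomial.induction_on' with
    | add p q hp hq => rw [map_add, Pi.single_add, map_add]; exact add_mem hp hq
    | monomial n r =>
      have h1 : (P.map φ).vec.symm (Pi.single j (Polynomial.toLaurent (Polynomial.monomial n r))) =
          r • P.mapVec φ (P.vec.symm (Pi.single j (T (n : ℤ)))) := by
        refine (P.map φ).vec.injective (funext fun l => ?_)
        rw [LinearEquiv.apply_symm_apply, map_smul, Pi.smul_apply, vec_mapVec,
          LinearEquiv.apply_symm_apply, ← Polynomial.C_mul_X_pow_eq_monomial,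
          Polynomial.toLaurent_C_mul_X_pow, Pi.single_apply, Pi.single_apply]
        split
        · rw [laurentMap_T, ← algebraMap_smul R'[T;T⁻¹] r, smul_eq_mul,
            LaurentPolynomial.C_eq_algebraMap]
        · rw [map_zero, smul_zero]
      rw [h1]
      refine Submodule.smul_mem _ _ (Submodule.subset_span ⟨_, ?_, rfl⟩)
      refine (P.sideP hC).mem_lattice.mpr fun l => mem_range_toLaurent_iff.mpr fun m hm => ?_
      show (T 0 * (Pi.single j (T (n : ℤ)) : Fin C.d → R[T;T⁻¹]) l).coeff m = 0
      rw [coeff_T_mul, sub_zero, Pi.single_apply]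
      split
      · show (AddMonoidAlgebra.single (n : ℤ) (1 : R)).coeff m = 0
        rw [AddMonoidAlgebra.coeff_single, Finsupp.single_eq_of_ne (by omega)]
      · simp
  span_m v hv := by
    show (v : (P.map φ).Space) ∈ _
    rw [← (P.map φ).vec.symm_apply_apply v, ← Finset.univ_sum_single ((P.map φ).vec v), map_sum]
    refine sum_mem fun j _ => ?_
    obtain ⟨g, hg⟩ := ((P.map φ).sideM hC).mem_lattice.mp hv j
    change LaurentPolynomial.invert (Polynomial.toLaurent g) = T 1 * (P.map φ).vec v j at hg
    have hv' : (P.map φ).vec v j = T (-1) * LaurentPolynomial.invert (Polynomial.toLaurent g) := by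
      rw [hg, ← mul_assoc, ← LaurentPolynomial.T_add, neg_add_cancel, LaurentPolynomial.T_zero, one_mul]
    rw [hv']
    clear hv' hg
    induction g using Polynomial.induction_on' with
    | add p q hp hq =>
      rw [map_add, map_add, mul_add, Pi.single_add, map_add]; exact add_mem hp hq
    | monomial n r =>
      have h1 : (P.map φ).vec.symm (Pi.single j
          (T (-1) * LaurentPolynomial.invert (Polynomial.toLaurent (Polynomial.monomial n r)))) =
          r • P.mapVec φ (P.vec.symm (Pi.single j (T (-1 + -(n : ℤ))))) := by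
        refine (P.map φ).vec.injective (funext fun l => ?_)
        rw [LinearEquiv.apply_symm_apply, map_smul, Pi.smul_apply, vec_mapVec,
          LinearEquiv.apply_symm_apply, ← Polynomial.C_mul_X_pow_eq_monomial,
          Polynomial.toLaurent_C_mul_X_pow, map_mul, LaurentPolynomial.invert_C,
          LaurentPolynomial.invert_T, mul_left_comm, ← LaurentPolynomial.T_add, Pi.single_apply,
          Pi.single_apply]
        split
        · rw [laurentMap_T, ← algebraMap_smul R'[T;T⁻¹] r, smul_eq_mul,
            LaurentPolynomial.C_eq_algebraMap]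
        · rw [map_zero, smul_zero]
      rw [h1]
      refine Submodule.smul_mem _ _ (Submodule.subset_span ⟨_, ?_, rfl⟩)
      refine (P.sideM hC).mem_lattice.mpr fun l => mem_range_negLaurent_iff.mpr fun m hm => ?_
      show (T 1 * (Pi.single j (T (-1 + -(n : ℤ))) : Fin C.d → R[T;T⁻¹]) l).coeff m = 0
      rw [coeff_T_mul, Pi.single_apply]
      split
      · show (AddMonoidAlgebra.single (-1 + -(n : ℤ)) (1 : R)).coeff (m - 1) = 0
        rw [AddMonoidAlgebra.coeff_single, Finsupp.single_eq_of_ne (by omega)]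
      · simp

end Rep

/-- A normalised frame is the frame of a unique matrix model. -/
theorem NFrame.existsUnique_rep {i : Idx C} {e : C.Pt} {N : Triple C R} {s : Fin C.d → N.M}
    (h : NFrame i e N s) (hC : C.Regular) :
    ∃! P : Rep i e R, Nonempty (Triple.Equiv (P.triple hC) N) :=
  ⟨h.rep, ⟨h.repEquiv hC⟩, fun P ⟨E⟩ => P.eq_of_equiv hC (E.trans (h.repEquiv hC).symm)⟩

end Fermat.Agent.RelPic
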