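import Fermat.Agent.RelPic.Chart.OpenCond
import Fermat.Agent.RelPic.Complex.Lattice
import Fermat.Agent.RelPic.Point.HasTwist

/-!
# The chart conditions are open

The twist by the points of an index lowers the Euler characteristic by their number; with the
twisted triples this gives all fibrewise properties of the chart condition.
-/

set_option autoImplicit false
set_option synthInstance.maxHeartbeats 400000

noncomputable section

universe u

open scoped TensorProduct

namespace Fermat.Agent.RelPic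

section Linear

variable {K V W : Type u} [Field K] [AddCommGroup V] [Module K V] [AddCommGroup W] [Module K W]

/-- Dimensions of quotients add along a chain of subspaces. -/
theorem finrank_quotient_trans {U S : Submodule K V} (hle : U ≤ S) [Module.Finite K (V ⧸ S)]
    [Module.Finite K (S ⧸ U.comap S.subtype)] :
    Module.Finite K (V ⧸ U) ∧ Module.finrank K (V ⧸ U) =
      Module.finrank K (S ⧸ U.comap S.subtype) + Module.finrank K (V ⧸ S) := by
  let f : (S ⧸ U.comap S.subtype) →ₗ[K] V ⧸ U := (U.comap S.subtype).mapQ U S.subtype le_rfl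
  let g := U.mapQ S LinearMap.id hle
  have hf : Function.Injective f := by
    refine (injective_iff_map_eq_zero f).mpr fun x hx => ?_
    obtain ⟨x, rfl⟩ := Submodule.mkQ_surjective _ x
    exact (Submodule.Quotient.mk_eq_zero _).mpr ((Submodule.Quotient.mk_eq_zero U).mp hx)
  have hg : Function.Surjective g := fun x => by
    obtain ⟨x, rfl⟩ := Submodule.mkQ_surjective _ x
    exact ⟨Submodule.Quotient.mk x, rfl⟩
  have hker : LinearMap.ker g = LinearMap.range f := by
    refine le_antisymm (fun x hx => ?_) ?_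
    · obtain ⟨x, rfl⟩ := Submodule.mkQ_surjective _ x
      exact ⟨Submodule.Quotient.mk ⟨x, (Submodule.Quotient.mk_eq_zero S).mp hx⟩, rfl⟩
    · rintro _ ⟨x, rfl⟩
      obtain ⟨x, rfl⟩ := Submodule.mkQ_surjective _ x
      exact (Submodule.Quotient.mk_eq_zero S).mpr x.2
  have : Module.Finite K (LinearMap.ker g) := by rw [hker]; infer_instance
  have : Module.Finite K ((V ⧸ U) ⧸ LinearMap.ker g) :=
    Module.Finite.equiv (g.quotKerEquivOfSurjective hg).symm
  have hfin : Module.Finite K (V ⧸ U) := Module.Finite.of_submodule_quotient (LinearMap.ker g)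
  refine ⟨hfin, ?_⟩
  rw [← g.finrank_range_add_finrank_ker, LinearMap.range_eq_top.mpr hg, finrank_top, hker,
    LinearMap.finrank_range_of_inj hf, add_comm]

theorem chiOf_comm (P Q : Submodule K V) : chiOf P Q = chiOf Q P := by
  rw [chiOf, chiOf, inf_comm, sup_comm]

/-- The quotient of a lattice by its part in a complementary subspace. -/
def quotientInfEquiv {P S : Submodule K V} (h : P ⊔ S = ⊤) :
    (P ⧸ (P ⊓ S).comap P.subtype) ≃ₗ[K] V ⧸ S :=
  LinearEquiv.ofBijective (((P ⊓ S).comap P.subtype).mapQ S P.subtype fun _ hv => hv.2) <| by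
    refine ⟨(injective_iff_map_eq_zero _).mpr fun x hx => ?_, fun x => ?_⟩
    · obtain ⟨x, rfl⟩ := Submodule.mkQ_surjective _ x
      exact (Submodule.Quotient.mk_eq_zero _).mpr ⟨x.2, (Submodule.Quotient.mk_eq_zero S).mp hx⟩
    · obtain ⟨x, rfl⟩ := Submodule.mkQ_surjective _ x
      obtain ⟨a, ha, b, hb, rfl⟩ := Submodule.mem_sup.mp (h.ge (Submodule.mem_top (x := x)))
      exact ⟨Submodule.Quotient.mk ⟨a, ha⟩, (Submodule.Quotient.eq S).mpr (by simpa using S.neg_mem hb)⟩

/-- A subspace of codimension `n`, complementary to both lattices, lowers the Euler characteristic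
by `n`. -/
theorem chiOf_eq_add (j : W →ₗ[K] V) (hj : Function.Injective j) (P Q : Submodule K V)
    (hP : P ⊔ LinearMap.range j = ⊤) (hQ : Q ⊔ LinearMap.range j = ⊤)
    [Module.Finite K (V ⧸ LinearMap.range j)] [Module.Finite K ↥(P ⊓ Q)]
    [Module.Finite K (W ⧸ (P.comap j ⊔ Q.comap j))] :
    chiOf P Q = chiOf (P.comap j) (Q.comap j) + Module.finrank K (V ⧸ LinearMap.range j) := by
  set S := LinearMap.range j
  have hmap : (P.comap j ⊔ Q.comap j).map j = (P ⊓ S) ⊔ (Q ⊓ S) := by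
    rw [Submodule.map_sup, Submodule.map_comap_eq, Submodule.map_comap_eq, inf_comm, inf_comm S Q]
  have hle : (P ⊓ S) ⊔ (Q ⊓ S) ≤ S := sup_le inf_le_right inf_le_right
  let e : (W ⧸ (P.comap j ⊔ Q.comap j)) ≃ₗ[K] S ⧸ ((P ⊓ S) ⊔ (Q ⊓ S)).comap S.subtype :=
    Submodule.Quotient.equiv _ _ (LinearEquiv.ofInjective j hj) (by
      rw [← hmap]
      refine le_antisymm ?_ fun x hx => ?_
      · rintro _ ⟨w, hw, rfl⟩; exact ⟨w, hw, rfl⟩
      · obtain ⟨w, hw, hwx⟩ := hx
        exact ⟨w, hw, Subtype.ext hwx⟩)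
  have : Module.Finite K (S ⧸ ((P ⊓ S) ⊔ (Q ⊓ S)).comap S.subtype) := Module.Finite.equiv e
  obtain ⟨hfin, hrank⟩ := finrank_quotient_trans hle
  -- the lattices cut by `S`
  have e0 : ↥(P.comap j ⊓ Q.comap j) ≃ₗ[K] ↥((P ⊓ S) ⊓ (Q ⊓ S)) :=
    (Submodule.equivMapOfInjective j hj _).trans (LinearEquiv.ofEq _ _ (by
      rw [← Submodule.comap_inf, Submodule.map_comap_eq, inf_comm, inf_inf_distrib_right]))
  have h1 : chiOf (P ⊓ S) (Q ⊓ S) =
      chiOf (P.comap j) (Q.comap j) - Module.finrank K (V ⧸ S) := by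
    simp only [chiOf]
    rw [← e0.finrank_eq, hrank, ← e.finrank_eq]
    push_cast
    ring
  have : Module.Finite K (P ⧸ (P ⊓ S).comap P.subtype) :=
    Module.Finite.equiv (quotientInfEquiv hP).symm
  have : Module.Finite K (Q ⧸ (Q ⊓ S).comap Q.subtype) :=
    Module.Finite.equiv (quotientInfEquiv hQ).symm
  have : Module.Finite K (V ⧸ ((Q ⊓ S) ⊔ (P ⊓ S))) := by rw [sup_comm]; exact hfin
  have : Module.Finite K ↥((Q ⊓ S) ⊓ P) :=
    Module.Finite.of_injective (Submodule.inclusion (show (Q ⊓ S) ⊓ P ≤ P ⊓ Q from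
      fun v hv => ⟨hv.2, hv.1.1⟩)) (Submodule.inclusion_injective _)
  have h2 := chiOf_mono_right (p := Q ⊓ S) (inf_le_left : P ⊓ S ≤ P)
  have : Module.Finite K (V ⧸ (P ⊔ (Q ⊓ S))) := Module.Finite.of_surjective
    (((P ⊓ S) ⊔ (Q ⊓ S)).mapQ (P ⊔ (Q ⊓ S)) LinearMap.id (sup_le_sup_right inf_le_left _))
    fun x => by
      obtain ⟨x, rfl⟩ := Submodule.mkQ_surjective _ x
      exact ⟨Submodule.Quotient.mk x, rfl⟩
  have h3 := chiOf_mono_right (p := P) (inf_le_left : Q ⊓ S ≤ Q)
  rw [(quotientInfEquiv hP).finrank_eq, chiOf_comm (Q ⊓ S) P, chiOf_comm (Q ⊓ S) (P ⊓ S)] at h2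
  rw [(quotientInfEquiv hQ).finrank_eq] at h3
  omega

end Linear

variable {k : Type u} [Field k] {C : Model k}

namespace Idx

variable {K : Type u} [Field K] [Algebra k K]

/-- The points of a list cut out a submodule of that codimension. -/
theorem finrank_quotient_ptsIdeal (hC : C.Regular) (T : Triple C K) (l : List C.Pt) :
    Module.Finite K (T.M ⧸ (Model.ptsIdeal K l • (⊤ : Submodule (C.A K) T.M)).restrictScalars K) ∧
      Module.finrank K
        (T.M ⧸ (Model.ptsIdeal K l • (⊤ : Submodule (C.A K) T.M)).restrictScalars K) = l.length := by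
  induction l with
  | nil =>
    have h : ((Model.ptsIdeal K ([] : List C.Pt) • (⊤ : Submodule (C.A K) T.M))).restrictScalars K =
        ⊤ := by simp [Model.ptsIdeal]
    rw [h]
    exact ⟨inferInstance, Module.finrank_zero_of_subsingleton⟩
  | cons Q l ih =>
    let N := Div.act (Div.ptsDiv l) (Div.isGood_ptsDiv hC l) T
    let S := (Model.ptsIdeal K l • (⊤ : Submodule (C.A K) T.M)).restrictScalars K
    let U := (Model.ptsIdeal K (Q :: l) • (⊤ : Submodule (C.A K) T.M)).restrictScalars K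
    have hJ : Div.actN (Div.ptsDiv l) T = Model.ptsIdeal K l • ⊤ := by rw [Div.actN, Div.ptsDiv_J]
    have hker : (N.vanishAt (C.evalR K Q)).map
        ((Div.actN (Div.ptsDiv l) T).subtype.restrictScalars K) = U := by
      show ((RingHom.ker (C.evalR K Q) • (⊤ : Submodule (C.A K) N.M)).map
        (Div.actN (Div.ptsDiv l) T).subtype).restrictScalars K = _
      rw [Submodule.map_smul'', Submodule.map_top, Submodule.range_subtype, hJ, ← Submodule.mul_smul]
      simp [U, Model.ptsIdeal]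
    have hle : U ≤ S := by
      rw [← hker]
      rintro _ ⟨v, -, rfl⟩
      show (v : T.M) ∈ Model.ptsIdeal K l • (⊤ : Submodule (C.A K) T.M)
      rw [← hJ]; exact v.2
    obtain ⟨r, hr, hsurj⟩ := N.exists_isFnl_surjective (C.evalR K Q)
    let g : S →ₗ[K] N.M :=
      { toFun := fun v => ⟨v.1, hJ ▸ v.2⟩
        map_add' := fun _ _ => rfl
        map_smul' := fun _ _ => rfl }
    have hgs : Function.Surjective (r ∘ₗ g) := fun c => by
      obtain ⟨v, rfl⟩ := hsurj c
      exact ⟨⟨v.1, show v.1 ∈ Model.ptsIdeal K l • (⊤ : Submodule (C.A K) T.M) from hJ ▸ v.2⟩, rfl⟩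
    have hk : U.comap S.subtype = LinearMap.ker (r ∘ₗ g) := by
      ext v
      rw [LinearMap.mem_ker, LinearMap.comp_apply, ← N.mem_vanishAt_iff hr hsurj, Submodule.mem_comap,
        ← hker]
      exact ⟨fun ⟨w, hw, hwv⟩ => (Subtype.ext hwv : w = g v) ▸ hw, fun h => ⟨g v, h, rfl⟩⟩
    let eK := (Submodule.quotEquivOfEq _ _ hk).trans ((r ∘ₗ g).quotKerEquivOfSurjective hgs)
    have := ih.1
    have : Module.Finite K (S ⧸ U.comap S.subtype) := Module.Finite.equiv eK.symm
    obtain ⟨hfin, hrank⟩ := finrank_quotient_trans hle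
    refine ⟨hfin, ?_⟩
    rw [hrank, eK.finrank_eq, Module.finrank_self, ih.2, List.length_cons, add_comm]

variable (i : Idx C)

theorem sup_sub_eq_top (hC : C.Regular) {R : Type u} [CommRing R] [Algebra k R] (T : Triple C R) :
    T.pR ⊔ i.sub T = ⊤ ∧ T.mR ⊔ i.sub T = ⊤ := by
  have hsub : i.sub T = (Model.ptsIdeal R i.Q • (⊤ : Submodule (C.A R) T.M)).restrictScalars R := rfl
  obtain ⟨⟨c, hc, hcp⟩, ⟨c', hc', hcm⟩⟩ := Div.primeTo_ptsDiv (C := C) (R := R) i.Q
  have hmem : ∀ {B : Subalgebra R (C.A R)} {x c : C.A R}, 1 - c * x ∈ Model.ptsIdeal R i.Q →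
      c ∈ B → ∀ (q : Submodule B T.M) (v : T.M) (n : ℕ), x ^ n • v ∈ q →
        ∃ a ∈ q, ∃ b ∈ i.sub T, a + b = v := by
    intro B x c h hcB q v n hn
    refine ⟨c ^ n • x ^ n • v, q.smul_mem (⟨c ^ n, pow_mem hcB n⟩ : B) hn,
      ((∑ l ∈ Finset.range n, (c * x) ^ l) * (1 - c * x)) • v, ?_, ?_⟩
    · rw [hsub, Submodule.restrictScalars_mem]
      exact Submodule.smul_mem_smul (Ideal.mul_mem_left _ _ h) Submodule.mem_top
    · rw [geom_sum_mul_neg, smul_smul, ← add_smul, mul_pow, add_sub_cancel, one_smul]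
  refine ⟨eq_top_iff.mpr fun v _ => ?_, eq_top_iff.mpr fun v _ => ?_⟩
  · obtain ⟨n, hn⟩ := T.exists_pow_smul_mem_p v
    have h : 1 - c * C.X₀ R ∈ (Model.ptsIdeal R i.Q : Submodule (C.A R) (C.A R)) := by
      rw [← Div.ptsDiv_J]; exact (Div.isGood_ptsDiv hC i.Q).le_p _ hcp
    obtain ⟨a, ha, b, hb, e⟩ := hmem h hc T.p v n hn
    exact Submodule.mem_sup.mpr ⟨a, ha, b, hb, e⟩
  · obtain ⟨n, hn⟩ := T.exists_pow_smul_mem_m v
    have h : 1 - c' * C.Y₀ R ∈ (Model.ptsIdeal R i.Q : Submodule (C.A R) (C.A R)) := by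
      rw [← Div.ptsDiv_J]; exact (Div.isGood_ptsDiv hC i.Q).le_m _ hcm
    obtain ⟨a, ha, b, hb, e⟩ := hmem h hc' T.m v n hn
    exact Submodule.mem_sup.mpr ⟨a, ha, b, hb, e⟩

theorem deg_of_isTwist (hC : C.Regular) {T N : Triple C K} (tw : i.IsTwist T N) :
    N.deg + C.chi₀ = T.deg := by
  let j : N.M →ₗ[K] T.M := tw.ι.restrictScalars K
  have hrange : LinearMap.range j =
      (Model.ptsIdeal K i.Q • (⊤ : Submodule (C.A K) T.M)).restrictScalars K :=
    Submodule.ext fun v => (tw.range v).symm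
  obtain ⟨hfinQ, hrankQ⟩ := finrank_quotient_ptsIdeal hC T i.Q
  have : Module.Finite K (T.M ⧸ LinearMap.range j) := by rw [hrange]; exact hfinQ
  obtain ⟨htp, htm⟩ := i.sup_sub_eq_top hC T
  have hP : T.pR ⊔ LinearMap.range j = ⊤ := by rw [hrange]; exact htp
  have hQ : Idx.mShift T i.m ⊔ LinearMap.range j = ⊤ := by
    refine eq_top_iff.mpr (htm.ge.trans (sup_le_sup ?_ ?_))
    · intro v hv
      exact ⟨_, T.Y_pow_smul_mem_m hv, T.X_pow_smul_Y_pow_smul i.m v⟩
    · rw [hrange]; exact le_rfl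
  have hp : T.pR.comap j = N.pR := Submodule.ext fun w => (tw.mem_p w).symm
  have hm : (Idx.mShift T i.m).comap j = N.mR := Submodule.ext fun w => (tw.mem_m w).symm
  have : Module.Finite K ↥(T.pR ⊓ Idx.mShift T i.m) := (T.shift i.m).finite_H0
  have : Module.Finite K (N.M ⧸ (T.pR.comap j ⊔ (Idx.mShift T i.m).comap j)) := by
    rw [hp, hm]; exact N.finite_H1
  have h := chiOf_eq_add j tw.inj T.pR (Idx.mShift T i.m) hP hQ
  rw [hp, hm, hrange, hrankQ] at h
  have h2 := T.deg_shift i.m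
  change chiOf T.pR (Idx.mShift T i.m) - C.chi₀ = _ at h2
  rw [h] at h2
  have h3 := i.hn
  show chiOf N.pR N.mR - C.chi₀ + C.chi₀ = T.deg
  linarith

theorem hasTwistBC (hC : C.Regular) : i.HasTwistBC where
  exists_bc _ _ _ _ _ _ _ T T' F :=
    ⟨i.twist hC T 0, i.twist hC T' 0, i.isTwistTwist hC T, i.isTwistTwist hC T', i.twistBC hC F 0,
      fun _ => rfl⟩
  deg_eq _ _ _ _ _ tw := i.deg_of_isTwist hC tw

/-- The chart conditions are fibrewise and define an open locus. -/
theorem isOpenCondition (hC : C.Regular) (e : C.Pt) : i.IsOpenCondition e :=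
  (i.hasTwistBC hC).isOpenCondition C.hasBaseChange

end Idx

end Fermat.Agent.RelPic
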