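import Fermat.Agent.RelPic.Chart.Fibre
import Fermat.Agent.RelPic.Complex.Equiv

/-!
# The frame conditions of a chart as conditions on an evaluation matrix

For semilinear functionals `r l` at the points of an index and `re` at `e`, the frame of a chart
exists if the evaluation matrix `a` of spanning sections is invertible and the entries of
`adjugate a * (values at e)` are units; over a field the converse holds.
-/

set_option autoImplicit false
set_option synthInstance.maxHeartbeats 400000

noncomputable section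

universe u

open scoped TensorProduct
open Matrix

namespace Fermat.Agent.RelPic

variable {k : Type u} [Field k] {C : Model k} {R R' : Type u} [CommRing R] [Algebra k R]
  [CommRing R'] [Algebra k R'] {φ : R →ₐ[k] R'} {T : Triple C R} {T' : Triple C R'}

namespace Triple

/-- A semilinear functional at the `R`-point `q` of the overlap. -/
def IsFnl (q : C.A R →ₐ[R] R) (r : T.M →ₗ[R] R) : Prop :=
  ∀ (a : C.A R) v, r (a • v) = q a * r v

/-- The functional at `q` given by a dual vector. -/
def fnl (q : C.A R →ₐ[R] R) (f : Module.Dual (C.A R) T.M) : T.M →ₗ[R] R :=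
  q.toLinearMap ∘ₗ f.restrictScalars R

theorem isFnl_fnl (q : C.A R →ₐ[R] R) (f : Module.Dual (C.A R) T.M) :
    T.IsFnl q (T.fnl q f) := fun a v => by simp [fnl]

/-- At every prime some dual vector gives a nonvanishing functional. -/
theorem exists_fnl_notMem (q : C.A R →ₐ[R] R) {P : Ideal R} (hP : P.IsPrime) :
    ∃ (f : Module.Dual (C.A R) T.M) (u : T.M), T.fnl q f u ∉ P := by
  have := T.invertible
  obtain ⟨w, hw⟩ := (Module.Invertible.bijective (R := C.A R) (M := T.M)).2 1
  by_contra! h
  have key : ∀ t, q (contractLeft (C.A R) T.M t) ∈ P := fun t => by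
    induction t using TensorProduct.induction_on with
    | zero => simp
    | tmul f u => rw [contractLeft_apply]; exact h f u
    | add x y hx hy => rw [map_add, map_add]; exact P.add_mem hx hy
  have h1 := key w
  rw [hw, map_one] at h1
  exact hP.ne_top ((Ideal.eq_top_iff_one P).mpr h1)

theorem exists_isFnl_surjective {K : Type u} [Field K] [Algebra k K] (S : Triple C K)
    (q : C.A K →ₐ[K] K) : ∃ r, S.IsFnl q r ∧ Function.Surjective r := by
  obtain ⟨f, u, hu⟩ := S.exists_fnl_notMem q (Ideal.isPrime_bot (α := K))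
  have hu' : S.fnl q f u ≠ 0 := fun h => hu (h ▸ zero_mem _)
  exact ⟨_, S.isFnl_fnl q f, fun c =>
    ⟨(c * (S.fnl q f u)⁻¹) • u, by rw [map_smul, smul_eq_mul, inv_mul_cancel_right₀ hu']⟩⟩

/-- A value of a functional at `q` trivialises the fibre there. -/
theorem fnl_smul_sub_mem (q : C.A R →ₐ[R] R) (f : Module.Dual (C.A R) T.M) (u v : T.M) :
    T.fnl q f u • v - T.fnl q f v • u ∈ T.vanishAt q := by
  have := T.invertible
  have hI : ∀ (a : C.A R) (w : T.M), q a • w - a • w ∈ T.vanishAt q := fun a w => by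
    rw [vanishAt, Submodule.restrictScalars_mem, ← algebraMap_smul (C.A R) (q a) w, ← sub_smul]
    exact Submodule.smul_mem_smul (RingHom.mem_ker.mpr
      (by rw [map_sub, AlgHom.commutes]; exact sub_self (q a))) Submodule.mem_top
  have h := Submodule.sub_mem _ (hI (f u) v) (hI (f v) u)
  rw [dual_apply_smul_comm f v u] at h
  rwa [sub_sub_sub_cancel_right] at h

theorem IsFnl.eq_zero {q : C.A R →ₐ[R] R} {r : T.M →ₗ[R] R} (hr : T.IsFnl q r) {v : T.M}
    (hv : v ∈ T.vanishAt q) : r v = 0 := by
  rw [vanishAt, Submodule.restrictScalars_mem] at hv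
  induction hv using Submodule.smul_induction_on' with
  | smul a ha w _ => rw [hr, RingHom.mem_ker.mp ha, zero_mul]
  | add x _ y _ hx hy => rw [map_add, hx, hy, add_zero]

/-- A section with unit value generates the fibre. -/
theorem IsFnl.gen {q : C.A R →ₐ[R] R} {r : T.M →ₗ[R] R} (hr : T.IsFnl q r) {s : T.M}
    (hs : IsUnit (r s)) : T.vanishAt q ⊔ Submodule.span R {s} = ⊤ := by
  obtain ⟨u, hu⟩ := hs
  have hsurj : Function.Surjective r := fun c => ⟨(c * ↑u⁻¹) • s, by
    rw [map_smul, ← hu, smul_eq_mul, mul_assoc, Units.inv_mul, mul_one]⟩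
  refine eq_top_iff.mpr fun v _ => Submodule.mem_sup.mpr ⟨v - (r v * ↑u⁻¹) • s, ?_, _,
    Submodule.smul_mem _ _ (Submodule.mem_span_singleton_self s), sub_add_cancel _ _⟩
  refine (T.mem_vanishAt_iff hr hsurj).mpr ?_
  rw [map_sub, map_smul, ← hu, smul_eq_mul, mul_assoc, Units.inv_mul, mul_one, sub_self]

/-- A generator of the fibre has nonzero value. -/
theorem IsFnl.ne_zero_of_gen [Nontrivial R] {q : C.A R →ₐ[R] R} {r : T.M →ₗ[R] R}
    (hr : T.IsFnl q r) (hsurj : Function.Surjective r) {s : T.M}
    (hs : T.vanishAt q ⊔ Submodule.span R {s} = ⊤) : r s ≠ 0 := by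
  intro h0
  obtain ⟨u, hu⟩ := hsurj 1
  obtain ⟨a, ha, b, hb, hab⟩ := Submodule.mem_sup.mp (hs.ge (Submodule.mem_top (x := u)))
  obtain ⟨t, rfl⟩ := Submodule.mem_span_singleton.mp hb
  rw [← hab, map_add, hr.eq_zero ha, map_smul, h0, smul_zero, add_zero] at hu
  exact zero_ne_one hu

namespace BC

/-- Base change maps vanishing sections to vanishing sections. -/
theorem map_vanishAt (F : BC φ T T') (Q : C.Pt) {v : T.M}
    (hv : v ∈ T.vanishAt (C.evalR R Q)) : F.toFun v ∈ T'.vanishAt (C.evalR R' Q) := by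
  rw [vanishAt, Submodule.restrictScalars_mem] at hv ⊢
  induction hv using Submodule.smul_induction_on' with
  | smul a ha w _ =>
    rw [F.map_smul]
    exact Submodule.smul_mem_smul (RingHom.mem_ker.mpr
      (by rw [C.evalR_mapA, RingHom.mem_ker.mp ha, map_zero])) Submodule.mem_top
  | add x _ y _ hx hy => rw [_root_.map_add]; exact add_mem hx hy

/-- Functionals at the points extend to base changes. -/
theorem exists_isFnl (F : BC φ T T') {Q : C.Pt} {r : T.M →ₗ[R] R}
    (hr : T.IsFnl (C.evalR R Q) r) :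
    ∃ r' : T'.M →ₗ[R'] R', T'.IsFnl (C.evalR R' Q) r' ∧ ∀ v, r' (F.toFun v) = φ (r v) := by
  let : Module (C.A R') R' := Module.compHom R' (C.evalR R' Q).toRingHom
  obtain ⟨r', hr'⟩ := F.exists_lift (N := R') (φ.toAddMonoidHom.comp r.toAddMonoidHom) fun a v => by
    show φ (r (a • v)) = C.evalR R' Q (C.mapA φ a) * φ (r v)
    rw [hr, map_mul, C.evalR_mapA]
  have hsm : ∀ (a : C.A R') v, r' (a • v) = C.evalR R' Q a * r' v :=
    fun a v => _root_.map_smul r' a v
  have hR : ∀ (c : R') v, r' (c • v) = c * r' v := fun c v => by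
    rw [smul_R_eq, hsm, AlgHom.commutes]; rfl
  exact ⟨{ toFun := r', map_add' := _root_.map_add r', map_smul' := hR }, hsm, hr'⟩

theorem surjective_of_isUnit {Q : C.Pt} {r' : T'.M →ₗ[R'] R'} {r : T.M →ₗ[R] R} (F : BC φ T T')
    (_hr' : T'.IsFnl (C.evalR R' Q) r') (h : ∀ v, r' (F.toFun v) = φ (r v)) {u : T.M}
    (hu : IsUnit (φ (r u))) : Function.Surjective r' := by
  obtain ⟨w, hw⟩ := hu
  exact fun c => ⟨(c * ↑w⁻¹) • F.toFun u, by
    rw [_root_.map_smul, h, ← hw, smul_eq_mul, mul_assoc, Units.inv_mul, mul_one]⟩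

end BC

end Triple

namespace Idx

variable (i : Idx C) {e : C.Pt}

/-- The evaluation matrix of sections in given functionals. -/
def evalMatrix (r : Fin C.d → T.M →ₗ[R] R) (b : Fin C.d → T.M) :
    Matrix (Fin C.d) (Fin C.d) R := Matrix.of fun j l => r l (b j)

/-- Spanning sections with invertible evaluation matrix and unit transformed values at `e` give
a chart. -/
theorem inChart_of_det (hsup : i.sub T ≤ i.twistP T ⊔ i.twistM T 0) {b : Fin C.d → T.M}
    (hb : ∀ j, b j ∈ i.sections T) (hspan : i.sections T ≤ Submodule.span R (Set.range b))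
    {r : Fin C.d → T.M →ₗ[R] R} {re : T.M →ₗ[R] R}
    (hr : ∀ l, T.IsFnl (C.evalR R (i.P l)) (r l)) (hre : T.IsFnl (C.evalR R e) re)
    (hdet : IsUnit (evalMatrix r b).det)
    (hv : ∀ j, IsUnit (((evalMatrix r b).adjugate *ᵥ fun l => re (b l)) j)) :
    i.InChart T e := by
  set a := evalMatrix r b with ha
  let s : Fin C.d → T.M := fun j => ∑ l, a.adjugate j l • b l
  have hs : ∀ j, s j ∈ i.sections T := fun j =>
    Submodule.sum_mem _ fun l _ => Submodule.smul_mem _ _ (hb l)
  have hrs : ∀ j l, r l (s j) = (a.det • (1 : Matrix (Fin C.d) (Fin C.d) R)) j l := fun j l => by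
    rw [← Matrix.adjugate_mul, Matrix.mul_apply]
    simp [s, map_sum, ha, evalMatrix]
  have hres : ∀ j, re (s j) = (a.adjugate *ᵥ fun l => re (b l)) j := fun j => by
    simp [s, map_sum, Matrix.mulVec, dotProduct]
  have hzero : ∀ g : Fin C.d → R, ∑ j, g j • s j = 0 → g = 0 := fun g hg => funext fun l => by
    have h := congrArg (r l) hg
    simp only [map_sum, map_smul, hrs, map_zero, smul_eq_mul, Matrix.smul_apply, Matrix.one_apply,
      mul_ite, mul_one, mul_zero, Finset.sum_ite_eq', Finset.mem_univ, if_true] at h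
    exact hdet.mul_left_eq_zero.mp h
  have hbs : ∀ l, ∑ j, a l j • s j = a.det • b l := fun l => by
    simp only [s, Finset.smul_sum, smul_smul]
    rw [Finset.sum_comm]
    simp only [← Finset.sum_smul]
    have h : ∀ l', ∑ j, a l j * a.adjugate j l' = (a.det • (1 : Matrix (Fin C.d) (Fin C.d) R)) l l' :=
      fun l' => by rw [← Matrix.mul_adjugate, Matrix.mul_apply]
    simp only [h, Matrix.smul_apply, Matrix.one_apply, smul_eq_mul, mul_ite, mul_one, mul_zero,
      ite_smul, zero_smul, Finset.sum_ite_eq, Finset.mem_univ, if_true]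
  refine ⟨hsup, s, hs, fun v hv' => ?_, fun j l hjl => ?_, fun j => (hr j).gen ?_,
    fun j => hre.gen ?_⟩
  · have hv'' : v ∈ Submodule.span R (Set.range s) := by
      refine (Submodule.span_le.mpr ?_) (hspan hv')
      rintro _ ⟨l, rfl⟩
      obtain ⟨w, hw⟩ := hdet
      have h : (↑w⁻¹ : R) • ∑ j, a l j • s j = b l := by
        rw [hbs, ← hw, smul_smul, Units.inv_mul, one_smul]
      rw [← h]
      exact Submodule.smul_mem _ _ (Submodule.sum_mem _ fun j _ =>
        Submodule.smul_mem _ _ (Submodule.subset_span ⟨j, rfl⟩))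
    obtain ⟨g, hg⟩ := (Submodule.mem_span_range_iff_exists_fun R).mp hv''
    refine ⟨g, hg, fun g' hg' => sub_eq_zero.mp (hzero _ ?_)⟩
    simp [sub_smul, Finset.sum_sub_distrib, hg, hg']
  · obtain ⟨w, hw⟩ := hdet
    have hsurj : Function.Surjective (r l) := fun c => ⟨(c * ↑w⁻¹) • s l, by
      rw [map_smul, hrs]; simp [← hw, mul_assoc]⟩
    refine (T.mem_vanishAt_iff (hr l) hsurj).mpr ?_
    rw [hrs]
    simp [Matrix.one_apply_ne hjl]
  · rw [hrs]; simpa using hdet
  · rw [hres]; exact hv j

variable {i}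

/-- Over a field, sections of a chart are detected by their values at the points. -/
theorem InChart.eq_zero_of_values {K : Type u} [Field K] [Algebra k K] {S : Triple C K}
    (h : i.InChart S e) {r : Fin C.d → S.M →ₗ[K] K}
    (hr : ∀ l, S.IsFnl (C.evalR K (i.P l)) (r l)) (hsurj : ∀ l, Function.Surjective (r l))
    {v : S.M} (hv : v ∈ i.sections S) (h0 : ∀ l, r l v = 0) : v = 0 := by
  obtain ⟨-, s, -, huniq, hvan, hgen, -⟩ := h
  obtain ⟨g, hg, -⟩ := huniq v hv
  have hg0 : g = 0 := funext fun l => by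
    have hl := h0 l
    rw [← hg, map_sum, Finset.sum_eq_single l (fun j _ hj => by
      rw [map_smul, (hr l).eq_zero (hvan j l hj), smul_zero]) (by simp), map_smul, smul_eq_mul,
      mul_eq_zero] at hl
    exact hl.resolve_right ((hr l).ne_zero_of_gen (hsurj l) (hgen l))
  rw [← hg, hg0]
  simp

/-- Over a field, a chart makes the evaluation matrix of spanning sections invertible. -/
theorem InChart.det_ne_zero {K : Type u} [Field K] [Algebra k K] {S : Triple C K}
    (h : i.InChart S e) {b : Fin C.d → S.M} (hb : ∀ j, b j ∈ i.sections S)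
    (hspan : i.sections S ≤ Submodule.span K (Set.range b))
    {r : Fin C.d → S.M →ₗ[K] K} {re : S.M →ₗ[K] K}
    (hr : ∀ l, S.IsFnl (C.evalR K (i.P l)) (r l)) (hsurj : ∀ l, Function.Surjective (r l))
    (hre : S.IsFnl (C.evalR K e) re) (hresurj : Function.Surjective re) :
    (evalMatrix r b).det ≠ 0 ∧
      ∀ j, ((evalMatrix r b).adjugate *ᵥ fun l => re (b l)) j ≠ 0 := by
  obtain ⟨-, s, hs, huniq, hvan, hgen, hgene⟩ := h
  choose G hG using fun l => (huniq (b l) (hb l)).exists
  choose H hH using fun j => (Submodule.mem_span_range_iff_exists_fun K).mp (hspan (hs j))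
  let G' : Matrix (Fin C.d) (Fin C.d) K := Matrix.of G
  let H' : Matrix (Fin C.d) (Fin C.d) K := Matrix.of H
  let lam : Fin C.d → K := fun j => r j (s j)
  have hlam : ∀ j, lam j ≠ 0 := fun j => (hr j).ne_zero_of_gen (hsurj j) (hgen j)
  have hrs : ∀ j l, j ≠ l → r l (s j) = 0 := fun j l hjl => (hr l).eq_zero (hvan j l hjl)
  have hA : evalMatrix r b = G' * Matrix.diagonal lam := by
    ext m l
    rw [Matrix.mul_diagonal]
    show r l (b m) = G m l * lam l
    rw [← hG m, map_sum, Finset.sum_eq_single l (fun j _ hj => by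
      rw [map_smul, hrs j l hj, smul_zero]) (by simp), map_smul, smul_eq_mul]
  have hHG : H' * G' = 1 := by
    ext j l
    have hone : ∀ l', (1 : Matrix (Fin C.d) (Fin C.d) K) j l' = (Pi.single j (1 : K) : Fin C.d → K) l' :=
      fun l' => by rw [Matrix.one_apply, Pi.single_apply]; simp only [eq_comm]
    have key : (fun l' => (H' * G') j l') = fun l' => (Pi.single j (1 : K) : Fin C.d → K) l' := by
      refine (huniq (s j) (hs j)).unique ?_ ?_
      · simp only [Matrix.mul_apply, Finset.sum_smul]
        rw [Finset.sum_comm]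
        conv_rhs => rw [← hH j]
        refine Finset.sum_congr rfl fun m _ => ?_
        rw [← hG m, Finset.smul_sum]
        exact Finset.sum_congr rfl fun x _ => by rw [smul_smul]; rfl
      · simp [Pi.single_apply, ite_smul]
    rw [hone]
    exact congrFun key l
  have hGu : IsUnit G'.det := IsUnit.of_mul_eq_one H'.det (by
    rw [mul_comm, ← Matrix.det_mul, hHG, Matrix.det_one])
  have hdet : (evalMatrix r b).det ≠ 0 := by
    rw [hA, Matrix.det_mul, Matrix.det_diagonal]
    exact mul_ne_zero hGu.ne_zero (Finset.prod_ne_zero_iff.mpr fun j _ => hlam j)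
  refine ⟨hdet, fun j hj => ?_⟩
  have hb' : (fun l => re (b l)) = G' *ᵥ fun l => re (s l) := funext fun m => by
    show re (b m) = _
    rw [← hG m, map_sum]
    simp [G', Matrix.mulVec, dotProduct]
  have hK : (evalMatrix r b).adjugate * G' * Matrix.diagonal lam =
      (evalMatrix r b).det • (1 : Matrix (Fin C.d) (Fin C.d) K) := by
    rw [Matrix.mul_assoc, ← hA, Matrix.adjugate_mul]
  have hoff : ∀ l, l ≠ j → ((evalMatrix r b).adjugate * G') j l = 0 := fun l hl => by
    have h := congrFun (congrFun hK j) l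
    rw [Matrix.mul_diagonal, Matrix.smul_apply, Matrix.one_apply_ne hl.symm, smul_zero,
      mul_eq_zero] at h
    exact h.resolve_right (hlam l)
  have hdiag : ((evalMatrix r b).adjugate * G') j j * lam j = (evalMatrix r b).det := by
    have h := congrFun (congrFun hK j) j
    rw [Matrix.mul_diagonal, Matrix.smul_apply, Matrix.one_apply_eq, smul_eq_mul, mul_one] at h
    exact h
  rw [hb', Matrix.mulVec_mulVec, Matrix.mulVec, dotProduct,
    Finset.sum_eq_single j (fun l _ hl => by rw [hoff l hl, zero_mul]) (by simp), mul_eq_zero] at hj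
  rcases hj with hj | hj
  · rw [hj, zero_mul] at hdiag; exact hdet hdiag.symm
  · exact hre.ne_zero_of_gen hresurj (hgene j) hj

end Idx

end Fermat.Agent.RelPic
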