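import Fermat.Agent.RelPic.Chart.OpenTwist
import Fermat.Agent.RelPic.Chart.OpenCore
import Fermat.Agent.RelPic.Contracts

/-!
# The chart condition is open and fibrewise

Given base changeable twists: the chart condition is stable under base change, descends along field
extensions, holds near a point where it holds on the fibre, follows from the fibres for rigidified
triples, and forces degree zero.
-/

set_option autoImplicit false
set_option synthInstance.maxHeartbeats 400000

noncomputable section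

universe u

open scoped TensorProduct
open Matrix

namespace Fermat.Agent.RelPic

namespace Idx

variable {k : Type u} [Field k] {C : Model k} {i : Idx C} {e : C.Pt}
  {R R' : Type u} [CommRing R] [Algebra k R] [CommRing R'] [Algebra k R']
  {φ : R →ₐ[k] R'} {T : Triple C R} {T' : Triple C R'}

theorem exists_algebra (φ : R →ₐ[k] R') : ∃ (_ : Algebra R R') (_ : IsScalarTower k R R'),
    φ = IsScalarTower.toAlgHom k R R' := by
  let : Algebra R R' := φ.toRingHom.toAlgebra
  exact ⟨this, IsScalarTower.of_algebraMap_eq fun x => (φ.commutes x).symm, AlgHom.ext fun _ => rfl⟩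

theorem InChart.finrank_eq {K : Type u} [Field K] [Algebra k K] {S : Triple C K}
    (h : i.InChart S e) : Module.finrank K (i.sections S) = C.d := by
  obtain ⟨-, s, hs, huniq, -⟩ := h
  let g : (Fin C.d → K) →ₗ[K] i.sections S :=
    Fintype.linearCombination K fun j => (⟨s j, hs j⟩ : i.sections S)
  have hg : ∀ f, (g f : S.M) = ∑ j, f j • s j := fun f => by
    simp [g, Fintype.linearCombination_apply]
  have hbij : Function.Bijective g := by
    refine ⟨fun f f' h => (huniq _ (g f).2).unique (hg f).symm ((hg f').symm.trans ?_), fun v => ?_⟩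
    · rw [h]
    · obtain ⟨f, hf, -⟩ := huniq _ v.2
      exact ⟨f, Subtype.ext ((hg f).trans hf)⟩
  rw [← (LinearEquiv.ofBijective g hbij).finrank_eq, Module.finrank_fin_fun]

namespace HasTwistBC

theorem map_sections (F : Triple.BC φ T T') {v : T.M} (hv : v ∈ i.sections T)
    (hi : i.HasTwistBC) (h : i.sub T ≤ i.twistP T ⊔ i.twistM T 0) :
    F.toFun v ∈ i.sections T' := by
  obtain ⟨_, _, rfl⟩ := exists_algebra φ
  obtain ⟨ε, hε⟩ := hi.exists_equiv_sections F h
  have := (ε (1 ⊗ₜ ⟨v, hv⟩)).2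
  rwa [hε] at this

/-- Spans of sections pass to base changes on which a killing function is a unit. -/
theorem sections_le_span (hi : i.HasTwistBC) (F : Triple.BC φ T T')
    (h : i.sub T ≤ i.twistP T ⊔ i.twistM T 0) {ι : Type*} {b : ι → T.M} {f : R}
    (hf : ∀ v ∈ i.sections T, f • v ∈ Submodule.span R (Set.range b)) (hu : IsUnit (φ f)) :
    i.sections T' ≤ Submodule.span R' (Set.range fun j => F.toFun (b j)) := by
  obtain ⟨_, _, rfl⟩ := exists_algebra φ
  obtain ⟨ε, hε⟩ := hi.exists_equiv_sections F h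
  obtain ⟨u, hu⟩ := hu
  intro w hw
  obtain ⟨t, ht⟩ := ε.surjective ⟨w, hw⟩
  rw [show w = (ε t : T'.M) from (congrArg Subtype.val ht).symm]
  clear ht
  induction t using TensorProduct.induction_on with
  | zero => simp
  | tmul c v =>
    have e : (ε (c ⊗ₜ v) : T'.M) = c • F.toFun v := by
      rw [show c ⊗ₜ[R] v = c • ((1 : R') ⊗ₜ[R] v) by rw [TensorProduct.smul_tmul', smul_eq_mul, mul_one],
        map_smul, Submodule.coe_smul, hε]
    rw [e]
    refine Submodule.smul_mem _ _ ?_
    have hmem : (u : R') • F.toFun v ∈ Submodule.span R' (Set.range fun j => F.toFun (b j)) := by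
      rw [hu, ← F.map_smul_base]
      refine Submodule.span_induction
        (p := fun x _ => F.toFun x ∈ Submodule.span R' (Set.range fun j => F.toFun (b j)))
        ?_ ?_ ?_ ?_ (hf v v.2)
      · rintro _ ⟨j, rfl⟩; exact Submodule.subset_span ⟨j, rfl⟩
      · rw [map_zero]; exact zero_mem _
      · intro x y _ _ hx hy; rw [map_add]; exact add_mem hx hy
      · intro r x _ hx; rw [F.map_smul_base]; exact Submodule.smul_mem _ _ hx
    have := Submodule.smul_mem _ (↑u⁻¹ : R') hmem
    rwa [smul_smul, Units.inv_mul, one_smul] at this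
  | add x y hx hy => rw [map_add, Submodule.coe_add]; exact add_mem hx hy

/-- Sections spanning the fibre at a field point span away from a function nonzero there. -/
theorem exists_span_kill (hi : i.HasTwistBC) {K : Type u} [Field K] [Algebra k K] {χ : R →ₐ[k] K}
    {S : Triple C K} (F : Triple.BC χ T S) (h : i.sub T ≤ i.twistP T ⊔ i.twistM T 0)
    {ι : Type*} {b : ι → T.M} (hb : ∀ j, b j ∈ i.sections T)
    (hspan : i.sections S ≤ Submodule.span K (Set.range fun j => F.toFun (b j))) :
    ∃ f, χ f ≠ 0 ∧ ∀ v ∈ i.sections T, f • v ∈ Submodule.span R (Set.range b) := by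
  obtain ⟨_, _, rfl⟩ := exists_algebra χ
  have := hi.finite_sections h
  obtain ⟨ε, hε⟩ := hi.exists_equiv_sections F h
  let b' : ι → i.sections T := fun j => ⟨b j, hb j⟩
  let W : Submodule R (i.sections T) := Submodule.span R (Set.range b')
  let π := W.mkQ.baseChange K
  have htop : Submodule.span K (Set.range fun j => ((1 : K) ⊗ₜ[R] b' j)) = ⊤ := by
    refine eq_top_iff.mpr fun t _ => ?_
    have hmem := hspan (ε t).2
    have himg : (Submodule.span K (Set.range fun j => ((1 : K) ⊗ₜ[R] b' j))).map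
        ((i.sections S).subtype ∘ₗ ε.toLinearMap) =
          Submodule.span K (Set.range fun j => F.toFun (b j)) := by
      rw [Submodule.map_span, ← Set.range_comp]
      exact congrArg _ (congrArg Set.range (funext fun j => hε (b' j)))
    rw [← himg] at hmem
    obtain ⟨t', ht', htt⟩ := hmem
    rwa [← ε.injective (Subtype.ext htt)]
  have hπ : ∀ t, π t = 0 := fun t => by
    have hle : Submodule.span K (Set.range fun j => ((1 : K) ⊗ₜ[R] b' j)) ≤ LinearMap.ker π :=
      Submodule.span_le.mpr (by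
        rintro _ ⟨j, rfl⟩
        show π (1 ⊗ₜ b' j) = 0
        rw [LinearMap.baseChange_tmul,
          show W.mkQ (b' j) = 0 from (Submodule.Quotient.mk_eq_zero W).mpr
            (Submodule.subset_span ⟨j, rfl⟩), TensorProduct.tmul_zero])
    exact hle (htop ▸ Submodule.mem_top)
  have hsub : Subsingleton (K ⊗[R] (i.sections T ⧸ W)) := subsingleton_of_forall_eq 0 fun x => by
    induction x using TensorProduct.induction_on with
    | zero => rfl
    | tmul c v =>
      obtain ⟨v, rfl⟩ := W.mkQ_surjective v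
      exact (LinearMap.baseChange_tmul (A := K) W.mkQ c v).symm.trans (hπ _)
    | add x y hx hy => rw [hx, hy, add_zero]
  obtain ⟨f, hf, hf0⟩ := exists_smul_eq_zero_of_field (K := K) hsub
  refine ⟨f, hf, fun v hv => ?_⟩
  have hW : f • (⟨v, hv⟩ : i.sections T) ∈ W := by
    have := hf0 (Submodule.Quotient.mk ⟨v, hv⟩)
    rwa [← Submodule.Quotient.mk_smul, Submodule.Quotient.mk_eq_zero] at this
  have := Submodule.mem_map_of_mem (f := (i.sections T).subtype) hW
  rwa [Submodule.map_span, ← Set.range_comp] at this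

/-- Sections whose images form a basis at a field point where the triple is in the chart. -/
theorem exists_lift_frame (hi : i.HasTwistBC) {K : Type u} [Field K] [Algebra k K] {χ : R →ₐ[k] K}
    {S : Triple C K} (F : Triple.BC χ T S) (h : i.sub T ≤ i.twistP T ⊔ i.twistM T 0)
    (hS : i.InChart S e) : ∃ b : Fin C.d → T.M, (∀ j, b j ∈ i.sections T) ∧
      i.sections S ≤ Submodule.span K (Set.range fun j => F.toFun (b j)) := by
  obtain ⟨_, _, rfl⟩ := exists_algebra χ
  obtain ⟨ε, hε⟩ := hi.exists_equiv_sections F h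
  let G : Set S.M := Set.range fun v : i.sections T => F.toFun v
  have hG : Submodule.span K G = i.sections S := by
    refine le_antisymm (Submodule.span_le.mpr ?_) fun w hw => ?_
    · rintro _ ⟨v, rfl⟩
      exact map_sections F v.2 hi h
    · obtain ⟨t, ht⟩ := ε.surjective ⟨w, hw⟩
      rw [show w = (ε t : S.M) from (congrArg Subtype.val ht).symm]
      clear ht
      induction t using TensorProduct.induction_on with
      | zero => simp
      | tmul c v =>
        rw [show c ⊗ₜ[R] v = c • ((1 : K) ⊗ₜ[R] v) by rw [TensorProduct.smul_tmul', smul_eq_mul, mul_one],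
          map_smul, Submodule.coe_smul, hε]
        exact Submodule.smul_mem _ _ (Submodule.subset_span ⟨v, rfl⟩)
      | add x y hx hy => rw [map_add, Submodule.coe_add]; exact add_mem hx hy
  have hd : Module.finrank K (Submodule.span K G) = C.d := by rw [hG]; exact hS.finrank_eq
  have : Module.Finite K (Submodule.span K G) :=
    Module.finite_of_finrank_pos (by rw [hd]; exact C.d_pos)
  obtain ⟨g, hg, hgs, -⟩ := Submodule.exists_fun_fin_finrank_span_eq K G
  choose v hv using hg
  refine ⟨fun j => (v (Fin.cast hd.symm j) : T.M), fun j => (v _).2, ?_⟩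
  refine hG.ge.trans (hgs.ge.trans (Submodule.span_mono ?_))
  rintro _ ⟨l, rfl⟩
  exact ⟨Fin.cast hd l, by simp [hv]⟩

end HasTwistBC

/-- Functionals given at the base, with their extensions to a base change. -/
theorem evalMatrix_map {r : Fin C.d → T.M →ₗ[R] R} {r' : Fin C.d → T'.M →ₗ[R'] R'}
    {F : Triple.BC φ T T'} (hr : ∀ l v, r' l (F.toFun v) = φ (r l v)) (b : Fin C.d → T.M) :
    evalMatrix r' (fun j => F.toFun (b j)) = φ.toRingHom.mapMatrix (evalMatrix r b) :=
  Matrix.ext fun j l => hr l (b j)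

theorem det_values_map {r : Fin C.d → T.M →ₗ[R] R} {r' : Fin C.d → T'.M →ₗ[R'] R'}
    {re : T.M →ₗ[R] R} {re' : T'.M →ₗ[R'] R'}
    {F : Triple.BC φ T T'} (hr : ∀ l v, r' l (F.toFun v) = φ (r l v))
    (hre : ∀ v, re' (F.toFun v) = φ (re v)) (b : Fin C.d → T.M) :
    (evalMatrix r' fun j => F.toFun (b j)).det = φ (evalMatrix r b).det ∧
      ∀ j, ((evalMatrix r' fun j => F.toFun (b j)).adjugate *ᵥ fun l => re' (F.toFun (b l))) j =
        φ (((evalMatrix r b).adjugate *ᵥ fun l => re (b l)) j) := by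
  rw [evalMatrix_map hr]
  refine ⟨(φ.toRingHom.map_det _).symm, fun j => ?_⟩
  rw [← φ.toRingHom.map_adjugate]
  simp only [Matrix.mulVec, dotProduct, map_sum, map_mul, hre]
  rfl

namespace HasTwistBC

/-- Near a field point in the chart everything is in the chart, once `H1` of the twist vanishes. -/
theorem exists_near (hi : i.HasTwistBC) {K : Type u} [Field K] [Algebra k K] {χ : R →ₐ[k] K}
    {S : Triple C K} (F : Triple.BC χ T S) (h : i.sub T ≤ i.twistP T ⊔ i.twistM T 0)
    (hS : i.InChart S e) :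
    ∃ f, χ f ≠ 0 ∧ ∀ (L : Type u) [Field L] [Algebra k L] (ψ : R →ₐ[k] L) (S' : Triple C L),
      Triple.BC ψ T S' → ψ f ≠ 0 → i.InChart S' e := by
  have hker : (RingHom.ker χ.toRingHom).IsPrime := RingHom.ker_isPrime _
  obtain ⟨b, hb, hspan⟩ := hi.exists_lift_frame F h hS
  obtain ⟨f₀, hf₀, hf₀'⟩ := hi.exists_span_kill F h hb hspan
  choose fl ul hul using fun l => T.exists_fnl_notMem (C.evalR R (i.P l)) hker
  obtain ⟨fe, ue, hue⟩ := T.exists_fnl_notMem (C.evalR R e) hker
  let r : Fin C.d → T.M →ₗ[R] R := fun l => T.fnl (C.evalR R (i.P l)) (fl l)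
  let re : T.M →ₗ[R] R := T.fnl (C.evalR R e) fe
  have hr : ∀ l, T.IsFnl (C.evalR R (i.P l)) (r l) := fun l => T.isFnl_fnl _ _
  have hre : T.IsFnl (C.evalR R e) re := T.isFnl_fnl _ _
  let h₀ : R := f₀ * (evalMatrix r b).det *
    ∏ j, ((evalMatrix r b).adjugate *ᵥ fun l => re (b l)) j
  have ext : ∀ (L : Type u) [Field L] [Algebra k L] (ψ : R →ₐ[k] L) (S' : Triple C L)
      (G : Triple.BC ψ T S'), ∃ (r' : Fin C.d → S'.M →ₗ[L] L) (re' : S'.M →ₗ[L] L),
      (∀ l, S'.IsFnl (C.evalR L (i.P l)) (r' l)) ∧ S'.IsFnl (C.evalR L e) re' ∧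
      (∀ l v, r' l (G.toFun v) = ψ (r l v)) ∧ ∀ v, re' (G.toFun v) = ψ (re v) := by
    intro L _ _ ψ S' G
    choose r' hr' hr'' using fun l => G.exists_isFnl (hr l)
    obtain ⟨re', hre', hre''⟩ := G.exists_isFnl hre
    exact ⟨r', re', hr', hre', hr'', hre''⟩
  refine ⟨h₀, ?_, fun L _ _ ψ S' G hψ => ?_⟩
  · obtain ⟨r', re', hr', hre', hr'', hre''⟩ := ext K χ S F
    have hsurj : ∀ l, Function.Surjective (r' l) := fun l =>
      F.surjective_of_isUnit (hr' l) (hr'' l) (u := ul l) (isUnit_iff_ne_zero.mpr (hul l))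
    have hsurje : Function.Surjective re' :=
      F.surjective_of_isUnit hre' hre'' (u := ue) (isUnit_iff_ne_zero.mpr hue)
    obtain ⟨hd, hv⟩ := hS.det_ne_zero (fun j => map_sections F (hb j) hi h) hspan hr' hsurj hre'
      hsurje
    obtain ⟨e1, e2⟩ := det_values_map hr'' hre'' b (F := F)
    rw [map_mul, map_mul, map_prod]
    refine mul_ne_zero (mul_ne_zero hf₀ (e1 ▸ hd)) (Finset.prod_ne_zero_iff.mpr fun j _ => ?_)
    exact e2 j ▸ hv j
  · rw [map_mul, map_mul, map_prod, mul_ne_zero_iff, mul_ne_zero_iff, Finset.prod_ne_zero_iff] at hψ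
    obtain ⟨r', re', hr', hre', hr'', hre''⟩ := ext L ψ S' G
    obtain ⟨e1, e2⟩ := det_values_map hr'' hre'' b (F := G)
    refine i.inChart_of_det (hi.sup_bc G h) (fun j => map_sections G (hb j) hi h)
      (hi.sections_le_span G h hf₀' (isUnit_iff_ne_zero.mpr hψ.1.1)) hr' hre' ?_ fun j => ?_
    · rw [e1]; exact isUnit_iff_ne_zero.mpr hψ.1.2
    · rw [e2]; exact isUnit_iff_ne_zero.mpr (hψ.2 j (Finset.mem_univ j))

theorem inChart_bc (hi : i.HasTwistBC) (F : Triple.BC φ T T') (h : i.InChart T e) :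
    i.InChart T' e := by
  obtain ⟨hsup, s, hs, huniq, hvan, hgen, hgene⟩ := h
  have hspanR : i.sections T ≤ Submodule.span R (Set.range s) := fun v hv => by
    obtain ⟨g, hg, -⟩ := huniq v hv
    exact hg ▸ Submodule.sum_mem _ fun j _ => Submodule.smul_mem _ _ (Submodule.subset_span ⟨j, rfl⟩)
  have hspan := hi.sections_le_span F hsup (b := s) (f := 1)
    (fun v hv => by rw [one_smul]; exact hspanR hv) (by rw [map_one]; exact isUnit_one)
  have hcoord : ∀ (Q : C.Pt) (v : T.M), T.vanishAt (C.evalR R Q) ⊔ Submodule.span R {v} = ⊤ →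
      T'.vanishAt (C.evalR R' Q) ⊔ Submodule.span R' {F.toFun v} = ⊤ := fun Q v hQ => by
    obtain ⟨r, hr, hrv⟩ := T.exists_coord hQ
    obtain ⟨r', hr', hr''⟩ := F.exists_isFnl hr
    exact hr'.gen (by rw [hr'', hrv, map_one]; exact isUnit_one)
  refine ⟨hi.sup_bc F hsup, fun j => F.toFun (s j), fun j => map_sections F (hs j) hi hsup,
    fun v hv => ?_, fun j l hjl => F.map_vanishAt _ (hvan j l hjl), fun j => hcoord _ _ (hgen j),
    fun j => hcoord _ _ (hgene j)⟩
  obtain ⟨g, hg⟩ := (Submodule.mem_span_range_iff_exists_fun R').mp (hspan hv)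
  refine ⟨g, hg, fun g' hg' => funext fun l => ?_⟩
  obtain ⟨r, hr, hrv⟩ := T.exists_coord (hgen l)
  obtain ⟨r', hr', hr''⟩ := F.exists_isFnl hr
  have key : ∀ g : Fin C.d → R', r' (∑ j, g j • F.toFun (s j)) = g l := fun g => by
    rw [_root_.map_sum, Finset.sum_eq_single l (fun j _ hj => by
      rw [_root_.map_smul, hr'.eq_zero (F.map_vanishAt _ (hvan j l hj)), smul_zero]) (by simp),
      _root_.map_smul, hr'', hrv, map_one, smul_eq_mul, mul_one]
  rw [← key g', hg', ← hg, key]

theorem inChart_of_field (hi : i.HasTwistBC) {K K' : Type u} [Field K] [Algebra k K] [Field K']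
    [Algebra k K'] {χ : K →ₐ[k] K'} {S : Triple C K} {S' : Triple C K'}
    (F : Triple.BC χ S S') (h : i.InChart S' e) : i.InChart S e := by
  have hsup' := h.1
  obtain ⟨f, hf, hkill⟩ := hi.exists_kill F hsup'
  have hf0 : f ≠ 0 := fun h0 => hf (by rw [h0, map_zero])
  have hsup : i.sub S ≤ i.twistP S ⊔ i.twistM S 0 := fun v hv => by
    have := Submodule.smul_mem (i.twistP S ⊔ i.twistM S 0) f⁻¹ (hkill v hv)
    rwa [smul_smul, inv_mul_cancel₀ hf0, one_smul] at this
  obtain ⟨b, hb, hspan⟩ := hi.exists_lift_frame F hsup h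
  obtain ⟨g, hg, hgk⟩ := hi.exists_span_kill F hsup hb hspan
  have hg0 : g ≠ 0 := fun h0 => hg (by rw [h0, map_zero])
  have hspanK : i.sections S ≤ Submodule.span K (Set.range b) := fun v hv => by
    have := Submodule.smul_mem (Submodule.span K (Set.range b)) g⁻¹ (hgk v hv)
    rwa [smul_smul, inv_mul_cancel₀ hg0, one_smul] at this
  choose r hr hsurj using fun l => S.exists_isFnl_surjective (C.evalR K (i.P l))
  obtain ⟨re, hre, hesurj⟩ := S.exists_isFnl_surjective (C.evalR K e)
  choose r' hr' hr'' using fun l => F.exists_isFnl (hr l)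
  obtain ⟨re', hre', hre''⟩ := F.exists_isFnl hre
  have hone : ∀ l, ∃ u, r l u = 1 := fun l => hsurj l 1
  choose u hu using hone
  obtain ⟨ue, hue⟩ := hesurj 1
  obtain ⟨hd, hv⟩ := h.det_ne_zero (fun j => map_sections F (hb j) hi hsup) hspan hr'
    (fun l => F.surjective_of_isUnit (hr' l) (hr'' l) (u := u l) (by rw [hu, map_one]; exact isUnit_one))
    hre' (F.surjective_of_isUnit hre' hre'' (u := ue) (by rw [hue, map_one]; exact isUnit_one))
  obtain ⟨e1, e2⟩ := det_values_map hr'' hre'' b (F := F)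
  refine i.inChart_of_det hsup hb hspanK hr hre (isUnit_iff_ne_zero.mpr fun h0 => hd ?_) fun j =>
    isUnit_iff_ne_zero.mpr fun h0 => hv j ?_
  · rw [e1, h0, map_zero]
  · rw [e2, h0, map_zero]

theorem isDegZero (hi : i.HasTwistBC) (h : i.InChart T e) : T.IsDegZero := by
  rintro K _ _ χ S ⟨F⟩
  have hS := hi.inChart_bc F h
  have := hi.finrank_sections S hS.1
  rw [hS.finrank_eq] at this
  linarith

theorem exists_inChart_fibre (hC : C.HasBaseChange) {q : PrimeSpectrum R} (hq : q ∈ i.locus T e) :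
    ∃ (S : Triple C q.asIdeal.ResidueField)
      (_ : Triple.BC (IsScalarTower.toAlgHom k R q.asIdeal.ResidueField) T S), i.InChart S e := by
  obtain ⟨S, ⟨F⟩⟩ := hC R q.asIdeal.ResidueField (IsScalarTower.toAlgHom k R _) T
  exact ⟨S, F, hq S ⟨F⟩⟩

theorem isOpen_locus (hi : i.HasTwistBC) (hC : C.HasBaseChange) (T : Triple C R) :
    IsOpen (i.locus T e) := by
  refine isOpen_iff_forall_mem_open.mpr fun q hq => ?_
  obtain ⟨S, F, hS⟩ := exists_inChart_fibre hC hq
  obtain ⟨f₁, hf₁, hkill⟩ := hi.exists_kill F hS.1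
  obtain ⟨T₁, ⟨F₁⟩⟩ := hC R (Localization.Away f₁)
    (IsScalarTower.toAlgHom k R (Localization.Away f₁)) T
  have hsup₁ := hi.sup_of_isUnit F₁ hkill (IsLocalization.Away.algebraMap_isUnit f₁)
  have fac : ∀ (L : Type u) [Field L] [Algebra k L] (ψ : R →ₐ[k] L) (S' : Triple C L),
      Triple.BC ψ T S' → ψ f₁ ≠ 0 → ∃ ψ₁ : Localization.Away f₁ →ₐ[k] L,
        (∀ a, ψ₁ (algebraMap R _ a) = ψ a) ∧ Nonempty (Triple.BC ψ₁ T₁ S') := by
    intro L _ _ ψ S' G hne
    have hu : IsUnit (ψ.toRingHom f₁) := isUnit_iff_ne_zero.mpr hne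
    let ψ₁ : Localization.Away f₁ →ₐ[k] L :=
      AlgHom.mk (IsLocalization.Away.lift f₁ (g := ψ.toRingHom) hu)
        fun c => by
          show IsLocalization.Away.lift f₁ _ (algebraMap k (Localization.Away f₁) c) = _
          rw [IsScalarTower.algebraMap_apply k R (Localization.Away f₁), IsLocalization.Away.lift_eq]
          exact ψ.commutes c
    have hψ₁ : ∀ a, ψ₁ (algebraMap R _ a) = ψ a := fun a => IsLocalization.Away.lift_eq f₁ hu a
    obtain ⟨S'', ⟨G'⟩⟩ := hC (Localization.Away f₁) L ψ₁ T₁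
    have hcomp : ψ₁.comp (IsScalarTower.toAlgHom k R (Localization.Away f₁)) = ψ :=
      AlgHom.ext hψ₁
    obtain ⟨ε⟩ := (hcomp ▸ F₁.comp G').nonempty_equiv G
    exact ⟨ψ₁, hψ₁, ⟨G'.congr_right ε⟩⟩
  obtain ⟨χ₁, hχ₁, ⟨G₁⟩⟩ := fac _ _ S F hf₁
  obtain ⟨g, hg, hnear⟩ := hi.exists_near G₁ hsup₁ hS
  obtain ⟨n, g₀, hg₀⟩ := IsLocalization.Away.surj f₁ g
  refine ⟨PrimeSpectrum.basicOpen (f₁ * g₀), fun q' hq' => ?_, PrimeSpectrum.isOpen_basicOpen, ?_⟩
  · rintro S' ⟨G⟩
    have hne : IsScalarTower.toAlgHom k R q'.asIdeal.ResidueField (f₁ * g₀) ≠ 0 := fun h0 =>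
      hq' (Ideal.algebraMap_residueField_eq_zero.mp h0)
    rw [map_mul, mul_ne_zero_iff] at hne
    obtain ⟨ψ₁, hψ₁, ⟨G'⟩⟩ := fac _ _ S' G hne.1
    refine hnear _ ψ₁ S' G' fun h0 => hne.2 ?_
    rw [← hψ₁, ← hg₀, map_mul, h0, zero_mul]
  · intro hmem
    have h0 := Ideal.algebraMap_residueField_eq_zero (I := q.asIdeal).mpr hmem
    rw [map_mul, mul_eq_zero] at h0
    rcases h0 with h0 | h0
    · exact hf₁ h0
    · refine hg ?_
      have h1 : χ₁ (g * algebraMap R _ f₁ ^ n) = 0 := by rw [hg₀, hχ₁]; exact h0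
      rw [map_mul, map_pow, hχ₁, mul_eq_zero] at h1
      exact h1.resolve_right (pow_ne_zero _ hf₁)

theorem inChart_of_locus (hi : i.HasTwistBC) (hC : C.HasBaseChange) (hrig : T.IsRigid e)
    (hall : i.locus T e = Set.univ) : i.InChart T e := by
  obtain ⟨re, hre, hesurj⟩ := hrig
  obtain ⟨ue, hue⟩ := hesurj 1
  have hfib : ∀ q : PrimeSpectrum R, ∃ (S : Triple C q.asIdeal.ResidueField)
      (_ : Triple.BC (IsScalarTower.toAlgHom k R q.asIdeal.ResidueField) T S), i.InChart S e :=
    fun q => exists_inChart_fibre hC (hall ▸ Set.mem_univ q)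
  have hnot : ∀ (q : PrimeSpectrum R) (a : R),
      IsScalarTower.toAlgHom k R q.asIdeal.ResidueField a ≠ 0 → a ∉ q.asIdeal :=
    fun q a ha h => ha (Ideal.algebraMap_residueField_eq_zero.mpr h)
  have htop : ∀ J : Ideal R, (∀ q : PrimeSpectrum R, ∃ a ∈ J, a ∉ q.asIdeal) → J = ⊤ := by
    intro J hJ
    by_contra hne
    obtain ⟨P, hP, hle⟩ := J.exists_le_maximal hne
    obtain ⟨a, ha, hna⟩ := hJ ⟨P, hP.isPrime⟩
    exact hna (hle ha)
  -- vanishing of `H1`
  have hsup : i.sub T ≤ i.twistP T ⊔ i.twistM T 0 := fun v hv => by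
    have h := htop ((i.twistP T ⊔ i.twistM T 0).comap (LinearMap.toSpanSingleton R T.M v)) fun q => by
      obtain ⟨S, F, hS⟩ := hfib q
      obtain ⟨f, hf, hk⟩ := hi.exists_kill F hS.1
      exact ⟨f, by simpa using hk v hv, hnot q f hf⟩
    simpa using h.ge (Submodule.mem_top (x := (1 : R)))
  have := hi.finite_sections hsup
  -- functionals at a point, and the images of the sections to be built
  have hloc : ∀ q : PrimeSpectrum R, ∃ (b : Fin C.d → T.M) (r : Fin C.d → T.M →ₗ[R] R)
      (u : Fin C.d → T.M), (∀ j, b j ∈ i.sections T) ∧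
      (∀ l, T.IsFnl (C.evalR R (i.P l)) (r l)) ∧ (∀ l, r l (u l) ∉ q.asIdeal) ∧
      (∀ l x v, r l x • v - r l v • x ∈ T.vanishAt (C.evalR R (i.P l))) ∧
      ∀ j, ((evalMatrix r b).adjugate *ᵥ fun l => re (b l)) j ∉ q.asIdeal := by
    intro q
    obtain ⟨S, F, hS⟩ := hfib q
    obtain ⟨b, hb, hspan⟩ := hi.exists_lift_frame F hsup hS
    choose fl ul hul using fun l => T.exists_fnl_notMem (C.evalR R (i.P l)) q.isPrime
    refine ⟨b, fun l => T.fnl (C.evalR R (i.P l)) (fl l), ul, hb,
      fun l => T.isFnl_fnl _ _, hul, fun l x v => T.fnl_smul_sub_mem _ _ _ _, ?_⟩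
    choose r' hr' hr'' using fun l =>
      F.exists_isFnl (T.isFnl_fnl (C.evalR R (i.P l)) (fl l))
    obtain ⟨re', hre', hre''⟩ := F.exists_isFnl hre
    obtain ⟨-, hv⟩ := hS.det_ne_zero (fun j => map_sections F (hb j) hi hsup) hspan hr'
      (fun l => F.surjective_of_isUnit (hr' l) (hr'' l) (u := ul l)
        (isUnit_iff_ne_zero.mpr fun h0 => hul l (Ideal.algebraMap_residueField_eq_zero.mp h0)))
      hre' (F.surjective_of_isUnit hre' hre'' (u := ue) (by rw [hue, map_one]; exact isUnit_one))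
    obtain ⟨-, e2⟩ := det_values_map hr'' hre'' b (F := F)
    exact fun j hj => hv j (by rw [e2]; exact Ideal.algebraMap_residueField_eq_zero.mpr hj)
  -- the sections vanishing at all points but one, normalised at `e`
  let J : Fin C.d → Submodule R T.M := fun j => i.sections T ⊓
    ⨅ l, ⨅ (_ : j ≠ l), T.vanishAt (C.evalR R (i.P l))
  have hJ : ∀ j, (J j).map re = ⊤ := fun j => htop _ fun q => by
    obtain ⟨b, r, u, hb, hr, hc, hcu, hv⟩ := hloc q
    let s : T.M := ∑ l, (evalMatrix r b).adjugate j l • b l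
    let cc : R := ∏ l, r l (u l)
    have hs : ∀ l, j ≠ l → r l s = 0 := fun l hjl => by
      have h : r l s = ((evalMatrix r b).adjugate * evalMatrix r b) j l := by
        simp [s, map_sum, Matrix.mul_apply, evalMatrix]
      rw [h, Matrix.adjugate_mul, Matrix.smul_apply, Matrix.one_apply_ne hjl, smul_zero]
    refine ⟨re (cc • s), ⟨cc • s, ⟨Submodule.smul_mem _ _ (Submodule.sum_mem _ fun l _ =>
      Submodule.smul_mem _ _ (hb l)), ?_⟩, rfl⟩, ?_⟩
    · refine (Submodule.mem_iInf _).mpr fun l => (Submodule.mem_iInf _).mpr fun hjl => ?_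
      have h := hcu l (u l) s
      rw [hs l hjl, zero_smul, sub_zero] at h
      rw [show cc = (∏ x ∈ Finset.univ.erase l, r x (u x)) * r l (u l) from
        (Finset.prod_erase_mul _ _ (Finset.mem_univ l)).symm, mul_smul]
      exact Submodule.smul_mem _ _ h
    · rw [map_smul, smul_eq_mul]
      refine fun hmem => (q.isPrime.mem_or_mem hmem).elim (fun h => ?_) fun h => hv j ?_
      · obtain ⟨x, -, hx⟩ := q.isPrime.prod_mem_iff.mp h
        exact hc x hx
      · simpa [s, map_sum, Matrix.mulVec, dotProduct] using h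
  choose s hs hse using fun j => ((hJ j).ge (Submodule.mem_top (x := (1 : R))))
  have hsec : ∀ j, s j ∈ i.sections T := fun j => (hs j).1
  have hvan : ∀ j l, j ≠ l → s j ∈ T.vanishAt (C.evalR R (i.P l)) := fun j l hjl =>
    (Submodule.mem_iInf _).mp ((Submodule.mem_iInf _).mp (hs j).2 l) hjl
  -- local facts: spanning, and nonvanishing values
  have hfacts : ∀ q : PrimeSpectrum R,
      (∃ f, f ∉ q.asIdeal ∧ ∀ v ∈ i.sections T, f • v ∈ Submodule.span R (Set.range s)) ∧
      ∀ l, ∃ r : T.M →ₗ[R] R, T.IsFnl (C.evalR R (i.P l)) r ∧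
        r (s l) ∉ q.asIdeal ∧ ∀ x v, r x • v - r v • x ∈ T.vanishAt (C.evalR R (i.P l)) := by
    intro q
    obtain ⟨S, F, hS⟩ := hfib q
    obtain ⟨-, r, u, -, hr, hc, hcu, -⟩ := hloc q
    choose r' hr' hr'' using fun l => F.exists_isFnl (hr l)
    obtain ⟨re', hre', hre''⟩ := F.exists_isFnl hre
    have hsurj : ∀ l, Function.Surjective (r' l) := fun l =>
      F.surjective_of_isUnit (hr' l) (hr'' l) (u := u l) (isUnit_iff_ne_zero.mpr fun h0 =>
        hc l (Ideal.algebraMap_residueField_eq_zero.mp h0))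
    let w : Fin C.d → S.M := fun j => F.toFun (s j)
    have hw0 : ∀ j l, j ≠ l → r' l (w j) = 0 := fun j l hjl =>
      (hr' l).eq_zero (F.map_vanishAt _ (hvan j l hjl))
    have hne : ∀ l, r' l (w l) ≠ 0 := fun l h0 => by
      have hz : w l = 0 := hS.eq_zero_of_values hr' hsurj (map_sections F (hsec l) hi hsup) fun l' => by
        by_cases h : l = l'
        · exact h ▸ h0
        · exact hw0 l l' h
      have h1 := hre'' (s l)
      rw [show F.toFun (s l) = 0 from hz, map_zero, hse, map_one] at h1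
      exact zero_ne_one h1
    have hli : LinearIndependent q.asIdeal.ResidueField w := Fintype.linearIndependent_iff.mpr
      fun g hg l => by
        have h := congrArg (r' l) hg
        rw [map_sum, map_zero, Finset.sum_eq_single l (fun j _ hj => by
          rw [map_smul, hw0 j l hj, smul_zero]) (by simp), map_smul, smul_eq_mul, mul_eq_zero] at h
        exact h.resolve_right (hne l)
    have hspan : i.sections S ≤ Submodule.span _ (Set.range w) := by
      have hle : Submodule.span q.asIdeal.ResidueField (Set.range w) ≤ i.sections S :=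
        Submodule.span_le.mpr (by rintro _ ⟨j, rfl⟩; exact map_sections F (hsec j) hi hsup)
      have : Module.Finite q.asIdeal.ResidueField (i.sections S) :=
        Module.finite_of_finrank_pos (by rw [hS.finrank_eq]; exact C.d_pos)
      refine (Submodule.eq_of_le_of_finrank_le hle ?_).ge
      rw [hS.finrank_eq, finrank_span_eq_card hli, Fintype.card_fin]
    obtain ⟨f, hf, hk⟩ := hi.exists_span_kill F hsup hsec hspan
    refine ⟨⟨f, hnot q f hf, hk⟩, fun l => ⟨r l, hr l, fun h => hne l ?_, hcu l⟩⟩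
    rw [hr'']; exact Ideal.algebraMap_residueField_eq_zero.mpr h
  refine ⟨hsup, s, hsec, fun v hv => ?_, hvan, fun j => ?_, fun j => ?_⟩
  · have hmem : v ∈ Submodule.span R (Set.range s) := by
      have h := htop ((Submodule.span R (Set.range s)).comap (LinearMap.toSpanSingleton R T.M v))
        fun q => by
          obtain ⟨⟨f, hf, hk⟩, -⟩ := hfacts q
          exact ⟨f, by simpa using hk v hv, hf⟩
      simpa using h.ge (Submodule.mem_top (x := (1 : R)))
    obtain ⟨g, hg⟩ := (Submodule.mem_span_range_iff_exists_fun R).mp hmem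
    refine ⟨g, hg, fun g' hg' => funext fun l => sub_eq_zero.mp ?_⟩
    have h := htop (LinearMap.ker (LinearMap.toSpanSingleton R R (g' l - g l))) fun q => by
      obtain ⟨r, hr, hrs, -⟩ := (hfacts q).2 l
      refine ⟨r (s l), ?_, hrs⟩
      have h0 : r (∑ j, (g' j - g j) • s j) = 0 := by
        rw [show ∑ j, (g' j - g j) • s j = 0 by simp [sub_smul, Finset.sum_sub_distrib, hg, hg'],
          map_zero]
      rw [map_sum, Finset.sum_eq_single l (fun j _ hj => by
        rw [map_smul, hr.eq_zero (hvan j l hj), smul_zero]) (by simp), map_smul, smul_eq_mul,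
        mul_comm] at h0
      simpa using h0
    simpa using h.ge (Submodule.mem_top (x := (1 : R)))
  · have h := htop (Submodule.colon (T.vanishAt (C.evalR R (i.P j)) ⊔ Submodule.span R {s j})
      (Set.univ : Set T.M)) fun q => by
        obtain ⟨r, hr, hrs, hcu⟩ := (hfacts q).2 j
        refine ⟨r (s j), Submodule.mem_colon.mpr fun v _ => ?_, hrs⟩
        exact Submodule.mem_sup.mpr ⟨r (s j) • v - r v • s j, hcu (s j) v, _,
          Submodule.smul_mem _ _ (Submodule.mem_span_singleton_self _), sub_add_cancel _ _⟩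
    refine eq_top_iff.mpr fun v _ => ?_
    have := Submodule.mem_colon.mp (h.ge (Submodule.mem_top (x := (1 : R)))) v (Set.mem_univ v)
    rwa [one_smul] at this
  · exact Triple.IsFnl.gen hre (by rw [hse]; exact isUnit_one)

/-- The chart conditions are fibrewise and open. -/
theorem isOpenCondition (hi : i.HasTwistBC) (hC : C.HasBaseChange) : i.IsOpenCondition e where
  isOpen_locus _ _ _ T := hi.isOpen_locus hC T
  bc _ _ _ _ _ _ _ _ _ := fun ⟨F⟩ h => hi.inChart_bc F h
  of_locus _ _ _ _ hrig hall := hi.inChart_of_locus hC hrig hall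
  of_field _ _ _ _ _ _ _ _ _ := fun ⟨F⟩ h => hi.inChart_of_field F h
  isDegZero _ _ _ _ h := hi.isDegZero h

end HasTwistBC

end Idx

end Fermat.Agent.RelPic
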