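import Fermat.Agent.RelPic.Chart.Bridge
import Fermat.Agent.RelPic.Complex.Degree

/-!
# Cohomology of a twisted triple in terms of the original triple

Given base changeable twists, the vanishing of `H1` and the sections of a twisted bundle behave as
in `Complex.Cohomology`, stated inside the overlap module of the original triple.
-/

set_option autoImplicit false
set_option synthInstance.maxHeartbeats 400000

noncomputable section

universe u

open scoped TensorProduct

namespace Fermat.Agent.RelPic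

variable {k : Type u} [Field k] {C : Model k}

/-- A finite module vanishing at a field-valued point is killed by a function nonzero there. -/
theorem exists_smul_eq_zero_of_field {R K Q : Type u} [CommRing R] [Field K] [Algebra R K]
    [AddCommGroup Q] [Module R Q] [Module.Finite R Q] (h : Subsingleton (K ⊗[R] Q)) :
    ∃ f : R, algebraMap R K f ≠ 0 ∧ ∀ v : Q, f • v = 0 := by
  classical
  have hP : (RingHom.ker (algebraMap R K)).IsPrime := RingHom.ker_isPrime _
  let q : PrimeSpectrum R := ⟨RingHom.ker (algebraMap R K), hP⟩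
  have := q.isPrime
  let κ := q.asIdeal.ResidueField
  let σ₀ : R ⧸ q.asIdeal →+* K := Ideal.Quotient.lift _ (algebraMap R K) fun a ha => ha
  have hσ₀ : Function.Injective σ₀ :=
    RingHom.lift_injective_of_ker_le_ideal _ (fun a ha => ha) le_rfl
  let σ : κ →+* K := IsFractionRing.lift hσ₀
  have hσ : ∀ a, σ (algebraMap R κ a) = algebraMap R K a := fun a => by
    show IsFractionRing.lift hσ₀ (algebraMap (R ⧸ q.asIdeal) κ (Ideal.Quotient.mk _ a)) = _
    rw [IsFractionRing.lift_algebraMap]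
    rfl
  have hq : q ∉ Module.support R Q := fun hq => by
    have hnt := (Module.mem_support_iff_nontrivial_residueField_tensorProduct q).mp hq
    obtain ⟨t, ht⟩ := exists_ne (0 : κ ⊗[R] Q)
    obtain ⟨ℓ, hℓ⟩ := Module.Projective.exists_dual_ne_zero κ ht
    let g : Q →ₗ[R] K :=
      { toFun := fun v => σ (ℓ (1 ⊗ₜ v))
        map_add' := fun v w => by rw [TensorProduct.tmul_add, map_add, map_add]
        map_smul' := fun a v => by
          rw [TensorProduct.tmul_smul, ← algebraMap_smul κ a, map_smul, smul_eq_mul, map_mul, hσ,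
            RingHom.id_apply, Algebra.smul_def] }
    have hg : ∀ v, g v = 0 := fun v => by
      have h0 : g.liftBaseChange K ((1 : K) ⊗ₜ v) = 0 := by
        rw [Subsingleton.elim ((1 : K) ⊗ₜ[R] v) 0, map_zero]
      rwa [LinearMap.liftBaseChange_tmul, one_smul] at h0
    have hℓ0 : ∀ v, ℓ (1 ⊗ₜ v) = 0 := fun v => σ.injective ((hg v).trans (map_zero σ).symm)
    refine hℓ ((show ∀ t, ℓ t = 0 from fun t => ?_) t)
    induction t using TensorProduct.induction_on with
    | zero => simp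
    | tmul c v =>
      rw [show c ⊗ₜ[R] v = c • ((1 : κ) ⊗ₜ[R] v) by rw [TensorProduct.smul_tmul', smul_eq_mul, mul_one],
        map_smul, hℓ0, smul_zero]
    | add x y hx hy => rw [map_add, hx, hy, add_zero]
  obtain ⟨s, hs⟩ := Module.Finite.fg_top (R := R) (M := Q)
  choose r hr hr0 using Module.notMem_support_iff'.mp hq
  refine ⟨∏ x ∈ s, r x, fun hmem => ?_, fun v => ?_⟩
  · obtain ⟨x, -, hx⟩ := q.isPrime.prod_mem_iff.mp (RingHom.mem_ker.mpr hmem)
    exact hr x hx
  · have hle : (⊤ : Submodule R Q) ≤ LinearMap.ker ((∏ x ∈ s, r x) • LinearMap.id) := by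
      rw [← hs, Submodule.span_le]
      intro x hx
      show (∏ x ∈ s, r x) • x = 0
      rw [← Finset.prod_erase_mul _ _ hx, mul_smul, hr0, smul_zero]
    exact hle Submodule.mem_top

namespace Idx

variable {i : Idx C}

/-- Twists exist, commute with base change and have the expected degree. -/
structure HasTwistBC (i : Idx C) : Prop where
  exists_bc : ∀ (R R' : Type u) [CommRing R] [Algebra k R] [CommRing R'] [Algebra k R']
    (φ : R →ₐ[k] R') (T : Triple C R) (T' : Triple C R') (F : Triple.BC φ T T'),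
    ∃ (N : Triple C R) (N' : Triple C R') (tw : i.IsTwist T N) (tw' : i.IsTwist T' N')
      (G : Triple.BC φ N N'), ∀ w, tw'.ι (G.toFun w) = F.toFun (tw.ι w)
  deg_eq : ∀ (K : Type u) [Field K] [Algebra k K] (T N : Triple C K), i.IsTwist T N →
    N.deg + C.chi₀ = T.deg

variable {R R' : Type u} [CommRing R] [Algebra k R] [CommRing R'] [Algebra k R']
  {φ : R →ₐ[k] R'} {T : Triple C R} {T' : Triple C R'}

theorem HasTwistBC.exists_isTwist (hi : i.HasTwistBC) (T : Triple C R) :
    ∃ N, Nonempty (i.IsTwist T N) := by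
  obtain ⟨N, -, tw, -, -, -⟩ := hi.exists_bc R R (AlgHom.id k R) T T (Triple.BC.refl T)
  exact ⟨N, ⟨tw⟩⟩

namespace IsTwist

variable {N : Triple C R} (tw : i.IsTwist T N)

include tw

theorem mem_twistP (w : N.M) : tw.ι w ∈ i.twistP T ↔ w ∈ N.p :=
  ⟨fun h => (tw.mem_p w).mpr h.2, fun h => ⟨tw.ι_mem_sub w, (tw.mem_p w).mp h⟩⟩

theorem mem_twistM (w : N.M) : tw.ι w ∈ i.twistM T 0 ↔ w ∈ N.m :=
  ⟨fun h => (tw.mem_m w).mpr h.2, fun h => ⟨tw.ι_mem_sub w, (tw.mem_m w).mp h⟩⟩

theorem smul_mem_iff (f : R) (w : N.M) :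
    f • tw.ι w ∈ i.twistP T ⊔ i.twistM T 0 ↔ f • w ∈ N.pR ⊔ N.mR := by
  rw [← LinearMap.map_smul_of_tower]
  constructor
  · intro h
    obtain ⟨a, ha, b, hb, hab⟩ := Submodule.mem_sup.mp h
    obtain ⟨wa, rfl⟩ := (tw.range a).mp ha.1
    obtain ⟨wb, rfl⟩ := (tw.range b).mp hb.1
    rw [← map_add] at hab
    rw [← tw.inj hab]
    exact Submodule.add_mem_sup ((tw.mem_twistP _).mp ha) ((tw.mem_twistM _).mp hb)
  · intro h
    obtain ⟨a, ha, b, hb, hab⟩ := Submodule.mem_sup.mp h
    rw [← hab, map_add]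
    exact Submodule.add_mem_sup ((tw.mem_twistP _).mpr ha) ((tw.mem_twistM _).mpr hb)

theorem kills_iff (f : R) :
    (∀ v ∈ i.sub T, f • v ∈ i.twistP T ⊔ i.twistM T 0) ↔ ∀ w, f • w ∈ N.pR ⊔ N.mR := by
  refine ⟨fun h w => (tw.smul_mem_iff f w).mp (h _ (tw.ι_mem_sub w)), fun h v hv => ?_⟩
  obtain ⟨w, rfl⟩ := (tw.range v).mp hv
  exact (tw.smul_mem_iff f w).mpr (h w)

theorem sup_iff : i.sub T ≤ i.twistP T ⊔ i.twistM T 0 ↔ N.pR ⊔ N.mR = ⊤ := by
  have h := tw.kills_iff 1
  simp only [one_smul] at h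
  exact h.trans ⟨fun h => eq_top_iff.mpr fun w _ => h w, fun h w => h ▸ Submodule.mem_top⟩

theorem sup_shift (h : N.pR ⊔ N.mR = ⊤) : (N.shift 1).pR ⊔ (N.shift 1).mR = ⊤ := by
  refine eq_top_iff.mpr (h.ge.trans (sup_le_sup_left ?_ _))
  rw [← N.mShift_zero]
  exact N.mShift_le_succ 0

theorem mem_sections_iff (w : N.M) :
    tw.ι w ∈ i.sections T ↔ w ∈ N.pR ⊓ Idx.mShift N 1 := by
  rw [tw.mem_sections, Submodule.mem_inf, ← N.mShift_zero, ← N.mem_mShift_succ 0]

/-- Sections of the twist, seen in the original triple. -/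
def secEquiv : (N.shift 1).H0 ≃ₗ[R] i.sections T :=
  LinearEquiv.ofBijective
    (((tw.ι.restrictScalars R).comp (N.pR ⊓ Idx.mShift N 1).subtype).codRestrict (i.sections T)
      fun w => (tw.mem_sections_iff w).mpr w.2)
    ⟨fun w w' h => Subtype.ext (tw.inj (congrArg Subtype.val h)), fun v => by
      obtain ⟨w, hw⟩ := (tw.range v).mp v.2.1.1
      exact ⟨⟨w, (tw.mem_sections_iff w).mp (hw ▸ v.2)⟩, Subtype.ext hw⟩⟩

theorem secEquiv_apply (w : (N.shift 1).H0) :
    (tw.secEquiv w : T.M) = tw.ι (w.1 : (N.shift 1).M) := rfl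

end IsTwist

namespace HasTwistBC

/-- A function killing `H1` of the twist and invertible on the new base gives vanishing there. -/
theorem sup_of_isUnit (hi : i.HasTwistBC) (F : Triple.BC φ T T') {f : R}
    (hf : ∀ v ∈ i.sub T, f • v ∈ i.twistP T ⊔ i.twistM T 0) (hu : IsUnit (φ f)) :
    i.sub T' ≤ i.twistP T' ⊔ i.twistM T' 0 := by
  obtain ⟨N, N', tw, tw', G, -⟩ := hi.exists_bc R R' φ T T' F
  exact tw'.sup_iff.mpr (G.sup_eq_top_of_isUnit ((tw.kills_iff f).mp hf) hu)

theorem sup_bc (hi : i.HasTwistBC) (F : Triple.BC φ T T')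
    (h : i.sub T ≤ i.twistP T ⊔ i.twistM T 0) : i.sub T' ≤ i.twistP T' ⊔ i.twistM T' 0 :=
  hi.sup_of_isUnit F (f := 1) (fun v hv => by rw [one_smul]; exact h hv)
    (by rw [map_one]; exact isUnit_one)

/-- If `H1` of the twist vanishes at a field point, some function nonzero there kills it. -/
theorem exists_kill (hi : i.HasTwistBC) {K : Type u} [Field K] [Algebra k K] {χ : R →ₐ[k] K}
    {S : Triple C K} (F : Triple.BC χ T S) (h : i.sub S ≤ i.twistP S ⊔ i.twistM S 0) :
    ∃ f, χ f ≠ 0 ∧ ∀ v ∈ i.sub T, f • v ∈ i.twistP T ⊔ i.twistM T 0 := by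
  obtain ⟨N, N', tw, tw', G, -⟩ := hi.exists_bc R K χ T S F
  let : Algebra R K := χ.toRingHom.toAlgebra
  have : IsScalarTower k R K := IsScalarTower.of_algebraMap_eq fun x => (χ.commutes x).symm
  have hχ : χ = IsScalarTower.toAlgHom k R K := AlgHom.ext fun _ => rfl
  replace G : Triple.BC (IsScalarTower.toAlgHom k R K) N N' := hχ ▸ G
  obtain ⟨ε, -⟩ := G.exists_equiv_H1
  have := N.finite_H1
  have : Subsingleton N'.H1 := Submodule.Quotient.subsingleton_iff.mpr (tw'.sup_iff.mp h)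
  obtain ⟨f, hf, hf0⟩ := exists_smul_eq_zero_of_field (K := K) (Q := N.H1) ε.toEquiv.subsingleton
  refine ⟨f, hf, (tw.kills_iff f).mpr fun w => ?_⟩
  have := hf0 (Submodule.Quotient.mk w)
  rwa [← Submodule.Quotient.mk_smul, Submodule.Quotient.mk_eq_zero] at this

theorem finite_sections (hi : i.HasTwistBC) (h : i.sub T ≤ i.twistP T ⊔ i.twistM T 0) :
    Module.Finite R (i.sections T) := by
  obtain ⟨N, ⟨tw⟩⟩ := hi.exists_isTwist T
  have := ((N.shift 1).finite_projective_H0 (tw.sup_shift (tw.sup_iff.mp h))).1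
  exact Module.Finite.equiv tw.secEquiv

section

variable [Algebra R R'] [IsScalarTower k R R']

/-- Without `H1` the sections of the twist commute with base change. -/
theorem exists_equiv_sections (hi : i.HasTwistBC)
    (F : Triple.BC (IsScalarTower.toAlgHom k R R') T T')
    (h : i.sub T ≤ i.twistP T ⊔ i.twistM T 0) :
    ∃ ε : R' ⊗[R] i.sections T ≃ₗ[R'] i.sections T',
      ∀ v : i.sections T, (ε (1 ⊗ₜ v) : T'.M) = F.toFun v := by
  obtain ⟨N, N', tw, tw', G, hG⟩ := hi.exists_bc R R' _ T T' F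
  obtain ⟨ε, hε⟩ := (G.shift 1).exists_equiv_H0 (tw.sup_shift (tw.sup_iff.mp h))
  refine ⟨(tw.secEquiv.baseChange R R' _ _).symm.trans (ε.trans tw'.secEquiv), fun v => ?_⟩
  obtain ⟨w, rfl⟩ := tw.secEquiv.surjective v
  rw [LinearEquiv.trans_apply, LinearEquiv.trans_apply,
    show (tw.secEquiv.baseChange R R' _ _).symm (1 ⊗ₜ tw.secEquiv w) = 1 ⊗ₜ w by
      rw [LinearEquiv.symm_apply_eq, LinearEquiv.baseChange_tmul],
    tw'.secEquiv_apply, tw.secEquiv_apply]
  show tw'.ι ((ε (1 ⊗ₜ w)).1 : (N'.shift 1).M) = F.toFun (tw.ι (w.1 : (N.shift 1).M))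
  rw [hε]
  exact hG _

end

/-- Over a field the sections have dimension `deg + d`. -/
theorem finrank_sections (hi : i.HasTwistBC) {K : Type u} [Field K] [Algebra k K] (S : Triple C K)
    (h : i.sub S ≤ i.twistP S ⊔ i.twistM S 0) :
    (Module.finrank K (i.sections S) : ℤ) = S.deg + C.d := by
  obtain ⟨N, ⟨tw⟩⟩ := hi.exists_isTwist S
  have h1 : Subsingleton (N.shift 1).H1 :=
    Submodule.Quotient.subsingleton_iff.mpr (tw.sup_shift (tw.sup_iff.mp h))
  have h2 := N.deg_shift 1
  rw [Triple.deg, chiOf, Module.finrank_zero_of_subsingleton (M := (N.shift 1).H1)] at h2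
  rw [← tw.secEquiv.finrank_eq, ← hi.deg_eq K S N tw]
  simp only [Nat.cast_zero, sub_zero, Nat.cast_one, mul_one] at h2
  linarith

end HasTwistBC

end Idx

end Fermat.Agent.RelPic
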