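import Fermat.Agent.RelPic.Basic
import Mathlib.Algebra.Polynomial.Laurent
import Mathlib.Algebra.FreeAlgebra
import Mathlib.Algebra.MonoidAlgebra.Basic
import Mathlib.RingTheory.FinitePresentation
import Mathlib.Data.Int.Interval
import Mathlib.RingTheory.Polynomial.Basic
import Mathlib.Data.Matrix.Basic
import Mathlib.LinearAlgebra.Matrix.ToLin

/-!
# Matrix models of the twisted bundles in a chart, and the ring representing them
-/

set_option autoImplicit false

noncomputable section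

universe u

open scoped TensorProduct LaurentPolynomial
open LaurentPolynomial (T)

namespace Fermat.Agent.RelPic

variable {k : Type u} [Field k]

namespace Model

variable (C : Model k)

/-- The coordinate as a unit on the overlap. -/
def xUnit : (C.A₀)ˣ where
  val := ⟨C.x, C.Ap_le C.x_mem⟩
  inv := ⟨C.x⁻¹, C.Am_le C.x_inv_mem⟩
  val_inv := Subtype.ext (mul_inv_cancel₀ C.x_ne)
  inv_val := Subtype.ext (inv_mul_cancel₀ C.x_ne)

/-- The coordinate of a rational point of the overlap, in `R`. -/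
def xAt (R : Type u) [CommRing R] [Algebra k R] (Q : C.Pt) : Rˣ :=
  Units.map ((algebraMap k R).comp Q.toRingHom).toMonoidHom C.xUnit

end Model

/-- Change of coefficients of Laurent polynomials. -/
def laurentMap {R R' : Type u} [CommRing R] [Algebra k R] [CommRing R'] [Algebra k R']
    (φ : R →ₐ[k] R') : R[T;T⁻¹] →ₐ[k] R'[T;T⁻¹] :=
  AddMonoidAlgebra.mapAlgHom ℤ φ

/-- Evaluation of Laurent polynomials at a unit. -/
def laurentEval {R : Type u} [CommRing R] (u : Rˣ) : R[T;T⁻¹] →+* R :=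
  LaurentPolynomial.eval₂ (RingHom.id R) u

theorem laurentMap_coeff {R R' : Type u} [CommRing R] [Algebra k R] [CommRing R'] [Algebra k R']
    (φ : R →ₐ[k] R') (f : R[T;T⁻¹]) (n : ℤ) : (laurentMap φ f).coeff n = φ (f.coeff n) := by
  simp [laurentMap]

theorem coeff_mul_T {R : Type u} [CommRing R] (f : R[T;T⁻¹]) (m n : ℤ) :
    (f * T m).coeff n = f.coeff (n - m) := by
  show (f * AddMonoidAlgebra.single m 1).coeff n = _
  rw [AddMonoidAlgebra.coeff_mul_single_apply, mul_one, sub_eq_add_neg]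

theorem laurentMap_single {R R' : Type u} [CommRing R] [Algebra k R] [CommRing R'] [Algebra k R']
    (φ : R →ₐ[k] R') (n : ℤ) (r : R) :
    laurentMap φ (AddMonoidAlgebra.single n r) = AddMonoidAlgebra.single n (φ r) := by
  simp only [laurentMap, AddMonoidAlgebra.mapAlgHom_single]

theorem laurentMap_T {R R' : Type u} [CommRing R] [Algebra k R] [CommRing R'] [Algebra k R']
    (φ : R →ₐ[k] R') (n : ℤ) : laurentMap φ (T n) = T n := by
  show laurentMap φ (AddMonoidAlgebra.single n 1) = AddMonoidAlgebra.single n 1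
  rw [laurentMap_single, map_one]

theorem laurentEval_map {R R' : Type u} [CommRing R] [Algebra k R] [CommRing R'] [Algebra k R']
    (φ : R →ₐ[k] R') (u : Rˣ) (f : R[T;T⁻¹]) :
    laurentEval (Units.map (φ : R →* R') u) (laurentMap φ f) = φ (laurentEval u f) := by
  induction f using LaurentPolynomial.induction_on' with
  | add p q hp hq => simp [map_add, hp, hq]
  | C_mul_T n a =>
    have h1 : laurentMap φ (LaurentPolynomial.C a * T n) = LaurentPolynomial.C (φ a) * T n := by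
      rw [map_mul, laurentMap_T]
      exact congrArg (· * T n) (laurentMap_single φ 0 a)
    rw [h1]
    simp [laurentEval, LaurentPolynomial.eval₂_C_mul_T, ← map_zpow]

/-- The matrix of a twisted bundle of the chart `i` in its normalised frame. -/
structure Rep {C : Model k} (i : Idx C) (e : C.Pt) (R : Type u) [CommRing R] [Algebra k R] where
  ρ : C.A₀ →ₐ[k] Matrix (Fin C.d) (Fin C.d) R[T;T⁻¹]
  ρ_x : ρ C.xUnit = (T 1 : R[T;T⁻¹]) • (1 : Matrix (Fin C.d) (Fin C.d) R[T;T⁻¹])
  pos : ∀ a : C.A₀, (a : C.F) ∈ C.Ap → ∀ j l, ∀ n : ℤ, n < 0 → (ρ a j l).coeff n = 0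
  neg : ∀ a : C.A₀, (a : C.F) ∈ C.Am → ∀ j l, ∀ n : ℤ, 0 < n → (ρ a j l).coeff n = 0
  at_P : ∀ (a : C.A₀) (j l : Fin C.d),
    laurentEval (C.xAt R (i.P j)) (ρ a j l) = if j = l then algebraMap k R (i.P j a) else 0
  at_e : ∀ (a : C.A₀) (l : Fin C.d),
    ∑ j, laurentEval (C.xAt R e) (ρ a j l) = algebraMap k R (e a)

namespace Rep

variable {C : Model k} {i : Idx C} {e : C.Pt} {R R' : Type u} [CommRing R] [Algebra k R]
  [CommRing R'] [Algebra k R']

@[ext]
theorem ext' {P Q : Rep i e R} (h : ∀ a, P.ρ a = Q.ρ a) : P = Q := by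
  obtain ⟨ρ, _⟩ := P
  obtain ⟨σ, _⟩ := Q
  obtain rfl : ρ = σ := AlgHom.ext h
  rfl

theorem xAt_map (φ : R →ₐ[k] R') (Q : C.Pt) : Units.map (φ : R →* R') (C.xAt R Q) = C.xAt R' Q := by
  ext
  simp [Model.xAt]

/-- Change of base. -/
def map (φ : R →ₐ[k] R') (P : Rep i e R) : Rep i e R' where
  ρ := (laurentMap φ).mapMatrix.comp P.ρ
  ρ_x := by
    rw [AlgHom.comp_apply, P.ρ_x]
    ext j l : 1
    by_cases h : j = l <;> simp [h, laurentMap_T]
  pos a ha j l n hn := by simp [laurentMap_coeff, P.pos a ha j l n hn]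
  neg a ha j l n hn := by simp [laurentMap_coeff, P.neg a ha j l n hn]
  at_P a j l := by
    rw [← xAt_map φ, AlgHom.comp_apply, AlgHom.mapMatrix_apply, Matrix.map_apply, laurentEval_map,
      P.at_P]
    split <;> simp
  at_e a l := by
    simp only [← xAt_map φ, AlgHom.comp_apply, AlgHom.mapMatrix_apply, Matrix.map_apply,
      laurentEval_map, ← map_sum, P.at_e, AlgHom.commutes]

theorem map_ρ (φ : R →ₐ[k] R') (P : Rep i e R) (a : C.A₀) (j l : Fin C.d) :
    (P.map φ).ρ a j l = laurentMap φ (P.ρ a j l) := rfl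

end Rep

section Representing

variable (C : Model k)

theorem exists_generators [Algebra.FiniteType k C.Ap] [Algebra.FiniteType k C.Am] :
    ∃ (G : Finset C.A₀), Algebra.adjoin k (G : Set C.A₀) = ⊤ ∧
      ∀ g ∈ G, (g : C.F) ∈ C.Ap ∨ (g : C.F) ∈ C.Am := by
  classical
  obtain ⟨s, hs⟩ := (‹Algebra.FiniteType k C.Ap›).out
  obtain ⟨t, ht⟩ := (‹Algebra.FiniteType k C.Am›).out
  let G : Finset C.A₀ := s.image (Subalgebra.inclusion C.Ap_le) ∪
    t.image (Subalgebra.inclusion C.Am_le)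
  refine ⟨G, Algebra.eq_top_iff.mpr fun a => ?_, fun g hg => ?_⟩
  · have hp : ∀ b : C.Ap, Subalgebra.inclusion C.Ap_le b ∈ Algebra.adjoin k (G : Set C.A₀) := by
      intro b
      have hb : b ∈ Algebra.adjoin k (s : Set C.Ap) := hs ▸ Algebra.mem_top
      have hb' : Subalgebra.inclusion C.Ap_le b ∈
          (Algebra.adjoin k (s : Set C.Ap)).map (Subalgebra.inclusion C.Ap_le) := ⟨b, hb, rfl⟩
      rw [AlgHom.map_adjoin] at hb'
      refine Algebra.adjoin_mono ?_ hb'
      rintro _ ⟨c, hc, rfl⟩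
      exact Finset.mem_union_left _ (Finset.mem_image_of_mem _ hc)
    have hm : ∀ b : C.Am, Subalgebra.inclusion C.Am_le b ∈ Algebra.adjoin k (G : Set C.A₀) := by
      intro b
      have hb : b ∈ Algebra.adjoin k (t : Set C.Am) := ht ▸ Algebra.mem_top
      have hb' : Subalgebra.inclusion C.Am_le b ∈
          (Algebra.adjoin k (t : Set C.Am)).map (Subalgebra.inclusion C.Am_le) := ⟨b, hb, rfl⟩
      rw [AlgHom.map_adjoin] at hb'
      refine Algebra.adjoin_mono ?_ hb'
      rintro _ ⟨c, hc, rfl⟩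
      exact Finset.mem_union_right _ (Finset.mem_image_of_mem _ hc)
    obtain ⟨n, hn⟩ := C.exists_mul_pow_mem a a.2
    have ha : a = Subalgebra.inclusion C.Ap_le ⟨_, hn⟩ *
        Subalgebra.inclusion C.Am_le (⟨C.x⁻¹, C.x_inv_mem⟩ ^ n) := by
      apply Subtype.ext
      simp [mul_assoc, mul_inv_cancel₀ (pow_ne_zero n C.x_ne)]
    rw [ha]
    exact mul_mem (hp _) (hm _)
  · rcases Finset.mem_union.mp hg with h | h <;> obtain ⟨b, -, rfl⟩ := Finset.mem_image.mp h
    exacts [.inl b.2, .inr b.2]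

variable {C} {i : Idx C} {e : C.Pt}

theorem Rep.exists_bound (a : C.A₀) (ha : (a : C.F) ∈ C.Ap ∨ (a : C.F) ∈ C.Am) :
    ∃ N : ℕ, ∀ (R : Type u) [CommRing R] [Algebra k R] (P : Rep i e R) (j l : Fin C.d) (n : ℤ),
      (P.ρ a j l).coeff n ≠ 0 → n ∈ Finset.Icc (-(N : ℤ)) N := by
  have hu : ∀ m : ℕ, (((C.xUnit : C.A₀) ^ m : C.A₀) : C.F) = C.x ^ m := fun m => rfl
  have key : ∀ (R : Type u) [CommRing R] [Algebra k R] (P : Rep i e R) (b : C.A₀) (m : ℕ)
      (j l : Fin C.d), P.ρ (b * (C.xUnit : C.A₀) ^ m) j l = P.ρ b j l * T m := by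
    intro R _ _ P b m j l
    rw [map_mul, map_pow, P.ρ_x, smul_pow, one_pow, Matrix.mul_smul, mul_one, Matrix.smul_apply,
      smul_eq_mul, LaurentPolynomial.T_pow, mul_one, mul_comm]
  rcases ha with ha | ha
  · obtain ⟨N, hN⟩ := C.exists_mul_inv_pow_mem a a.2
    refine ⟨N, fun R _ _ P j l n hn => ?_⟩
    let b : C.A₀ := ⟨_, C.Am_le hN⟩
    have hab : a = b * (C.xUnit : C.A₀) ^ N := by
      apply Subtype.ext
      show (a : C.F) = (b : C.F) * _
      rw [hu]
      simp [b, mul_assoc, inv_mul_cancel₀ (pow_ne_zero N C.x_ne)]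
    have h0 : 0 ≤ n := le_of_not_gt fun h => hn (P.pos a ha j l n h)
    refine Finset.mem_Icc.mpr ⟨by omega, le_of_not_gt fun h => hn ?_⟩
    rw [hab, key, coeff_mul_T]
    exact P.neg b hN j l _ (by omega)
  · obtain ⟨N, hN⟩ := C.exists_mul_pow_mem a a.2
    refine ⟨N, fun R _ _ P j l n hn => ?_⟩
    have h0 : n ≤ 0 := le_of_not_gt fun h => hn (P.neg a ha j l n h)
    refine Finset.mem_Icc.mpr ⟨le_of_not_gt fun h => hn ?_, by omega⟩
    have := P.pos (a * (C.xUnit : C.A₀) ^ N) hN j l (n + N) (by omega)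
    rwa [key, coeff_mul_T, add_sub_cancel_right] at this

end Representing

end Fermat.Agent.RelPic
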